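import Fermat.Agent.S24.ADefs

set_option autoImplicit false

/-! # S24 task B-HolB : the functions in `Btil` are holomorphic -/

open UpperHalfPlane ModularForm EisensteinSeries CongruenceSubgroup
open scoped MatrixGroups Manifold

namespace Fermat.Agent.S24

theorem mdiff_jFun : MDiff jFun :=
  ((E₄.holo').pow 3).div CuspForm.discriminant.holo' discriminant_ne_zero

theorem holB_mdiff_act {f : ℍ → ℂ} (hf : MDiff f) (g : SL(2, ℤ)) : MDiff (act g f) := by
  have h : MDiff (fun τ : ℍ ↦ ((g⁻¹ : SL(2, ℤ)) : GL (Fin 2) ℝ) • τ) :=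
    mdifferentiable_smul (by simp)
  exact hf.comp h

theorem holB_mdiff_pre {f : ℍ → ℂ} (hf : MDiff f) {a δ : ℕ} (b : ℕ) (ha : 0 < a) (hδ : 0 < δ) :
    MDiff (pre a b δ f) := by
  rw [mdifferentiable_iff] at hf ⊢
  have hmap : ∀ w : ℂ, 0 < w.im → 0 < ((((a : ℂ) * w + b) / δ)).im := by
    intro w hw
    have h1 : ((((a : ℂ) * w + b) / δ)).im = (a : ℝ) * w.im / δ := by
      have : (((a : ℂ) * w + b) / δ) = (((a : ℂ) * w + b)) * (((δ : ℝ)⁻¹ : ℝ) : ℂ) := by
        rw [div_eq_mul_inv]; push_cast; rfl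
      rw [this, Complex.im_mul_ofReal]
      simp [div_eq_mul_inv]
    rw [h1]
    positivity
  have h2 : DifferentiableOn ℂ ((f ∘ ofComplex) ∘ fun w : ℂ => ((a : ℂ) * w + b) / δ)
      {z | 0 < z.im} := by
    apply hf.comp
    · intro w _
      apply DifferentiableAt.differentiableWithinAt
      fun_prop
    · intro w hw
      exact hmap w hw
  refine h2.congr ?_
  intro w hw
  simp only [Function.comp_apply, pre]
  rw [ofComplex_apply_of_im_pos hw]

theorem Btil_le_holSub (N : ℕ) [NeZero N] : Btil N ≤ holSub := by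
  rw [Btil, Subring.closure_le]
  rintro f (⟨a, rfl⟩ | ⟨g, d, hd, rfl⟩)
  · exact mdifferentiable_const
  · have hd0 : 0 < d := Nat.pos_of_dvd_of_pos hd (Nat.pos_of_ne_zero (NeZero.ne N))
    exact holB_mdiff_act (holB_mdiff_pre mdiff_jFun 0 hd0 one_pos) g

end Fermat.Agent.S24
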