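import Fermat.Agent.S24.AbsCount

set_option autoImplicit false

/-! # S24 task C-Count : number of places over `x = 0` = number of orbits -/

namespace Fermat.Agent.S24

open AlgebraicCurve IntermediateField Polynomial

namespace Count

/-- the characteristic polynomial is the product over all embeddings. -/
theorem charpoly_map_eq_prod {k E Ω : Type*} [Field k] [Field E] [Field Ω] [Algebra k E]
    [Algebra k Ω] [FiniteDimensional k E] [Algebra.IsSeparable k E] [IsAlgClosed Ω] [Infinite k]
    (f : E) :
    ((Algebra.lmul k E f).charpoly).map (algebraMap k Ω) = ∏ σ : E →ₐ[k] Ω, (X - C (σ f)) := by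
  apply Polynomial.eq_of_infinite_eval_eq
  refine Set.Infinite.mono ?_ (Set.infinite_range_of_injective (algebraMap k Ω).injective)
  rintro _ ⟨t, rfl⟩
  show _ = _
  rw [Polynomial.eval_map_algebraMap, Polynomial.aeval_algebraMap_apply_eq_algebraMap_eval,
    LinearMap.eval_charpoly, Polynomial.eval_prod]
  have h1 : (algebraMap k (Module.End k E) t - Algebra.lmul k E f)
      = Algebra.lmul k E (algebraMap k E t - f) := by
    ext y
    simp [Algebra.smul_def]
  rw [h1, ← Algebra.norm_apply, Algebra.norm_eq_prod_embeddings]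
  refine Finset.prod_congr rfl fun σ _ => ?_
  simp

theorem exists_charpoly {k E M : Type*} [Field k] [Field E] [Field M] [Algebra k E]
    [FiniteDimensional k E] [CharZero k] {Q : Type*} [Fintype Q]
    (σ : Q → (E →+* M)) (hσ : Function.Injective σ)
    (hagree : ∀ q q' (a : k), σ q (algebraMap k E a) = σ q' (algebraMap k E a))
    (hcard : Fintype.card Q = Module.finrank k E) (f : E) :
    ∃ P : Polynomial k, ∀ q0 : Q,
      P.map ((σ q0).comp (algebraMap k E)) = ∏ q : Q, (X - C (σ q f)) := by
  classical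
  have hpos : 0 < Fintype.card Q := hcard ▸ Module.finrank_pos
  obtain ⟨q1⟩ := Fintype.card_pos_iff.mp hpos
  letI : Algebra k M := ((σ q1).comp (algebraMap k E)).toAlgebra
  have halg : ∀ a : k, algebraMap k M a = σ q1 (algebraMap k E a) := fun a => rfl
  let σ' : Q → (E →ₐ[k] M) := fun q =>
    { σ q with commutes' := fun a => (hagree q q1 a).trans (halg a).symm }
  let τ : Q → (E →ₐ[k] AlgebraicClosure M) := fun q =>
    (IsScalarTower.toAlgHom k M (AlgebraicClosure M)).comp (σ' q)
  have hτinj : Function.Injective τ := by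
    intro q q' hqq
    apply hσ
    ext y
    have := congrArg (fun φ : E →ₐ[k] AlgebraicClosure M => φ y) hqq
    exact (algebraMap M (AlgebraicClosure M)).injective this
  have hτbij : Function.Bijective τ := by
    rw [Fintype.bijective_iff_injective_and_card]
    exact ⟨hτinj, by rw [hcard, AlgHom.card]⟩
  refine ⟨(Algebra.lmul k E f).charpoly, fun q0 => ?_⟩
  have hq0 : (σ q0).comp (algebraMap k E) = algebraMap k M := by
    ext a
    exact hagree q0 q1 a
  rw [hq0]
  apply Polynomial.map_injective _ (algebraMap M (AlgebraicClosure M)).injective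
  rw [Polynomial.map_map, ← IsScalarTower.algebraMap_eq, charpoly_map_eq_prod,
    Polynomial.map_prod, ← (Equiv.ofBijective τ hτbij).prod_comp]
  refine Finset.prod_congr rfl fun q _ => ?_
  simp only [Equiv.ofBijective_apply, Polynomial.map_sub, Polynomial.map_X, Polynomial.map_C]
  rfl

theorem isVal_order {K L : Type*} [Field K] [Field L] [Algebra K (LaurentSeries L)]
    (hC : ∀ a : K, ∃ c : L, algebraMap K (LaurentSeries L) a = HahnSeries.C c) :
    IsVal K (fun m : LaurentSeries L => m.order) where
  map_mul f g hf hg := HahnSeries.order_mul hf hg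
  map_add f g _ _ hfg := HahnSeries.min_order_le_order_add hfg
  map_const a _ := by
    obtain ⟨c, hc⟩ := hC a
    simp only [hc]
    exact (HahnSeries.order_C).ge
  nontrivial := ⟨HahnSeries.single 1 1, by simp, by
    show (HahnSeries.single (1 : ℤ) (1 : L)).order ≠ 0
    rw [HahnSeries.order_single one_ne_zero]
    exact one_ne_zero⟩

end Count

variable {K F : Type*} [Field K] [Field F] [Algebra K F]

theorem card_places_eq_card_orbits_theta [IsAlgClosed K] [CharZero K] (h : IsFF1 K F)
    {x : F} (hx : Transcendental K x) {L : Type*} [Field L]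
    {G Q : Type*} [Group G] [MulAction G Q] [Finite Q]
    (hQ : Nat.card Q = Module.finrank K⟮x⟯ F)
    (θ : Q → F →+* LaurentSeries L) (hθ : Function.Injective θ)
    (ι : K →+* L) (hK : ∀ q (a : K), θ q (algebraMap K F a) = HahnSeries.C (ι a))
    (hxx : ∀ q q', θ q x = θ q' x)
    (e₀ : ℕ) (he₀ : 0 < e₀) (hx₀ : ∀ q, (θ q x).order = e₀)
    (ε : G) (ζ : L) (hζ : IsPrimitiveRoot ζ e₀)
    (hρ : ∀ q (f : F), f ≠ 0 → (θ (ε • q) f).order = (θ q f).order ∧
      (θ (ε • q) f).leadingCoeff = ζ ^ (θ q f).order * (θ q f).leadingCoeff) :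
    Nat.card {v : Place K F // 0 < v.ord x}
        = Nat.card (MulAction.orbitRel.Quotient (Subgroup.zpowers ε) Q) := by
  classical
  haveI := Fintype.ofFinite Q
  haveI hfd : FiniteDimensional K⟮x⟯ F := h.finiteDimensional hx
  have hcard : Fintype.card Q = Module.finrank K⟮x⟯ F := by
    rw [← hQ, Nat.card_eq_fintype_card]
  have hpos : 0 < Fintype.card Q := hcard ▸ Module.finrank_pos
  haveI hne : Nonempty Q := Fintype.card_pos_iff.mp hpos
  obtain ⟨q1⟩ := id hne
  letI : Algebra K (LaurentSeries L) :=
    ((HahnSeries.C : L →+* LaurentSeries L).comp ι).toAlgebra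
  let emb : Q → (F →ₐ[K] LaurentSeries L) := fun q =>
    { θ q with commutes' := fun a => hK q a }
  have hemb : ∀ q f, emb q f = θ q f := fun _ _ => rfl
  have hw : IsVal K (fun m : LaurentSeries L => m.order) :=
    Count.isVal_order fun a => ⟨ι a, rfl⟩
  haveI : CharZero K⟮x⟯ := charZero_of_injective_algebraMap (algebraMap K K⟮x⟯).injective
  have hagree : ∀ q q' (a : K⟮x⟯), θ q (algebraMap K⟮x⟯ F a) = θ q' (algebraMap K⟮x⟯ F a) := by
    intro q q' a
    have : (emb q).comp (K⟮x⟯.val) = (emb q').comp (K⟮x⟯.val) := by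
      apply IntermediateField.adjoin_algHom_ext
      intro y hy
      rw [Set.mem_singleton_iff] at hy
      subst hy
      exact hxx q q'
    exact congrArg (fun φ : K⟮x⟯ →ₐ[K] LaurentSeries L => φ a) this
  have hiter : ∀ (q : Q) (f : F), f ≠ 0 → ∀ k : ℕ,
      (θ (ε ^ k • q) f).order = (θ q f).order ∧
      (θ (ε ^ k • q) f).leadingCoeff = ζ ^ ((k : ℤ) * (θ q f).order) * (θ q f).leadingCoeff := by
    intro q f hf k
    induction k with
    | zero => simp
    | succ k ih =>
      obtain ⟨h1, h2⟩ := hρ (ε ^ k • q) f hf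
      rw [pow_succ', mul_smul]
      refine ⟨h1.trans ih.1, ?_⟩
      rw [h2, ih.1, ih.2, ← mul_assoc, ← zpow_add₀ (hζ.ne_zero he₀.ne')]
      congr 2
      push_cast
      ring
  refine (card_places_eq_card_orbits_of_char h hx ε emb (fun m => m.order) hw (θ q1 x)
    (fun q => hxx q q1) (by simp only [hx₀]; exact_mod_cast he₀) ?_ ?_ ?_ hcard.le).1
  · intro f
    exact Count.exists_charpoly θ hθ hagree hcard f
  · intro q f
    rcases eq_or_ne f 0 with rfl | hf
    · simp
    · exact (hρ q f hf).1
  · intro q k hk f hf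
    obtain ⟨-, h2⟩ := hiter q f hf k
    rw [hk] at h2
    have hlc : (θ q f).leadingCoeff ≠ 0 :=
      HahnSeries.leadingCoeff_ne_zero.mpr ((map_ne_zero (θ q)).mpr hf)
    have h3 : ζ ^ ((k : ℤ) * (θ q f).order) = 1 := by
      have := mul_right_cancel₀ hlc ((one_mul _).trans h2)
      exact this.symm
    have h4 := (hζ.zpow_eq_one_iff_dvd _).mp h3
    simp only [hx₀, hemb]
    exact h4

end Fermat.Agent.S24
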