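import Fermat.Agent.S24.Taylor
import Fermat.Agent.S24.HolB
import Fermat.Agent.ES.SimpleZeros
import Fermat.Agent.ES.ClaimA

set_option autoImplicit false

/-! # S24 task B-JOrder : order of vanishing of `j - j(τ)`, elliptic points -/

open UpperHalfPlane ModularForm EisensteinSeries CongruenceSubgroup
open scoped MatrixGroups Manifold

namespace Fermat.Agent.S24

/-- `ρ = e^{2πi/3}`. -/
noncomputable def rhoPt : ℍ := ⟨-1 / 2 + Real.sqrt 3 / 2 * Complex.I, by simp⟩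

theorem jorder_rhoPt_eq : rhoPt = Fermat.Agent.ES.ecRho := by
  ext
  show (-1 / 2 + (Real.sqrt 3 : ℂ) / 2 * Complex.I : ℂ)
    = -1 / 2 + ((Real.sqrt 3 / 2 : ℝ) : ℂ) * Complex.I
  push_cast
  ring

theorem S_smul_I : ModularGroup.S • (I : ℍ) = I := Fermat.Agent.ES.ec_S_smul_I

theorem ST_smul_rhoPt : (ModularGroup.S * ModularGroup.T) • rhoPt = rhoPt := by
  rw [jorder_rhoPt_eq]
  exact Fermat.Agent.ES.ec_ST_smul_rho

theorem jFun_I : jFun I = 1728 := by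
  have hd := discriminant_eq_E₄_cube_sub_E₆_sq I
  have hne := discriminant_ne_zero I
  rw [Fermat.Agent.ES.E₆_I_eq_zero] at hd
  unfold jFun
  rw [div_eq_iff hne, hd]
  ring

theorem jFun_rhoPt : jFun rhoPt = 0 := by
  unfold jFun
  rw [jorder_rhoPt_eq, Fermat.Agent.ES.E₄_rho_eq_zero]
  simp

theorem jFun_sub_mem_holSub (c : ℂ) : (fun z => jFun z - c) ∈ holSub :=
  mdiff_jFun.sub mdifferentiable_const

theorem jorder_disc_mem : (discriminant : ℍ → ℂ) ∈ holSub := CuspForm.discriminant.holo'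

theorem jorder_E₄_mem : (E₄ : ℍ → ℂ) ∈ holSub := E₄.holo'

theorem jorder_E₆_mem : (E₆ : ℍ → ℂ) ∈ holSub := E₆.holo'

/-- transfer of the order from the numerator. -/
theorem jorder_key (τ : ℍ) (c : ℂ) (P : holSub)
    (hP : ∀ z, (jFun z - c) * discriminant z = P.1 z) (hne : TPt τ P ≠ 0) :
    (TPt τ ⟨fun z => jFun z - c, jFun_sub_mem_holSub _⟩).order = (TPt τ P).order := by
  have hmul : (⟨fun z => jFun z - c, jFun_sub_mem_holSub _⟩ : holSub) *
      ⟨discriminant, jorder_disc_mem⟩ = P := by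
    apply Subtype.ext
    funext z
    exact hP z
  have h := congrArg (TPt τ) hmul
  rw [map_mul] at h
  have h1 : TPt τ ⟨fun z => jFun z - c, jFun_sub_mem_holSub _⟩ ≠ 0 := by
    intro h0
    rw [h0, zero_mul] at h
    exact hne h.symm
  have h2 : TPt τ ⟨discriminant, jorder_disc_mem⟩ ≠ 0 := by
    intro h0
    rw [h0, mul_zero] at h
    exact hne h.symm
  rw [← h, HahnSeries.order_mul h1 h2,
    order_TPt_eq_zero τ ⟨discriminant, jorder_disc_mem⟩ (discriminant_ne_zero τ), add_zero]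

theorem jorder_ne_zero_of_order {x : LaurentSeries ℂ} {n : ℤ} (h : x.order = n) (hn : n ≠ 0) :
    x ≠ 0 := by
  rintro rfl
  rw [HahnSeries.order_zero] at h
  exact hn h.symm

theorem jorder_jFun_mul (z : ℍ) : jFun z * discriminant z = E₄ z ^ 3 := by
  unfold jFun
  exact div_mul_cancel₀ _ (discriminant_ne_zero z)

theorem order_TPt_jFun_sub (τ : ℍ) (h0 : jFun τ ≠ 0) (h1 : jFun τ ≠ 1728) :
    (TPt τ ⟨fun z => jFun z - jFun τ, jFun_sub_mem_holSub _⟩).order = 1 := by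
  set c : ℂ := jFun τ with hc
  have hmem : (fun w : ℍ => (1 - c / 1728) * E₄ w ^ 3 + (c / 1728) * E₆ w ^ 2) ∈ holSub :=
    ((mdifferentiable_const (c := (1 - c / 1728 : ℂ))).mul ((E₄.holo').pow 3)).add
      ((mdifferentiable_const (c := (c / 1728 : ℂ))).mul ((E₆.holo').pow 2))
  have hP : ∀ z, (jFun z - c) * discriminant z
      = (1 - c / 1728) * E₄ z ^ 3 + (c / 1728) * E₆ z ^ 2 := by
    intro z
    rw [sub_mul, jorder_jFun_mul, discriminant_eq_E₄_cube_sub_E₆_sq]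
    ring
  have h4 : E₄ τ ≠ 0 := by
    intro h
    apply h0
    rw [hc]
    unfold jFun
    rw [h]
    simp
  have h6 : E₆ τ ≠ 0 := by
    intro h
    apply h1
    have hd := discriminant_eq_E₄_cube_sub_E₆_sq τ
    rw [h] at hd
    rw [hc]
    unfold jFun
    rw [div_eq_iff (discriminant_ne_zero τ), hd]
    ring
  have hz : (1 - c / 1728) * E₄ τ ^ 3 + (c / 1728) * E₆ τ ^ 2 = 0 := by
    rw [← hP τ, hc, sub_self, zero_mul]
  have hord : (TPt τ ⟨_, hmem⟩).order = 1 :=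
    order_TPt_eq_one τ ⟨_, hmem⟩ hz
      (Fermat.Agent.ES.pencil_simple_zero _ _ (by ring_nf; exact one_ne_zero) τ h4 h6 hz)
  rw [jorder_key τ c ⟨_, hmem⟩ hP (jorder_ne_zero_of_order hord one_ne_zero), hord]

theorem order_TPt_jFun_sub_I :
    (TPt I ⟨fun z => jFun z - 1728, jFun_sub_mem_holSub _⟩).order = 2 := by
  have hord : (TPt I ⟨E₆, jorder_E₆_mem⟩).order = 1 :=
    order_TPt_eq_one I ⟨E₆, jorder_E₆_mem⟩ Fermat.Agent.ES.E₆_I_eq_zero
      (Fermat.Agent.ES.E₆_simple_zero I Fermat.Agent.ES.E₆_I_eq_zero)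
  have hord2 : (TPt I ((⟨E₆, jorder_E₆_mem⟩ : holSub) ^ 2)).order = 2 := by
    rw [map_pow, HahnSeries.order_pow, hord]
    rfl
  have hP : ∀ z, (jFun z - 1728) * discriminant z
      = ((⟨E₆, jorder_E₆_mem⟩ : holSub) ^ 2).1 z := by
    intro z
    rw [sub_mul, jorder_jFun_mul, discriminant_eq_E₄_cube_sub_E₆_sq]
    show _ = E₆ z ^ 2
    ring
  rw [jorder_key I 1728 _ hP (jorder_ne_zero_of_order hord2 two_ne_zero), hord2]

theorem order_TPt_jFun_sub_rhoPt :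
    (TPt rhoPt ⟨fun z => jFun z - 0, jFun_sub_mem_holSub _⟩).order = 3 := by
  have hz : E₄ rhoPt = 0 := by
    rw [jorder_rhoPt_eq]
    exact Fermat.Agent.ES.E₄_rho_eq_zero
  have hord : (TPt rhoPt ⟨E₄, jorder_E₄_mem⟩).order = 1 :=
    order_TPt_eq_one rhoPt ⟨E₄, jorder_E₄_mem⟩ hz (Fermat.Agent.ES.E₄_simple_zero rhoPt hz)
  have hord3 : (TPt rhoPt ((⟨E₄, jorder_E₄_mem⟩ : holSub) ^ 3)).order = 3 := by
    rw [map_pow, HahnSeries.order_pow, hord]
    rfl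
  have hP : ∀ z, (jFun z - 0) * discriminant z
      = ((⟨E₄, jorder_E₄_mem⟩ : holSub) ^ 3).1 z := by
    intro z
    rw [sub_zero, jorder_jFun_mul]
    rfl
  rw [jorder_key rhoPt 0 _ hP (jorder_ne_zero_of_order hord3 three_ne_zero), hord3]

/-- the multiplier of `S⁻¹` at `i` is `-1`. -/
theorem multiplier_S :
    ((((ModularGroup.S⁻¹ : SL(2, ℤ)) 1 0 : ℤ) : ℂ) * (I : ℍ)
      + (((ModularGroup.S⁻¹ : SL(2, ℤ)) 1 1 : ℤ) : ℂ)) ^ (-2 : ℤ) = -1 := by
  have h10 : (ModularGroup.S⁻¹ : SL(2, ℤ)) 1 0 = -1 := by decide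
  have h11 : (ModularGroup.S⁻¹ : SL(2, ℤ)) 1 1 = 0 := by decide
  rw [h10, h11]
  have hI : ((I : ℍ) : ℂ) = Complex.I := rfl
  rw [hI]
  have : ((((-1 : ℤ) : ℂ)) * Complex.I + ((0 : ℤ) : ℂ)) = -Complex.I := by
    push_cast
    ring
  rw [this, zpow_neg, show (2 : ℤ) = ((2 : ℕ) : ℤ) from rfl, zpow_natCast, neg_sq, Complex.I_sq]
  norm_num

/-- the multiplier of `(ST)⁻¹` at `ρ` is a primitive cube root of unity. -/
theorem multiplier_ST : IsPrimitiveRoot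
    ((((((ModularGroup.S * ModularGroup.T)⁻¹ : SL(2, ℤ)) 1 0 : ℤ) : ℂ) * rhoPt
      + ((((ModularGroup.S * ModularGroup.T)⁻¹ : SL(2, ℤ)) 1 1 : ℤ) : ℂ)) ^ (-2 : ℤ)) 3 := by
  have h10 : ((ModularGroup.S * ModularGroup.T)⁻¹ : SL(2, ℤ)) 1 0 = -1 := by decide
  have h11 : ((ModularGroup.S * ModularGroup.T)⁻¹ : SL(2, ℤ)) 1 1 = 0 := by decide
  rw [h10, h11, jorder_rhoPt_eq]
  set r : ℂ := (Fermat.Agent.ES.ecRho : ℂ) with hr
  have hsq : r ^ 2 + r + 1 = 0 := Fermat.Agent.ES.ecRho_sq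
  have hr0 : r ≠ 0 := by
    intro h
    rw [h] at hsq
    norm_num at hsq
  have h3 : r ^ 3 = 1 := by linear_combination (r - 1) * hsq
  have hval : ((((-1 : ℤ) : ℂ)) * r + ((0 : ℤ) : ℂ)) ^ (-2 : ℤ) = r := by
    have : ((((-1 : ℤ) : ℂ)) * r + ((0 : ℤ) : ℂ)) = -r := by
      push_cast
      ring
    rw [this, zpow_neg, show (2 : ℤ) = ((2 : ℕ) : ℤ) from rfl, zpow_natCast, neg_sq]
    apply inv_eq_of_mul_eq_one_left
    linear_combination h3
  rw [hval]
  refine IsPrimitiveRoot.mk_of_lt _ (by norm_num) h3 ?_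
  intro l hl0 hl3
  interval_cases l
  · intro h1
    rw [pow_one] at h1
    rw [h1] at hsq
    norm_num at hsq
  · intro h1
    have : r = -2 := by linear_combination hsq - h1
    rw [this] at hsq
    norm_num at hsq

end Fermat.Agent.S24
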