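import Fermat.Agent.S24.ADefs
import Fermat.Agent.ES.Reduce

set_option autoImplicit false

/-! # S24 task B-JSurj : `j` is surjective -/

open UpperHalfPlane ModularForm EisensteinSeries CongruenceSubgroup
open scoped MatrixGroups Manifold

namespace Fermat.Agent.S24

open Filter Topology Fermat.Agent.ES in
theorem jFun_surjective : Function.Surjective jFun := by
  intro c
  by_contra hcon
  push Not at hcon
  -- `f = E₄³ - c Δ` has no zero
  set f : ℍ → ℂ := fun z => E₄ z ^ 3 - c * discriminant z with hf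
  have hf0 : ∀ z, f z ≠ 0 := by
    intro z hz
    apply hcon z
    have hΔ := discriminant_ne_zero z
    rw [jFun, div_eq_iff hΔ]
    exact sub_eq_zero.mp hz
  have hΔeq : ∀ (g : SL(2, ℤ)) (z : ℍ),
      discriminant (g • z) = denom g z ^ (12 : ℤ) * discriminant z := by
    intro g z
    have hg : (g : GL (Fin 2) ℝ) ∈ 𝒮ℒ := ⟨g, rfl⟩
    exact SlashInvariantForm.slash_action_eqn'' CuspForm.discriminant hg z
  have hfeq : ∀ (g : SL(2, ℤ)) (z : ℍ), f (g • z) = denom g z ^ (12 : ℤ) * f z := by
    intro g z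
    simp only [hf]
    rw [levelOne_smul_eq E₄ g z, hΔeq g z]
    have : (denom g z ^ (4 : ℤ)) ^ 3 = denom g z ^ (12 : ℤ) := by
      rw [← zpow_natCast, ← zpow_mul]; norm_num
    rw [mul_pow, this]
    ring
  have hfhol : MDiff f := by
    have h1 : MDiff (fun z => E₄ z ^ 3) := (E₄.holo').pow 3
    have h2 : MDiff (fun z => c * discriminant z) :=
      mdifferentiable_const.mul CuspForm.discriminant.holo'
    exact h1.sub h2
  have hflim : Tendsto f atImInfty (𝓝 1) := by
    have h1 : Tendsto (fun z => E₄ z ^ 3) atImInfty (𝓝 (1 ^ 3)) := tendsto_E₄.pow 3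
    have h2 : Tendsto (fun z : ℍ => c * discriminant z) atImInfty (𝓝 (c * 0)) :=
      (discriminant_isZeroAtImInfty).const_mul c
    have := h1.sub h2
    simpa using this
  obtain ⟨G, hG⟩ := levelOne_of (k := -12) (fun z => (f z)⁻¹) (hfhol.inv hf0)
    (by
      intro g z
      rw [hfeq, mul_inv, zpow_neg])
    (by
      have h1 : Tendsto (fun z => (f z)⁻¹) atImInfty (𝓝 (1 : ℂ)⁻¹) := hflim.inv₀ one_ne_zero
      exact h1.isBigO_one ℝ)
  have hG0 : G = 0 := by
    have := ModularFormClass.levelOne_neg_weight_eq_zero (k := -12) (by norm_num) G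
    exact DFunLike.coe_injective this
  have h2 := congrFun hG UpperHalfPlane.I
  rw [hG0] at h2
  exact inv_ne_zero (hf0 UpperHalfPlane.I) h2.symm

end Fermat.Agent.S24
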