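import Mathlib

set_option autoImplicit false

namespace Fermat.Agent.S24

open HahnSeries

/-- coefficientwise `n * a_n`. -/
noncomputable def eulerFun {C : Type*} [CommRing C] (f : LaurentSeries C) : LaurentSeries C :=
  ⟨fun n => (n : C) * f.coeff n, f.isPWO_support.mono (by
    intro n hn
    rw [HahnSeries.mem_support]
    intro h0
    exact hn (by simp [h0]))⟩

theorem eulerFun_coeff {C : Type*} [CommRing C] (f : LaurentSeries C) (n : ℤ) :
    (eulerFun f).coeff n = (n : C) * f.coeff n := rfl

theorem eulerFun_support {C : Type*} [CommRing C] (f : LaurentSeries C) :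
    (eulerFun f).support ⊆ f.support := by
  intro n hn
  rw [HahnSeries.mem_support] at hn ⊢
  intro h0
  exact hn (by rw [eulerFun_coeff, h0, mul_zero])

theorem eulerFun_mul {C : Type*} [CommRing C] (f g : LaurentSeries C) :
    eulerFun (f * g) = f * eulerFun g + g * eulerFun f := by
  ext n
  rw [eulerFun_coeff, HahnSeries.coeff_add, mul_comm g (eulerFun f), HahnSeries.coeff_mul,
    HahnSeries.coeff_mul_right' g.isPWO_support (eulerFun_support g),
    HahnSeries.coeff_mul_left' f.isPWO_support (eulerFun_support f), Finset.mul_sum,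
    ← Finset.sum_add_distrib]
  refine Finset.sum_congr rfl fun ij hij => ?_
  rw [Finset.mem_antidiagonal] at hij
  rw [eulerFun_coeff, eulerFun_coeff, ← hij.2.2]
  push_cast
  ring

/-- the Euler operator `X d/dX` on Laurent series. -/
noncomputable def euler (C : Type*) [CommRing C] :
    Derivation C (LaurentSeries C) (LaurentSeries C) where
  toFun := eulerFun
  map_add' f g := by
    ext n
    simp only [eulerFun_coeff, HahnSeries.coeff_add]
    ring
  map_smul' c f := by
    ext n
    rw [RingHom.id_apply, Algebra.smul_def, HahnSeries.algebraMap_apply',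
      show algebraMap C (PowerSeries C) c = PowerSeries.C c from rfl, HahnSeries.ofPowerSeries_C,
      HahnSeries.C_mul_eq_smul, eulerFun_coeff, HahnSeries.coeff_smul, HahnSeries.coeff_smul,
      eulerFun_coeff, smul_eq_mul, smul_eq_mul]
    ring
  map_one_eq_zero' := by
    ext n
    show (eulerFun (1 : LaurentSeries C)).coeff n = 0
    rw [eulerFun_coeff, HahnSeries.coeff_one]
    split_ifs with h
    · simp [h]
    · simp
  leibniz' f g := by
    show eulerFun (f * g) = f • eulerFun g + g • eulerFun f
    rw [eulerFun_mul, smul_eq_mul, smul_eq_mul]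

theorem euler_coeff {C : Type*} [CommRing C] (f : LaurentSeries C) (n : ℤ) :
    (euler C f).coeff n = (n : C) * f.coeff n := rfl

theorem euler_ne_zero {C : Type*} [Field C] [CharZero C] {f : LaurentSeries C}
    (hf : f.order ≠ 0) : euler C f ≠ 0 := by
  have hf0 : f ≠ 0 := by
    rintro rfl
    exact hf HahnSeries.order_zero
  intro h
  have h1 := congrArg (fun z => HahnSeries.coeff z f.order) h
  simp only [euler_coeff, HahnSeries.coeff_zero] at h1
  rcases mul_eq_zero.mp h1 with h2 | h2
  · exact hf (by exact_mod_cast h2)
  · exact hf0 (HahnSeries.coeff_order_eq_zero.mp h2)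

theorem order_euler {C : Type*} [Field C] [CharZero C] {f : LaurentSeries C}
    (hf : f.order ≠ 0) : (euler C f).order = f.order := by
  have hf0 : f ≠ 0 := by
    rintro rfl
    exact hf HahnSeries.order_zero
  apply le_antisymm
  · apply HahnSeries.order_le_of_coeff_ne_zero
    rw [euler_coeff]
    exact mul_ne_zero (by exact_mod_cast hf) (fun h => hf0 (HahnSeries.coeff_order_eq_zero.mp h))
  · apply HahnSeries.order_le_of_coeff_ne_zero
    have h : (euler C f).coeff (euler C f).order ≠ 0 :=
      fun h => euler_ne_zero hf (HahnSeries.coeff_order_eq_zero.mp h)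
    rw [euler_coeff] at h
    exact right_ne_zero_of_mul h

end Fermat.Agent.S24
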