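import Fermat.Agent.S24.FF1

set_option autoImplicit false

/-!
# S24, task A2: `t`-adic expansion at a place with residue field `K`
-/

namespace Fermat.Agent.S24

open AlgebraicCurve

section Abstract

variable {K O : Type*} [Field K] [CommRing O] [IsDomain O] [Algebra K O]

/-- `p` is the `t`-adic expansion of `x`. -/
def ExpRel (K : Type*) {O : Type*} [Field K] [CommRing O] [Algebra K O] (t x : O)
    (p : PowerSeries K) : Prop :=
  ∀ n : ℕ, ∃ P : Polynomial K, (PowerSeries.X ^ n ∣ p - (P : PowerSeries K)) ∧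
    t ^ n ∣ x - Polynomial.aeval t P

theorem expRel_X_pow_dvd {t : O} (ht0 : t ≠ 0) (htu : ¬ IsUnit t) :
    ∀ (n : ℕ) (R : Polynomial K), t ^ n ∣ Polynomial.aeval t R → Polynomial.X ^ n ∣ R := by
  intro n
  induction n with
  | zero => intro R _; simp
  | succ n ih =>
    intro R hR
    have hdec := Polynomial.divX_mul_X_add R
    have hev : Polynomial.aeval t R =
        Polynomial.aeval t R.divX * t + algebraMap K O (R.coeff 0) := by
      conv_lhs => rw [← hdec]
      simp
    have ht : t ∣ Polynomial.aeval t R := (dvd_pow_self t (Nat.succ_ne_zero n)).trans hR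
    have hc : R.coeff 0 = 0 := by
      by_contra hc
      have h1 : t ∣ algebraMap K O (R.coeff 0) := by
        rw [hev] at ht
        exact (dvd_add_right (dvd_mul_left t _)).mp ht
      have h2 : IsUnit (algebraMap K O (R.coeff 0)) := (IsUnit.mk0 _ hc).map _
      exact htu (isUnit_of_dvd_unit h1 h2)
    rw [hc, map_zero, add_zero] at hev
    rw [hev, pow_succ] at hR
    have h3 := ih _ ((mul_dvd_mul_iff_right ht0).mp hR)
    rw [← hdec, hc, map_zero, add_zero, pow_succ]
    exact mul_dvd_mul_right h3 _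

omit [IsDomain O] in
theorem exists_approx {t : O} (hres : ∀ x : O, ∃ c : K, t ∣ x - algebraMap K O c) (x : O) :
    ∀ n : ℕ, ∃ P : Polynomial K, t ^ n ∣ x - Polynomial.aeval t P := by
  intro n
  induction n with
  | zero => exact ⟨0, by simp⟩
  | succ n ih =>
    obtain ⟨P, r, hr⟩ := ih
    obtain ⟨c, s, hs⟩ := hres r
    refine ⟨P + Polynomial.C c * Polynomial.X ^ n, s, ?_⟩
    simp only [map_add, map_mul, Polynomial.aeval_C, map_pow, Polynomial.aeval_X]
    rw [pow_succ]
    linear_combination hr + t ^ n * hs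

theorem exists_expRel {t : O} (ht0 : t ≠ 0) (htu : ¬ IsUnit t)
    (hres : ∀ x : O, ∃ c : K, t ∣ x - algebraMap K O c) (x : O) :
    ∃ p : PowerSeries K, ExpRel K t x p := by
  choose P hP using exists_approx hres x
  refine ⟨PowerSeries.mk fun m => (P (m + 1)).coeff m, fun n => ⟨P n, ?_, hP n⟩⟩
  rw [PowerSeries.X_pow_dvd_iff]
  intro m hm
  rw [map_sub, PowerSeries.coeff_mk, Polynomial.coeff_coe, sub_eq_zero]
  have h1 : t ^ (m + 1) ∣ Polynomial.aeval t (P (m + 1) - P n) := by
    have h2 : t ^ (m + 1) ∣ x - Polynomial.aeval t (P n) := (pow_dvd_pow t hm).trans (hP n)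
    have h3 := dvd_sub h2 (hP (m + 1))
    rw [map_sub]
    convert h3 using 1
    ring
  have h4 := (Polynomial.X_pow_dvd_iff.mp (expRel_X_pow_dvd ht0 htu _ _ h1)) m (Nat.lt_succ_self m)
  rw [Polynomial.coeff_sub, sub_eq_zero] at h4
  exact h4

theorem ExpRel.unique {t : O} (ht0 : t ≠ 0) (htu : ¬ IsUnit t) {x : O} {p q : PowerSeries K}
    (hp : ExpRel K t x p) (hq : ExpRel K t x q) : p = q := by
  rw [← sub_eq_zero]
  ext m
  rw [map_zero]
  obtain ⟨P, hP1, hP2⟩ := hp (m + 1)
  obtain ⟨Q, hQ1, hQ2⟩ := hq (m + 1)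
  have h1 : t ^ (m + 1) ∣ Polynomial.aeval t (P - Q) := by
    have h3 := dvd_sub hQ2 hP2
    rw [map_sub]
    convert h3 using 1
    ring
  obtain ⟨R, hR⟩ := expRel_X_pow_dvd ht0 htu _ _ h1
  have h2 : (PowerSeries.X : PowerSeries K) ^ (m + 1) ∣ ((P - Q : Polynomial K) : PowerSeries K) := by
    rw [hR]
    exact ⟨R, by simp⟩
  have h3 : (PowerSeries.X : PowerSeries K) ^ (m + 1) ∣ p - q := by
    have := dvd_add (dvd_sub hP1 hQ1) h2
    convert this using 1
    push_cast
    ring
  exact PowerSeries.X_pow_dvd_iff.mp h3 m (Nat.lt_succ_self m)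

omit [IsDomain O] in
theorem ExpRel.add {t x y : O} {p q : PowerSeries K}
    (hp : ExpRel K t x p) (hq : ExpRel K t y q) : ExpRel K t (x + y) (p + q) := by
  intro n
  obtain ⟨P, hP1, hP2⟩ := hp n
  obtain ⟨Q, hQ1, hQ2⟩ := hq n
  refine ⟨P + Q, ?_, ?_⟩
  · convert dvd_add hP1 hQ1 using 1
    push_cast
    ring
  · convert dvd_add hP2 hQ2 using 1
    rw [map_add]
    ring

omit [IsDomain O] in
theorem ExpRel.mul {t x y : O} {p q : PowerSeries K}
    (hp : ExpRel K t x p) (hq : ExpRel K t y q) : ExpRel K t (x * y) (p * q) := by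
  intro n
  obtain ⟨P, hP1, hP2⟩ := hp n
  obtain ⟨Q, hQ1, hQ2⟩ := hq n
  refine ⟨P * Q, ?_, ?_⟩
  · convert dvd_add (hP1.mul_right q) (hQ1.mul_left (P : PowerSeries K)) using 1
    push_cast
    ring
  · convert dvd_add (hP2.mul_right y) (hQ2.mul_left (Polynomial.aeval t P)) using 1
    rw [map_mul]
    ring

omit [IsDomain O] in
theorem expRel_aeval (t : O) (P : Polynomial K) :
    ExpRel K t (Polynomial.aeval t P) (P : PowerSeries K) :=
  fun _ => ⟨P, by simp, by simp⟩

/-- the expansion map. -/
noncomputable def expHom {t : O} (ht0 : t ≠ 0) (htu : ¬ IsUnit t)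
    (hres : ∀ x : O, ∃ c : K, t ∣ x - algebraMap K O c) : O →ₐ[K] PowerSeries K where
  toFun x := (exists_expRel ht0 htu hres x).choose
  map_one' := by
    refine ExpRel.unique ht0 htu (exists_expRel ht0 htu hres 1).choose_spec ?_
    simpa using expRel_aeval (K := K) t 1
  map_zero' := by
    refine ExpRel.unique ht0 htu (exists_expRel ht0 htu hres 0).choose_spec ?_
    simpa using expRel_aeval (K := K) t 0
  map_add' x y :=
    ExpRel.unique ht0 htu (exists_expRel ht0 htu hres (x + y)).choose_spec
      ((exists_expRel ht0 htu hres x).choose_spec.add (exists_expRel ht0 htu hres y).choose_spec)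
  map_mul' x y :=
    ExpRel.unique ht0 htu (exists_expRel ht0 htu hres (x * y)).choose_spec
      ((exists_expRel ht0 htu hres x).choose_spec.mul (exists_expRel ht0 htu hres y).choose_spec)
  commutes' c := by
    refine ExpRel.unique ht0 htu (exists_expRel ht0 htu hres _).choose_spec ?_
    simpa using expRel_aeval (K := K) t (Polynomial.C c)

theorem expRel_expHom {t : O} (ht0 : t ≠ 0) (htu : ¬ IsUnit t)
    (hres : ∀ x : O, ∃ c : K, t ∣ x - algebraMap K O c) (x : O) :
    ExpRel K t x (expHom ht0 htu hres x) :=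
  (exists_expRel ht0 htu hres x).choose_spec

theorem expHom_self {t : O} (ht0 : t ≠ 0) (htu : ¬ IsUnit t)
    (hres : ∀ x : O, ∃ c : K, t ∣ x - algebraMap K O c) :
    expHom ht0 htu hres t = PowerSeries.X := by
  refine ExpRel.unique ht0 htu (expRel_expHom ht0 htu hres t) ?_
  simpa using expRel_aeval (K := K) t Polynomial.X

theorem expHom_injective {t : O} (ht0 : t ≠ 0) (htu : ¬ IsUnit t)
    (hres : ∀ x : O, ∃ c : K, t ∣ x - algebraMap K O c)
    (hsep : ∀ x : O, (∀ n : ℕ, t ^ n ∣ x) → x = 0) :
    Function.Injective (expHom ht0 htu hres) := by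
  rw [injective_iff_map_eq_zero]
  intro x hx
  apply hsep
  intro n
  obtain ⟨P, hP1, hP2⟩ := expRel_expHom ht0 htu hres x n
  rw [hx, zero_sub, dvd_neg] at hP1
  have h1 : Polynomial.X ^ n ∣ P := by
    rw [Polynomial.X_pow_dvd_iff]
    intro d hd
    have := PowerSeries.X_pow_dvd_iff.mp hP1 d hd
    rwa [Polynomial.coeff_coe] at this
  obtain ⟨R, rfl⟩ := h1
  have h2 : t ^ n ∣ Polynomial.aeval t (Polynomial.X ^ n * R) := by
    simp
  have := dvd_add hP2 h2
  simpa using this

end Abstract

section Place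

variable {K F : Type*} [Field K] [Field F] [Algebra K F]

theorem exists_expansion (v : Place K F)
    (hres : ∀ f : F, 0 ≤ v.ord f →
      ∃ c : K, f = algebraMap K F c ∨ 0 < v.ord (f - algebraMap K F c)) :
    ∃ θ : F →ₐ[K] LaurentSeries K, ∀ f : F, f ≠ 0 → (θ f).order = v.ord f := by
  obtain ⟨π, hπ⟩ := IsDiscreteValuationRing.exists_irreducible v.toValuationSubring
  have ht0 : π ≠ 0 := hπ.ne_zero
  have htu : ¬ IsUnit π := hπ.not_isUnit
  have hπF : (π : F) ≠ 0 := by
    simpa [ne_eq, ZeroMemClass.coe_eq_zero] using ht0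
  have hres' : ∀ x : v.toValuationSubring,
      ∃ c : K, π ∣ x - algebraMap K v.toValuationSubring c := by
    intro x
    obtain ⟨c, hc⟩ := hres x (ord_nonneg_of_mem v x.2)
    refine ⟨c, ?_⟩
    rcases hc with hc | hc
    · have : x - algebraMap K v.toValuationSubring c = 0 := by
        ext
        simp [hc]
      rw [this]
      exact dvd_zero _
    · have hnu : ¬ IsUnit (x - algebraMap K v.toValuationSubring c) := by
        intro hu
        have := v.ord_coe_unit hu.unit
        rw [IsUnit.unit_spec] at this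
        have h2 : ((x - algebraMap K v.toValuationSubring c : v.toValuationSubring) : F) =
            (x : F) - algebraMap K F c := by simp
        rw [h2] at this
        omega
      have hmem : x - algebraMap K v.toValuationSubring c ∈
          IsLocalRing.maximalIdeal v.toValuationSubring := hnu
      rw [hπ.maximalIdeal_eq, Ideal.mem_span_singleton] at hmem
      exact hmem
  have hsep : ∀ x : v.toValuationSubring, (∀ n : ℕ, π ^ n ∣ x) → x = 0 := by
    intro x hx
    by_contra hx0
    have hxF : (x : F) ≠ 0 := by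
      simpa [ne_eq, ZeroMemClass.coe_eq_zero] using hx0
    obtain ⟨r, hr⟩ := hx ((v.ord x).toNat + 1)
    have hr0 : (r : F) ≠ 0 := by
      intro h0
      apply hxF
      rw [hr]
      simp [h0]
    have h1 : v.ord (x : F) = ((v.ord x).toNat + 1 : ℕ) + v.ord (r : F) := by
      conv_lhs => rw [hr]
      push_cast
      rw [v.ord_mul (pow_ne_zero _ hπF) hr0, ord_pow, v.ord_coe_irreducible hπ]
      push_cast
      ring
    have h2 := ord_nonneg_of_mem v r.2
    have h3 : v.ord (x : F) ≤ ((v.ord (x : F)).toNat : ℤ) := Int.self_le_toNat _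
    push_cast at h1
    omega
  set θ0 := expHom ht0 htu hres' with hθ0
  have hinj0 : Function.Injective θ0 := expHom_injective ht0 htu hres' hsep
  let g : v.toValuationSubring →ₐ[K] LaurentSeries K :=
    { (HahnSeries.ofPowerSeries ℤ K).comp (θ0 : v.toValuationSubring →+* PowerSeries K) with
      commutes' := fun c => by
        show HahnSeries.ofPowerSeries ℤ K (θ0 (algebraMap K _ c)) =
          algebraMap K (LaurentSeries K) c
        rw [θ0.commutes]
        rfl }
  have hgdef : ∀ x, g x = HahnSeries.ofPowerSeries ℤ K (θ0 x) := fun _ => rfl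
  have hginj : Function.Injective g := fun x y hxy =>
    hinj0 (HahnSeries.ofPowerSeries_injective hxy)
  set θ : F →ₐ[K] LaurentSeries K := IsFractionRing.liftAlgHom hginj with hθ
  have hθg : ∀ x : v.toValuationSubring, θ (x : F) = g x := by
    intro x
    exact IsFractionRing.lift_algebraMap hginj x
  have hθne : ∀ f : F, f ≠ 0 → θ f ≠ 0 := fun f hf => (map_ne_zero θ).mpr hf
  refine ⟨θ, ?_⟩
  -- orders
  have hord_nonneg : ∀ x : v.toValuationSubring, 0 ≤ (θ (x : F)).order := by
    intro x
    rw [hθg, hgdef]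
    by_cases h0 : HahnSeries.ofPowerSeries ℤ K (θ0 x) = 0
    · rw [h0, HahnSeries.order_zero]
    · rw [HahnSeries.le_order_iff_forall h0]
      intro j hj
      rw [HahnSeries.ofPowerSeries_apply]
      refine HahnSeries.embDomain_of_notMem_range ?_
      rintro ⟨m, rfl⟩
      exact absurd hj (not_lt.mpr (Int.natCast_nonneg m))
  have hπord : (θ (π : F)).order = 1 := by
    rw [hθg, hgdef, hθ0, expHom_self, HahnSeries.ofPowerSeries_X]
    exact HahnSeries.order_single one_ne_zero
  have hmul : ∀ a b : F, a ≠ 0 → b ≠ 0 → (θ (a * b)).order = (θ a).order + (θ b).order := by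
    intro a b ha hb
    rw [map_mul, HahnSeries.order_mul (hθne a ha) (hθne b hb)]
  have hunit : ∀ u : v.toValuationSubringˣ, (θ ((u : v.toValuationSubring) : F)).order = 0 := by
    intro u
    have hu0 : ((u : v.toValuationSubring) : F) ≠ 0 := by
      simp [ne_eq, ZeroMemClass.coe_eq_zero]
    have hu0' : (((u⁻¹ : v.toValuationSubringˣ) : v.toValuationSubring) : F) ≠ 0 := by
      simp [ne_eq, ZeroMemClass.coe_eq_zero]
    have h1 := hmul _ _ hu0 hu0'
    have h2 : ((u : v.toValuationSubring) : F) *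
        (((u⁻¹ : v.toValuationSubringˣ) : v.toValuationSubring) : F) = 1 := by
      have h5 : ((u : v.toValuationSubring) * ((u⁻¹ : v.toValuationSubringˣ) :
          v.toValuationSubring) : v.toValuationSubring) = 1 := u.mul_inv
      have h6 := congrArg (fun z : v.toValuationSubring => (z : F)) h5
      exact h6
    rw [h2, map_one, HahnSeries.order_one] at h1
    have h3 := hord_nonneg (u : v.toValuationSubring)
    have h4 := hord_nonneg ((u⁻¹ : v.toValuationSubringˣ) : v.toValuationSubring)
    omega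
  have hzpow : ∀ n : ℤ, (θ ((π : F) ^ n)).order = n := by
    have hnat : ∀ n : ℕ, (θ ((π : F) ^ n)).order = n := by
      intro n
      induction n with
      | zero => simp
      | succ n ih =>
        rw [pow_succ, hmul _ _ (pow_ne_zero _ hπF) hπF, ih, hπord]
        push_cast
        ring
    intro n
    obtain ⟨m, rfl | rfl⟩ := n.eq_nat_or_neg
    · rw [zpow_natCast, hnat]
    · have h1 := hmul ((π : F) ^ (-(m : ℤ))) ((π : F) ^ m) (zpow_ne_zero _ hπF)
        (pow_ne_zero _ hπF)
      rw [zpow_neg, zpow_natCast, inv_mul_cancel₀ (pow_ne_zero _ hπF), map_one,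
        HahnSeries.order_one, hnat] at h1
      rw [zpow_neg, zpow_natCast]
      omega
  intro f hf
  obtain ⟨u, hu⟩ := v.exists_unit_mul_zpow hf hπ
  have hu0 : ((u : v.toValuationSubring) : F) ≠ 0 := by
    simp [ne_eq, ZeroMemClass.coe_eq_zero]
  conv_lhs => rw [hu]
  rw [hmul _ _ hu0 (zpow_ne_zero _ hπF), hunit, hzpow, zero_add]

end Place

end Fermat.Agent.S24
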