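import Fermat.Agent.S24.Dedekind

set_option autoImplicit false

namespace Fermat.Agent.S24

open AlgebraicCurve IsDedekindDomain WithZero IntermediateField
open scoped IntermediateField.algebraAdjoinAdjoin

variable {K F : Type*} [Field K] [Field F] [Algebra K F]

namespace SumOrd

section general

variable {A E B : Type*} [CommRing A] [IsDedekindDomain A] [Field E] [Algebra A E]
  [IsFractionRing A E] [CommRing B] [IsDedekindDomain B] [Algebra A B] [Algebra B F]
  [IsFractionRing B F] [Algebra E F] [Algebra A F] [IsScalarTower A B F] [IsScalarTower A E F]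
  [Module.Finite A B] [Algebra K A] [Algebra K B] [IsScalarTower K A B] [IsScalarTower K B F]
  [IsAlgClosed K] [Module.IsTorsionFree A B]

omit [IsDedekindDomain A] [IsDedekindDomain B] [Module.IsTorsionFree A B] in
theorem inertia_eq_one (p : Ideal A) [p.IsMaximal]
    (hsurj : ∀ x : A, ∃ c : K, x - algebraMap K A c ∈ p)
    (P : Ideal B) [P.IsPrime] [P.LiesOver p] :
    Ideal.inertiaDeg' p P = 1 := by
  rw [Ideal.inertiaDeg'_algebraMap]
  have h1 : Function.Surjective (algebraMap K (A ⧸ p)) := by
    intro x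
    obtain ⟨x, rfl⟩ := Ideal.Quotient.mk_surjective x
    obtain ⟨c, hc⟩ := hsurj x
    refine ⟨c, ?_⟩
    rw [IsScalarTower.algebraMap_apply K A (A ⧸ p)]
    exact ((Ideal.Quotient.mk_eq_mk_iff_sub_mem _ _).mpr hc).symm
  have h2 : Algebra.IsIntegral K (A ⧸ p) := Algebra.IsIntegral.of_surjective (Algebra.ofId K (A ⧸ p)) h1
  have h3 : IsScalarTower K (A ⧸ p) (B ⧸ P) := by
    refine IsScalarTower.of_algebraMap_eq fun c => ?_
    rw [IsScalarTower.algebraMap_apply K A (A ⧸ p), IsScalarTower.algebraMap_apply K B (B ⧸ P),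
      IsScalarTower.algebraMap_apply K A B]
    rfl
  have h4 : Algebra.IsIntegral K (B ⧸ P) := Algebra.IsIntegral.trans (A ⧸ p)
  have h5 := IsAlgClosed.algebraMap_bijective_of_isIntegral (k := K) (K := B ⧸ P)
  have h6 : Function.Bijective (Algebra.linearMap (A ⧸ p) (B ⧸ P)) := by
    constructor
    · letI := Ideal.Quotient.field p
      exact (algebraMap (A ⧸ p) (B ⧸ P)).injective
    · intro x
      obtain ⟨c, rfl⟩ := h5.2 x
      exact ⟨algebraMap K (A ⧸ p) c, (IsScalarTower.algebraMap_apply K (A ⧸ p) (B ⧸ P) c).symm⟩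
  rw [← (LinearEquiv.ofBijective _ h6).finrank_eq, Module.finrank_self]

theorem ord_eq_ramificationIdx (a : A) (ha : a ≠ 0) (w : HeightOneSpectrum B) :
    (Place.ofHeightOneSpectrum (K := K) w).ord (algebraMap A F a) =
      Ideal.ramificationIdx' (Ideal.span {a}) w.asIdeal := by
  have hinj : Function.Injective (algebraMap A B) := FaithfulSMul.algebraMap_injective A B
  have hb : algebraMap A B a ≠ 0 := by
    simpa using hinj.ne ha
  have hbF : algebraMap B F (algebraMap A B a) ≠ 0 := by
    simpa using (IsFractionRing.injective B F).ne hb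
  have hmap : Ideal.map (algebraMap A B) (Ideal.span {a}) = Ideal.span {algebraMap A B a} := by
    rw [Ideal.map_span, Set.image_singleton]
  have hmap0 : Ideal.map (algebraMap A B) (Ideal.span {a}) ≠ ⊥ := by
    rw [hmap]; simpa using hb
  rw [IsScalarTower.algebraMap_apply A B F, ord_ofHeightOneSpectrum w hbF,
    w.valuation_of_algebraMap, w.intValuation_if_neg hb, WithZero.log_exp, neg_neg,
    Ideal.IsDedekindDomain.ramificationIdx'_eq_normalizedFactors_count hmap0 w.isPrime w.ne_bot, hmap,
    Ideal.count_associates_factors_eq (by simpa using hb) w.isPrime w.ne_bot]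

theorem sum_general (a : A) (ha : Prime a)
    (hsurj : ∀ x : A, ∃ c : K, x - algebraMap K A c ∈ Ideal.span {a}) :
    ∃ s : Finset (Place K F),
      (∀ v, v ∈ s ↔ ∃ w : HeightOneSpectrum B, algebraMap A B a ∈ w.asIdeal ∧
        Place.ofHeightOneSpectrum (K := K) w = v) ∧
      ∑ v ∈ s, v.ord (algebraMap A F a) = Module.finrank E F := by
  classical
  set p : Ideal A := Ideal.span {a} with hp
  have hp0 : p ≠ ⊥ := by simpa [hp] using ha.ne_zero
  have hpp : p.IsPrime := (Ideal.span_singleton_prime ha.ne_zero).mpr ha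
  have hpm : p.IsMaximal := hpp.isMaximal hp0
  have hsum := Ideal.sum_ramification_inertia B E F hp0
  have hmem : ∀ P : Ideal B, P ∈ IsDedekindDomain.primesOverFinset p B ↔ P.IsPrime ∧ P.LiesOver p := fun P =>
    IsDedekindDomain.mem_primesOverFinset_iff hp0 B
  let g : {P // P ∈ IsDedekindDomain.primesOverFinset p B} → HeightOneSpectrum B := fun P =>
    ⟨P.1, ((hmem P.1).mp P.2).1,
      haveI := ((hmem P.1).mp P.2).2
      Ideal.ne_bot_of_liesOver_of_ne_bot hp0 P.1⟩
  have hginj : Function.Injective g := by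
    intro P Q h
    have := congrArg HeightOneSpectrum.asIdeal h
    exact Subtype.ext this
  refine ⟨(IsDedekindDomain.primesOverFinset p B).attach.image
    (fun P => Place.ofHeightOneSpectrum (K := K) (g P)), ?_, ?_⟩
  · intro v
    simp only [Finset.mem_image, Finset.mem_attach, true_and]
    constructor
    · rintro ⟨P, rfl⟩
      refine ⟨g P, ?_, rfl⟩
      have := ((hmem P.1).mp P.2).2
      have h1 : a ∈ p := Ideal.mem_span_singleton_self a
      rw [this.over] at h1
      exact h1
    · rintro ⟨w, hw, rfl⟩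
      have hlies : w.asIdeal.LiesOver p := by
        constructor
        have h1 : p ≤ w.asIdeal.under A := by
          rw [hp, Ideal.span_singleton_le_iff_mem]
          exact hw
        have h2 : (w.asIdeal.under A) ≠ ⊤ := (Ideal.IsPrime.under A w.asIdeal).ne_top
        exact hpm.eq_of_le h2 h1
      exact ⟨⟨w.asIdeal, (hmem _).mpr ⟨w.isPrime, hlies⟩⟩, rfl⟩
  · rw [Finset.sum_image (fun P _ Q _ h => hginj (ofHeightOneSpectrum_injective h))]
    rw [← hsum, ← Finset.sum_attach (IsDedekindDomain.primesOverFinset p B)]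
    push_cast
    refine Finset.sum_congr rfl fun P _ => ?_
    have h1 := ((hmem P.1).mp P.2).1
    have h2 := ((hmem P.1).mp P.2).2
    rw [inertia_eq_one (K := K) p hsurj P.1, ord_eq_ramificationIdx a ha.ne_zero (g P)]
    simp [g, hp]

end general

theorem isPrincipalIdealRing_adjoin {y : F} (hy : Transcendental K y) :
    IsPrincipalIdealRing (Algebra.adjoin K {y}) :=
  IsPrincipalIdealRing.of_surjective
    (Polynomial.algEquivOfTranscendental K y hy : Polynomial K →+* Algebra.adjoin K {y})
    (Polynomial.algEquivOfTranscendental K y hy).surjective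

theorem prime_gen {y : F} (hy : Transcendental K y) :
    Prime (⟨y, Algebra.self_mem_adjoin_singleton K y⟩ : Algebra.adjoin K {y}) := by
  have := (MulEquiv.prime_iff (Polynomial.algEquivOfTranscendental K y hy).toMulEquiv
    (p := Polynomial.X)).mpr Polynomial.prime_X
  simpa using this

theorem adjoin_sub_const_mem (y : F) (x : Algebra.adjoin K {y}) :
    ∃ c : K, x - algebraMap K (Algebra.adjoin K {y}) c ∈
      Ideal.span {(⟨y, Algebra.self_mem_adjoin_singleton K y⟩ : Algebra.adjoin K {y})} := by
  obtain ⟨x, hx⟩ := x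
  obtain ⟨q, rfl⟩ := Algebra.adjoin_singleton_eq_range_aeval K y ▸ hx
  refine ⟨q.coeff 0, ?_⟩
  rw [Ideal.mem_span_singleton]
  obtain ⟨r, hr⟩ : Polynomial.X ∣ q - Polynomial.C (q.coeff 0) := by
    rw [Polynomial.X_dvd_iff]; simp
  refine ⟨⟨Polynomial.aeval y r, ?_⟩, ?_⟩
  · rw [Algebra.adjoin_singleton_eq_range_aeval]; exact ⟨r, rfl⟩
  · ext
    have := congrArg (Polynomial.aeval y) hr
    simpa using this

theorem mem_of_mem_integralClosure (v : Place K F) {y : F} (hy : 0 ≤ v.ord y)
    (b : integralClosure (Algebra.adjoin K {y}) F) :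
    algebraMap (integralClosure (Algebra.adjoin K {y}) F) F b ∈ v.toValuationSubring := by
  have hA : ∀ a : Algebra.adjoin K {y}, (a : F) ∈ v.toValuationSubring := by
    rintro ⟨a, ha⟩
    induction ha using Algebra.adjoin_induction with
    | mem x hx =>
      have hx' : x = y := Set.mem_singleton_iff.mp hx
      subst hx'
      exact mem_of_ord_nonneg v hy
    | algebraMap r => exact v.algebraMap_mem' r
    | add x y _ _ hx hy => exact add_mem hx hy
    | mul x y _ _ hx hy => exact mul_mem hx hy
  let φ : Algebra.adjoin K {y} →+* v.toValuationSubring :=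
    (algebraMap (Algebra.adjoin K {y}) F).codRestrict v.toValuationSubring.toSubring hA
  have hb : IsIntegral (Algebra.adjoin K {y}) (b : F) := b.2
  have hb' : IsIntegral v.toValuationSubring (b : F) :=
    hb.map_of_comp_eq φ (RingHom.id F) rfl
  obtain ⟨z, hz⟩ := IsIntegrallyClosed.isIntegral_iff.mp hb'
  have : (b : F) = z := hz.symm
  show (b : F) ∈ _
  rw [this]
  exact z.2

theorem exists_finset [IsAlgClosed K] [CharZero K] (h : IsFF1 K F) {y : F}
    (hy : Transcendental K y) :
    ∃ s : Finset (Place K F), (∀ v, v ∈ s ↔ 0 < v.ord y) ∧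
      ∑ v ∈ s, v.ord y = Module.finrank K⟮y⟯ F := by
  have := isPrincipalIdealRing_adjoin hy
  have := h.finiteDimensional hy
  have : IsDedekindDomain (integralClosure (Algebra.adjoin K {y}) F) :=
    integralClosure.isDedekindDomain (Algebra.adjoin K {y}) K⟮y⟯ F
  have : IsFractionRing (integralClosure (Algebra.adjoin K {y}) F) F :=
    integralClosure.isFractionRing_of_finite_extension K⟮y⟯ F
  have : Module.Finite (Algebra.adjoin K {y}) (integralClosure (Algebra.adjoin K {y}) F) :=
    IsIntegralClosure.finite (Algebra.adjoin K {y}) K⟮y⟯ F _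
  have : IsScalarTower K (integralClosure (Algebra.adjoin K {y}) F) F :=
    IsScalarTower.of_algebraMap_eq (fun _ => rfl)
  have : IsScalarTower K (Algebra.adjoin K {y}) (integralClosure (Algebra.adjoin K {y}) F) :=
    IsScalarTower.of_algebraMap_eq (fun _ => rfl)
  obtain ⟨s, hs, hsum⟩ := sum_general (K := K) (F := F) (E := K⟮y⟯)
    (B := integralClosure (Algebra.adjoin K {y}) F)
    (⟨y, Algebra.self_mem_adjoin_singleton K y⟩ : Algebra.adjoin K {y}) (prime_gen hy)
    (adjoin_sub_const_mem y)
  have hy0 : y ≠ 0 := fun h0 => hy (h0 ▸ isAlgebraic_zero)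
  set yB : integralClosure (Algebra.adjoin K {y}) F :=
    algebraMap (Algebra.adjoin K {y}) _ ⟨y, Algebra.self_mem_adjoin_singleton K y⟩ with hyB
  have hyB0 : yB ≠ 0 := by
    intro h0
    exact hy0 (congrArg (algebraMap (integralClosure (Algebra.adjoin K {y}) F) F) h0)
  refine ⟨s, fun v => ?_, hsum⟩
  rw [hs]
  constructor
  · rintro ⟨w, hw, rfl⟩
    exact (ord_ofHeightOneSpectrum_pos_iff (K := K) (F := F) w hyB0).mpr hw
  · intro hv
    obtain ⟨w, rfl⟩ := exists_ofHeightOneSpectrum_eq
      (R := integralClosure (Algebra.adjoin K {y}) F) v (mem_of_mem_integralClosure v hv.le)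
    exact ⟨w, (ord_ofHeightOneSpectrum_pos_iff (K := K) (F := F) w hyB0).mp hv, rfl⟩

end SumOrd

theorem finite_ord_pos [IsAlgClosed K] [CharZero K] (h : IsFF1 K F) {y : F}
    (hy : Transcendental K y) : {v : Place K F | 0 < v.ord y}.Finite := by
  obtain ⟨s, hs, -⟩ := SumOrd.exists_finset h hy
  exact s.finite_toSet.subset fun v hv => (hs v).mpr hv

theorem sum_ord_pos [IsAlgClosed K] [CharZero K] (h : IsFF1 K F) {y : F}
    (hy : Transcendental K y) :
    ∑ v ∈ (finite_ord_pos h hy).toFinset, v.ord y = Module.finrank K⟮y⟯ F := by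
  obtain ⟨s, hs, hsum⟩ := SumOrd.exists_finset h hy
  rw [← hsum]
  refine Finset.sum_congr ?_ fun _ _ => rfl
  ext v
  simp [hs]

end Fermat.Agent.S24
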