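import Fermat.Agent.S24.Residue
import Fermat.Agent.S24.Expansion
import Fermat.Agent.S24.Euler
import Fermat.Agent.S24.SumOrd

set_option autoImplicit false
set_option linter.style.haveILetI false

/-!
# S24, part A4: Kähler differentials of a function field of one variable
-/

namespace Fermat.Agent.S24

open AlgebraicCurve IntermediateField KaehlerDifferential
open scoped TensorProduct

variable {K F : Type*} [Field K] [Field F] [Algebra K F]

namespace Kaehler

/-- `D r ∈ span {D t}` for `r ∈ K(t)`. -/
theorem D_mem_span_of_mem_adjoin {t x : F} (hx : x ∈ K⟮t⟯) :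
    D K F x ∈ Submodule.span F {D K F t} := by
  obtain ⟨r, s, rfl⟩ := (mem_adjoin_simple_iff K x).1 hx
  rw [Derivation.leibniz_div, Derivation.map_aeval, Derivation.map_aeval]
  have h0 : D K F t ∈ Submodule.span F {D K F t} := Submodule.mem_span_singleton_self _
  exact Submodule.smul_mem _ _ (Submodule.sub_mem _
    (Submodule.smul_mem _ _ (Submodule.smul_mem _ _ h0))
    (Submodule.smul_mem _ _ (Submodule.smul_mem _ _ h0)))

/-- an algebraic element has order zero. -/
theorem ord_eq_zero_of_isAlgebraic (v : Place K F) {t : F} (ht : IsAlgebraic K t) :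
    v.ord t = 0 := by
  have key : ∀ s : F, IsAlgebraic K s → 0 ≤ v.ord s := by
    intro s hs
    have h1 : IsIntegral v.toValuationSubring s := hs.isIntegral.tower_top
    obtain ⟨y, hy⟩ := (IsIntegrallyClosed.isIntegral_iff (R := v.toValuationSubring) (K := F)).1 h1
    rw [← hy]
    exact ord_nonneg_of_mem v y.2
  have h1 := key t ht
  have h2 := key t⁻¹ ht.inv
  rw [v.ord_inv] at h2
  omega

theorem transcendental_of_ord_ne_zero (v : Place K F) {t : F} (ht : v.ord t ≠ 0) :
    Transcendental K t := fun h => ht (ord_eq_zero_of_isAlgebraic v h)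

end Kaehler

theorem span_D_eq_top [CharZero K] (h : IsFF1 K F) {t : F} (ht : Transcendental K t) :
    Submodule.span F {D K F t} = ⊤ := by
  haveI := h.isAlgebraic ht
  haveI : Algebra.IsSeparable K⟮t⟯ F := inferInstance
  haveI : Algebra.FormallyUnramified K⟮t⟯ F := Algebra.FormallyUnramified.of_isSeparable _ _
  rw [eq_top_iff]
  rintro ω -
  have h1 : ω ∈ LinearMap.range (mapBaseChange K K⟮t⟯ F) := by
    rw [range_mapBaseChange, LinearMap.mem_ker]
    exact Subsingleton.elim _ _
  obtain ⟨z, rfl⟩ := h1
  induction z using TensorProduct.induction_on with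
  | zero => rw [map_zero]; exact Submodule.zero_mem _
  | add x y hx hy => rw [map_add]; exact Submodule.add_mem _ hx hy
  | tmul b η =>
    rw [mapBaseChange_tmul]
    refine Submodule.smul_mem _ _ ?_
    have h2 : η ∈ Submodule.span K⟮t⟯ (Set.range (D K K⟮t⟯)) := by
      rw [span_range_derivation]; trivial
    induction h2 using Submodule.span_induction with
    | mem η hη =>
      obtain ⟨r, rfl⟩ := hη
      rw [map_D]
      exact Kaehler.D_mem_span_of_mem_adjoin r.2
    | zero => rw [map_zero]; exact Submodule.zero_mem _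
    | add x y _ _ hx hy => rw [map_add]; exact Submodule.add_mem _ hx hy
    | smul a x _ hx =>
      rw [map_smul, algebra_compatible_smul F a]
      exact Submodule.smul_mem _ _ hx

theorem exists_dCoord_eq (v : Place K F) : ∃ t : F, v.ord t = 1 ∧ v.dCoord = D K F t := by
  refine ⟨_, ?_, rfl⟩
  exact v.ord_coe_irreducible (IsDiscreteValuationRing.exists_irreducible _).choose_spec

namespace Kaehler

section lift

variable {C : Type*} [Field C] [Algebra K C] (θ : F →ₐ[K] LaurentSeries C)

theorem euler_C (r : C) : euler C (HahnSeries.C r) = 0 := by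
  ext n
  rw [euler_coeff, HahnSeries.C_apply, HahnSeries.coeff_single, HahnSeries.coeff_zero]
  split_ifs with h
  · rw [h]; simp
  · simp

theorem euler_algebraMap (a : K) : euler C (algebraMap K (LaurentSeries C) a) = 0 := by
  rw [HahnSeries.algebraMap_apply', PowerSeries.algebraMap_apply, HahnSeries.ofPowerSeries_C]
  exact euler_C _

/-- there is an additive map `Ω[F/K] → C((X))` sending `g • D f` to `θ g * euler (θ f)`. -/
theorem exists_lift : ∃ L : Ω[F⁄K] →+ LaurentSeries C,
    (∀ f : F, L (D K F f) = euler C (θ f)) ∧ ∀ (g : F) (ω : Ω[F⁄K]), L (g • ω) = θ g * L ω := by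
  letI : SMul K (LaurentSeries C) := Algebra.toSMul
  letI : Module K (LaurentSeries C) := Algebra.toModule
  letI : Algebra F (LaurentSeries C) := θ.toRingHom.toAlgebra
  haveI : IsScalarTower K F (LaurentSeries C) :=
    IsScalarTower.of_algebraMap_eq fun a => (θ.commutes a).symm
  have hsmul : ∀ (g : F) (y : LaurentSeries C), g • y = θ g * y := fun g y => rfl
  have hconst : ∀ a : K, euler C (algebraMap K (LaurentSeries C) a) = 0 := euler_algebraMap
  let l : F →ₗ[K] LaurentSeries C :=
    { toFun := fun f => euler C (θ f)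
      map_add' := fun a b => by rw [map_add, map_add]
      map_smul' := fun a f => by
        rw [RingHom.id_apply, Algebra.smul_def, map_mul, AlgHom.commutes, Derivation.leibniz,
          hconst, smul_zero, add_zero, smul_eq_mul, Algebra.smul_def] }
  let δ : Derivation K F (LaurentSeries C) := Derivation.mk' l (by
    intro a b
    show euler C (θ (a * b)) = a • euler C (θ b) + b • euler C (θ a)
    rw [map_mul, Derivation.leibniz, hsmul, hsmul, smul_eq_mul, smul_eq_mul])
  refine ⟨δ.liftKaehlerDifferential.toAddMonoidHom, fun f => ?_, fun g ω => ?_⟩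
  · exact δ.liftKaehlerDifferential_comp_D f
  · show δ.liftKaehlerDifferential (g • ω) = _
    rw [map_smul, hsmul]
    rfl

end lift

end Kaehler

theorem ordDifferential_D {C : Type*} [Field C] [CharZero C] [Algebra K C] [CharZero K]
    (h : IsFF1 K F)
    (v : Place K F) (θ : F →ₐ[K] LaurentSeries C) (m : ℤ) (hm : 0 < m)
    (hθ : ∀ f : F, f ≠ 0 → (θ f).order = m * v.ord f) (x : F) (c : K)
    (hx : v.ord (x - algebraMap K F c) ≠ 0) :
    v.ordDifferential (D K F x) = v.ord (x - algebraMap K F c) - 1 := by
  obtain ⟨L, hLD, hLs⟩ := Kaehler.exists_lift θ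
  obtain ⟨t, ht1, htd⟩ := exists_dCoord_eq v
  have ht0 : t ≠ 0 := by
    rintro rfl
    simp at ht1
  have htr : Transcendental K t := Kaehler.transcendental_of_ord_ne_zero v (by omega)
  have hspan := span_D_eq_top h htr
  have hex : ∃ f : F, D K F x = f • v.dCoord := by
    have h1 : D K F x ∈ Submodule.span F {D K F t} := by rw [hspan]; trivial
    obtain ⟨f, hf⟩ := Submodule.mem_span_singleton.1 h1
    exact ⟨f, by rw [htd, hf]⟩
  set g := v.differentialCoeff (D K F x) with hg
  have hgx : D K F x = g • D K F t := by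
    rw [hg, Place.differentialCoeff, dif_pos hex, ← htd]
    exact hex.choose_spec
  -- apply `L`
  have h1 : euler C (θ x) = θ g * euler C (θ t) := by
    rw [← hLD, ← hLD, ← hLs, ← hgx]
  set y := x - algebraMap K F c with hy
  have hy0 : y ≠ 0 := by
    intro h0
    rw [h0] at hx
    simp at hx
  have h2 : euler C (θ x) = euler C (θ y) := by
    have : θ x = θ y + algebraMap K (LaurentSeries C) c := by
      rw [hy, map_sub, AlgHom.commutes, sub_add_cancel]
    rw [this, map_add, Kaehler.euler_algebraMap, add_zero]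
  have hoy : (θ y).order ≠ 0 := by
    rw [hθ y hy0]
    exact mul_ne_zero hm.ne' hx
  have hot : (θ t).order ≠ 0 := by
    rw [hθ t ht0, ht1, mul_one]
    exact hm.ne'
  have h3 : (euler C (θ y)).order = m * v.ord y := by rw [order_euler hoy, hθ y hy0]
  have h4 : (euler C (θ t)).order = m := by rw [order_euler hot, hθ t ht0, ht1, mul_one]
  have hne : euler C (θ y) ≠ 0 := euler_ne_zero hoy
  have hg0 : g ≠ 0 := by
    intro h0
    rw [h2, h0, map_zero, zero_mul] at h1
    exact hne h1
  have hθg : θ g ≠ 0 := by
    intro h0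
    rw [h2, h0, zero_mul] at h1
    exact hne h1
  have h5 : (euler C (θ y)).order = (θ g).order + (euler C (θ t)).order := by
    rw [← h2, h1]
    exact HahnSeries.order_mul hθg (euler_ne_zero hot)
  rw [h3, h4, hθ g hg0] at h5
  have h6 : m * (v.ord y - 1 - v.ord g) = 0 := by linarith
  rcases mul_eq_zero.1 h6 with h7 | h7
  · omega
  · show v.ord g = v.ord y - 1
    omega

theorem dCoordGenerates [CharZero K] [IsAlgClosed K] (h : IsFF1 K F) (v : Place K F) :
    v.DCoordGenerates := by
  obtain ⟨t, ht1, htd⟩ := exists_dCoord_eq v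
  refine ⟨?_⟩
  rw [htd]
  exact span_D_eq_top h (Kaehler.transcendental_of_ord_ne_zero v (by omega))

theorem exists_place [CharZero K] [IsAlgClosed K] (h : IsFF1 K F) : Nonempty (Place K F) := by
  obtain ⟨x, hx, hfin⟩ := id h
  have h1 := sum_ord_pos h hx
  have h2 : 0 < Module.finrank K⟮x⟯ F := Module.finrank_pos
  by_contra hne
  rw [not_nonempty_iff] at hne
  have h3 : (finite_ord_pos h hx).toFinset = ∅ := by
    ext v
    exact hne.elim v
  rw [h3, Finset.sum_empty] at h1
  omega

theorem nontrivial_kaehler [CharZero K] [IsAlgClosed K] (h : IsFF1 K F) : Nontrivial Ω[F⁄K] := by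
  obtain ⟨v⟩ := exists_place h
  obtain ⟨θ, hθ⟩ := exists_expansion v (fun f hf => exists_const_sub h v hf)
  obtain ⟨L, hLD, -⟩ := Kaehler.exists_lift θ
  obtain ⟨t, ht1, ht0, -⟩ := exists_ord_eq_one v
  refine ⟨D K F t, 0, fun h0 => ?_⟩
  have h1 : euler K (θ t) = 0 := by rw [← hLD, h0, map_zero]
  exact euler_ne_zero (by rw [hθ t ht0, ht1]; exact one_ne_zero) h1

end Fermat.Agent.S24
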