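import Fermat.Agent.S24.Principal
import Fermat.Agent.S24.Kaehler

set_option autoImplicit false

/-!
# S24, task A7: the degree of a canonical divisor (Riemann-Hurwitz bookkeeping)
-/

namespace Fermat.Agent.S24

open AlgebraicCurve IntermediateField KaehlerDifferential

variable {K F : Type*} [Field K] [Field F] [Algebra K F]

namespace RH

theorem transcendental_sub_const [IsAlgClosed K] {x : F} (hx : Transcendental K x) (c : K) :
    Transcendental K (x - algebraMap K F c) := by
  apply transcendental_of_not_mem_range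
  rintro ⟨a, ha⟩
  apply not_mem_range_of_transcendental hx
  exact ⟨a + c, by rw [map_add, ha]; ring⟩

theorem transcendental_inv [IsAlgClosed K] {x : F} (hx : Transcendental K x) :
    Transcendental K x⁻¹ := by
  apply transcendental_of_not_mem_range
  rintro ⟨a, ha⟩
  apply not_mem_range_of_transcendental hx
  exact ⟨a⁻¹, by rw [map_inv₀, ha, inv_inv]⟩

theorem adjoin_sub_const (x : F) (c : K) : K⟮x - algebraMap K F c⟯ = K⟮x⟯ := by
  apply le_antisymm
  · rw [adjoin_simple_le_iff]
    exact sub_mem (mem_adjoin_simple_self K x) (IntermediateField.algebraMap_mem _ c)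
  · rw [adjoin_simple_le_iff]
    have := add_mem (mem_adjoin_simple_self K (x - algebraMap K F c))
      (IntermediateField.algebraMap_mem K⟮x - algebraMap K F c⟯ c)
    simpa using this

theorem ordDiff_eq [IsAlgClosed K] [CharZero K] (h : IsFF1 K F) (v : Place K F) (x : F) (c : K)
    (hx : v.ord (x - algebraMap K F c) ≠ 0) :
    v.ordDifferential (D K F x) = v.ord (x - algebraMap K F c) - 1 := by
  obtain ⟨θ, hθ⟩ := exists_expansion v (fun f hf => exists_const_sub h v hf)
  exact ordDifferential_D h v θ 1 one_pos (by simpa using hθ) x c hx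

theorem card_eq [IsAlgClosed K] [CharZero K] (h : IsFF1 K F) {y : F} (hy : Transcendental K y) :
    Nat.card {v : Place K F // 0 < v.ord y} = (finite_ord_pos h hy).toFinset.card := by
  have : Nat.card {v : Place K F // 0 < v.ord y} = Set.ncard {v : Place K F | 0 < v.ord y} := rfl
  rw [this, Set.ncard_eq_toFinset_card _ (finite_ord_pos h hy)]

theorem sum_sub_one [IsAlgClosed K] [CharZero K] (h : IsFF1 K F) {y : F}
    (hy : Transcendental K y) :
    ∑ v ∈ (finite_ord_pos h hy).toFinset, (v.ord y - 1) =
      (Module.finrank K⟮y⟯ F : ℤ) - Nat.card {v : Place K F // 0 < v.ord y} := by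
  rw [Finset.sum_sub_distrib, sum_ord_pos h hy, card_eq h hy]
  simp

theorem ord_eq_one_of_card [IsAlgClosed K] [CharZero K] (h : IsFF1 K F) {y : F}
    (hy : Transcendental K y)
    (hc : Nat.card {v : Place K F // 0 < v.ord y} = Module.finrank K⟮y⟯ F)
    (v : Place K F) (hv : 0 < v.ord y) : v.ord y = 1 := by
  have h1 := sum_sub_one h hy
  rw [hc, sub_self] at h1
  have h2 := (Finset.sum_eq_zero_iff_of_nonneg (fun w hw => by
    have : 0 < w.ord y := by simpa using hw
    omega)).mp h1 v (by simpa using hv)
  omega

end RH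

open RH in
theorem degree_canonical [IsAlgClosed K] [CharZero K] (h : IsFF1 K F)
    [HasCanonicalDivisor (K := K) (F := F)] {x : F} (hx : Transcendental K x) (S : Finset K)
    (hS : ∀ c : K, c ∉ S → Nat.card {v : Place K F // 0 < v.ord (x - algebraMap K F c)} = Module.finrank K⟮x⟯ F)
    {ω : Ω[F⁄K]} (hω : ω ≠ 0) :
    Divisor.degree (canonicalDivisorOf hω) =
      ∑ c ∈ S, ((Module.finrank K⟮x⟯ F : ℤ) - Nat.card {v : Place K F // 0 < v.ord (x - algebraMap K F c)})
        - Module.finrank K⟮x⟯ F - Nat.card {v : Place K F // v.ord x < 0} := by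
  classical
  have := nontrivial_kaehler (F := F) h
  have hgen : ∀ v : Place K F, v.DCoordGenerates := dCoordGenerates h
  have hx0 : x ≠ 0 := by
    rintro rfl
    exact hx (isAlgebraic_zero)
  -- `ω = g • D x`
  have hspan := span_D_eq_top h hx
  obtain ⟨g, hg⟩ : ∃ g : F, g • D K F x = ω := by
    have : ω ∈ Submodule.span F {D K F x} := hspan ▸ Submodule.mem_top
    exact Submodule.mem_span_singleton.mp this
  have hg0 : g ≠ 0 := by
    rintro rfl
    exact hω (by rw [← hg, zero_smul])
  have hDx : D K F x ≠ 0 := by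
    intro h0
    exact hω (by rw [← hg, h0, smul_zero])
  have hcoeff : ∀ v : Place K F, v.differentialCoeff (D K F x) ≠ 0 := by
    intro v h0
    have := hgen v
    have := v.differentialCoeff_smul_dCoord (D K F x)
    rw [h0, zero_smul] at this
    exact hDx this.symm
  have hdiff : ∀ v : Place K F, (canonicalDivisorOf hω - canonicalDivisorOf hDx) v = v.ord g := by
    intro v
    have := hgen v
    rw [Finsupp.sub_apply, canonicalDivisorOf_apply, canonicalDivisorOf_apply, ← hg,
      v.ordDifferential_smul hg0 (hcoeff v)]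
    ring
  have hdeg0 := degree_eq_zero_of_principal h hg0 _ hdiff
  rw [map_sub, sub_eq_zero] at hdeg0
  rw [hdeg0, principal_degree_eq_sum h]
  -- the finite sets of places
  set n : ℤ := (Module.finrank K⟮x⟯ F : ℤ) with hn
  have htc : ∀ c : K, Transcendental K (x - algebraMap K F c) := transcendental_sub_const hx
  have hti : Transcendental K x⁻¹ := transcendental_inv hx
  let P : K → Finset (Place K F) := fun c => (finite_ord_pos h (htc c)).toFinset
  let Pinf : Finset (Place K F) := (finite_ord_pos h hti).toFinset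
  have hP : ∀ c v, v ∈ P c ↔ 0 < v.ord (x - algebraMap K F c) := by
    intro c v
    simp [P]
  have hPinf : ∀ v, v ∈ Pinf ↔ v.ord x < 0 := by
    intro v
    simp [Pinf, Place.ord_inv]
  have hdisjP : ∀ c c' : K, c ≠ c' → Disjoint (P c) (P c') := by
    intro c c' hcc
    rw [Finset.disjoint_left]
    intro v hv hv'
    rw [hP] at hv hv'
    have h1 : (x - algebraMap K F c') + -(x - algebraMap K F c) = algebraMap K F (c - c') := by
      rw [map_sub]; ring
    have h2 : algebraMap K F (c - c') ≠ 0 := by
      rw [Ne, map_eq_zero, sub_eq_zero]; exact hcc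
    have h3 := min_le_ord_add v (f := x - algebraMap K F c') (g := -(x - algebraMap K F c))
      (by rw [h1]; exact h2)
    rw [h1, ord_algebraMap, ord_neg] at h3
    rcases min_le_iff.mp h3 with h4 | h4 <;> omega
  have hdisjInf : ∀ c : K, Disjoint Pinf (P c) := by
    intro c
    rw [Finset.disjoint_left]
    intro v hv hv'
    rw [hPinf] at hv
    rw [hP] at hv'
    have h1 : v.ord (x + -algebraMap K F c) = v.ord x :=
      ord_add_eq_of_lt v hx0 (by rw [ord_neg, ord_algebraMap]; exact hv)
    rw [← sub_eq_add_neg] at h1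
    omega
  set T : Finset (Place K F) := Pinf ∪ S.biUnion P with hT
  have hsupp : (canonicalDivisorOf hDx).support ⊆ T := by
    intro v hv
    rw [Finsupp.mem_support_iff, canonicalDivisorOf_apply] at hv
    rw [hT, Finset.mem_union, Finset.mem_biUnion]
    by_cases hvx : v.ord x < 0
    · exact Or.inl ((hPinf v).mpr hvx)
    · right
      obtain ⟨c, hc | hc⟩ := exists_const_sub h v (not_lt.mp hvx)
      · exact absurd ⟨c, hc.symm⟩ (not_mem_range_of_transcendental hx)
      · refine ⟨c, ?_, (hP c v).mpr hc⟩
        by_contra hcS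
        apply hv
        have h1 : v.ord (x - algebraMap K F c) = 1 :=
          ord_eq_one_of_card h (htc c) (by rw [hS c hcS, adjoin_sub_const]) v hc
        rw [ordDiff_eq h v x c (by omega), h1, sub_self]
  rw [Finset.sum_subset hsupp (fun v _ hv => by simpa using hv), hT,
    Finset.sum_union (by
      rw [Finset.disjoint_biUnion_right]
      exact fun c _ => hdisjInf c),
    Finset.sum_biUnion (fun c _ c' _ hcc => hdisjP c c' hcc)]
  have e1 : ∀ c ∈ S, ∑ v ∈ P c, (canonicalDivisorOf hDx) v =
      n - Nat.card {v : Place K F // 0 < v.ord (x - algebraMap K F c)} := by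
    intro c _
    rw [hn, ← adjoin_sub_const x c, ← sum_sub_one h (htc c)]
    refine Finset.sum_congr rfl fun v hv => ?_
    have hv' := (hP c v).mp hv
    rw [canonicalDivisorOf_apply, ordDiff_eq h v x c (by omega)]
  have e2 : ∑ v ∈ Pinf, (canonicalDivisorOf hDx) v =
      - n - Nat.card {v : Place K F // v.ord x < 0} := by
    have h1 := sum_sub_one h hti
    rw [principal_adjoin_inv_eq] at h1
    have h2 : Nat.card {v : Place K F // 0 < v.ord x⁻¹} = Nat.card {v : Place K F // v.ord x < 0} :=
      Nat.card_congr (Equiv.subtypeEquivRight fun v => by rw [Place.ord_inv]; omega)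
    have h3 : ∑ v ∈ Pinf, (canonicalDivisorOf hDx) v =
        - ∑ v ∈ Pinf, (v.ord x⁻¹ - 1) - 2 * (Pinf.card : ℤ) := by
      rw [← Finset.sum_neg_distrib, Finset.card_eq_sum_ones, Nat.cast_sum, Finset.mul_sum,
        ← Finset.sum_sub_distrib]
      refine Finset.sum_congr rfl fun v hv => ?_
      have hv' := (hPinf v).mp hv
      have h4 := ordDiff_eq h v x 0 (by rw [map_zero, sub_zero]; omega)
      rw [map_zero, sub_zero] at h4
      rw [canonicalDivisorOf_apply, h4, Place.ord_inv]
      push_cast
      ring
    have h5 : (Pinf.card : ℤ) = Nat.card {v : Place K F // v.ord x < 0} := by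
      rw [← h2, card_eq h hti]
    rw [h3, h1, h5, h2]
    ring
  rw [e2, Finset.sum_congr rfl e1]
  ring

end Fermat.Agent.S24
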