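import Fermat.Agent.S24.Taylor

set_option autoImplicit false

/-! # S24 task B-TaylorAct : Taylor expansion and the stabiliser of the point -/

open UpperHalfPlane ModularForm EisensteinSeries CongruenceSubgroup
open scoped MatrixGroups Manifold

namespace Fermat.Agent.S24

theorem taylorAct_ser_sub (c : ℂ) : taylor_ser (fun z => z - c) c = PowerSeries.X := by
  ext n
  rw [taylor_ser_coeff, PowerSeries.coeff_X]
  rcases n with _ | _ | n
  · simp
  · simp
  · have h1 : deriv (fun z : ℂ => z - c) = fun _ => 1 := by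
      funext z; simp
    rw [iteratedDeriv_succ', iteratedDeriv_succ', h1]
    simp

theorem taylorAct_ser_pow {F : ℂ → ℂ} {c : ℂ} (hf : AnalyticAt ℂ F c) (n : ℕ) :
    taylor_ser (F ^ n) c = taylor_ser F c ^ n := by
  induction n with
  | zero =>
    have : (F ^ 0) = fun _ => (1 : ℂ) := by funext z; simp
    rw [this, taylor_ser_const]; simp
  | succ n ih => rw [pow_succ, taylor_ser_mul (hf.pow n) hf, ih, pow_succ]

/-- if `F = (z-c)^m g` near `c` with `g c ≠ 0`, then the Taylor series has order `m` and leading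
coefficient `g c`. -/
theorem taylorAct_key {F g : ℂ → ℂ} {c : ℂ} {m : ℕ} (hg : AnalyticAt ℂ g c) (hg0 : g c ≠ 0)
    (h : ∀ᶠ z in nhds c, F z = (z - c) ^ m • g z) :
    (HahnSeries.ofPowerSeries ℤ ℂ (taylor_ser F c)).order = m ∧
      (HahnSeries.ofPowerSeries ℤ ℂ (taylor_ser F c)).leadingCoeff = g c := by
  have h1 : taylor_ser F c = PowerSeries.X ^ m * taylor_ser g c := by
    have h2 : F =ᶠ[nhds c] ((fun z => z - c) ^ m * g) := by
      filter_upwards [h] with z hz
      simpa using hz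
    have h3 : AnalyticAt ℂ (fun z : ℂ => z - c) c := by fun_prop
    rw [taylor_ser_congr h2, taylor_ser_mul (h3.pow m) hg, taylorAct_ser_pow h3,
      taylorAct_ser_sub]
  have h4 : (taylor_ser F c).coeff m = g c := by
    rw [h1, PowerSeries.coeff_X_pow_mul', if_pos le_rfl, taylor_ser_coeff]
    simp
  have := taylor_order_ofPowerSeries (taylor_ser F c) m
    (by
      intro k hk
      rw [h1, PowerSeries.coeff_X_pow_mul', if_neg (by omega)])
    (by rw [h4]; exact hg0)
  rw [h4] at this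
  exact this

theorem taylorAct_moebius (a b c d z t : ℂ) (hdet : a * d - b * c = 1) (hz : c * z + d ≠ 0)
    (ht : c * t + d ≠ 0) (e4 : t * (c * t + d) = a * t + b) :
    (a * z + b) / (c * z + d) - t = (z - t) * ((c * z + d) * (c * t + d))⁻¹ := by
  rw [← div_eq_mul_inv, eq_div_iff (mul_ne_zero hz ht), sub_mul, ← mul_assoc, div_mul_cancel₀ _ hz]
  linear_combination (z - t) * hdet - (c * z + d) * e4

/-- behaviour under an element of the stabiliser of `τ`: the order is unchanged and the leading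
coefficient is multiplied by `((ε⁻¹)'(τ)) ^ order`, `(ε⁻¹)'(τ) = (c τ + d)⁻²`. -/
theorem TPt_act (τ : ℍ) (ε : SL(2, ℤ)) (hε : ε • τ = τ) (f : holSub) (hf : f ≠ 0) :
    (TPt τ ⟨act ε f.1, act_mem_holSub ε f.2⟩).order = (TPt τ f).order ∧
    (TPt τ ⟨act ε f.1, act_mem_holSub ε f.2⟩).leadingCoeff =
      ((((ε⁻¹ : SL(2, ℤ)) 1 0 : ℤ) : ℂ) * τ + (((ε⁻¹ : SL(2, ℤ)) 1 1 : ℤ) : ℂ)) ^ (-2 * (TPt τ f).order)
        * (TPt τ f).leadingCoeff := by
  set γ : SL(2, ℤ) := ε⁻¹ with hγ
  have hγτ : γ • τ = τ := by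
    rw [hγ, inv_smul_eq_iff, hε]
  set a : ℂ := ((γ 0 0 : ℤ) : ℂ) with ha
  set b : ℂ := ((γ 0 1 : ℤ) : ℂ) with hb
  set c : ℂ := ((γ 1 0 : ℤ) : ℂ) with hc
  set d : ℂ := ((γ 1 1 : ℤ) : ℂ) with hd
  have hdet : a * d - b * c = 1 := by
    have := γ.det_coe
    rw [Matrix.det_fin_two] at this
    have h2 := congrArg (fun x : ℤ => (x : ℂ)) this
    simp only [Int.cast_sub, Int.cast_mul, Int.cast_one] at h2
    exact h2
  have hcoe : ∀ w : ℍ, ((γ • w : ℍ) : ℂ) = (a * w + b) / (c * w + d) := by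
    intro w
    rw [coe_specialLinearGroup_apply]
    simp [ha, hb, hc, hd]
  have hden : ∀ w : ℍ, c * w + d ≠ 0 := by
    intro w
    have := UpperHalfPlane.denom_ne_zero (γ : GL (Fin 2) ℝ) w
    simpa [UpperHalfPlane.denom, ha, hb, hc, hd] using this
  have hF := taylor_analyticAt f.2 τ
  set F : ℂ → ℂ := f.1 ∘ ofComplex with hFdef
  -- order of F at τ is finite
  have hfin : analyticOrderAt F (τ : ℂ) ≠ ⊤ := by
    intro htop
    rw [analyticOrderAt_eq_top] at htop
    have hpre : IsPreconnected {z : ℂ | 0 < z.im} := (convex_halfSpace_im_gt 0).isPreconnected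
    have := (taylor_analyticOnNhd f.2).eqOn_zero_of_preconnected_of_eventuallyEq_zero hpre
      (show (τ : ℂ) ∈ {z : ℂ | 0 < z.im} from τ.im_pos) htop
    apply hf
    apply Subtype.ext
    funext z
    have h5 := this (show (z : ℂ) ∈ {z : ℂ | 0 < z.im} from z.im_pos)
    simpa using h5
  obtain ⟨m, hm⟩ := ENat.ne_top_iff_exists.mp hfin
  obtain ⟨g, hg, hg0, hFg⟩ := (hF.analyticOrderAt_eq_natCast).mp hm.symm
  have key1 := taylorAct_key hg hg0 hFg
  -- the Möbius map
  set μ : ℂ → ℂ := fun z => (a * z + b) / (c * z + d) with hμ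
  have hμτ : μ τ = τ := by
    rw [hμ]; simp only; rw [← hcoe, hγτ]
  have hμan : AnalyticAt ℂ μ (τ : ℂ) := by
    have h1 : AnalyticAt ℂ (fun z : ℂ => a * z + b) (τ : ℂ) := by fun_prop
    have h2 : AnalyticAt ℂ (fun z : ℂ => c * z + d) (τ : ℂ) := by fun_prop
    exact h1.div h2 (hden τ)
  set φ : ℂ → ℂ := fun z => ((c * z + d) * (c * τ + d))⁻¹ with hφ
  have hφan : AnalyticAt ℂ φ (τ : ℂ) := by
    have h2 : AnalyticAt ℂ (fun z : ℂ => (c * z + d) * (c * τ + d)) (τ : ℂ) := by fun_prop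
    exact h2.inv (mul_ne_zero (hden τ) (hden τ))
  set g2 : ℂ → ℂ := fun z => φ z ^ m * g (μ z) with hg2
  have hg2an : AnalyticAt ℂ g2 (τ : ℂ) := by
    have h1 : AnalyticAt ℂ (fun z => g (μ z)) (τ : ℂ) := by
      have : AnalyticAt ℂ g (μ τ) := by rw [hμτ]; exact hg
      exact this.comp hμan
    exact (hφan.pow m).mul h1
  have hg2τ : g2 τ = (c * τ + d) ^ (-2 * (m : ℤ)) * g τ := by
    simp only [hg2, hφ, hμτ]
    congr 1
    rw [zpow_mul, zpow_natCast]
    congr 1
    rw [zpow_neg]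
    norm_cast
    rw [sq]
  have hG : ∀ᶠ z in nhds (τ : ℂ), (act ε f.1 ∘ ofComplex) z = (z - τ) ^ m • g2 z := by
    have h1 : ∀ᶠ z in nhds (τ : ℂ), 0 < z.im := isOpen_upperHalfPlaneSet.mem_nhds τ.im_pos
    have h2 : ∀ᶠ z in nhds (τ : ℂ), F (μ z) = (μ z - τ) ^ m • g (μ z) := by
      have hc1 : Filter.Tendsto μ (nhds (τ : ℂ)) (nhds (τ : ℂ)) := by
        have := hμan.continuousAt.tendsto
        rwa [hμτ] at this
      exact hc1.eventually hFg
    filter_upwards [h1, h2] with z hz1 hz2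
    have e1 : (act ε f.1 ∘ ofComplex) z = F (μ z) := by
      simp only [Function.comp, act_apply, hFdef]
      have e2 : ((γ • ofComplex z : ℍ) : ℂ) = μ z := by
        rw [hcoe, ofComplex_apply_of_im_pos hz1]
      rw [← e2, ofComplex_apply]
    rw [e1, hz2]
    have hz3 : c * z + d ≠ 0 := by
      have := hden ⟨z, hz1⟩
      simpa using this
    have e3 : μ z - τ = (z - τ) * φ z := by
      have e4 : (τ : ℂ) = (a * τ + b) / (c * τ + d) := by
        conv_lhs => rw [← hμτ]
      have h5 := hden τ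
      rw [eq_div_iff h5] at e4
      exact taylorAct_moebius a b c d z τ hdet hz3 h5 e4
    rw [e3, mul_pow]
    simp only [smul_eq_mul, hg2]
    ring
  have key2 := taylorAct_key hg2an (by rw [hg2τ]; exact mul_ne_zero (zpow_ne_zero _ (hden τ)) hg0) hG
  rw [taylor_TPt_eq, taylor_TPt_eq]
  refine ⟨by rw [key2.1, key1.1], ?_⟩
  rw [key2.2, key1.2, key1.1, hg2τ]

end Fermat.Agent.S24
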