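import Fermat.Agent.S24.PlaceOfVal

set_option autoImplicit false

/-!
# S24, part A: function fields of one variable
-/

namespace Fermat.Agent.S24

open AlgebraicCurve IntermediateField
open scoped IntermediateField.algebraAdjoinAdjoin

variable {K F : Type*} [Field K] [Field F] [Algebra K F]

/-- `F / K` is a function field in one variable. -/
def IsFF1 (K F : Type*) [Field K] [Field F] [Algebra K F] : Prop :=
  ∃ x : F, Transcendental K x ∧ FiniteDimensional K⟮x⟯ F

theorem transcendental_of_not_mem_range [IsAlgClosed K] {f : F}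
    (hf : f ∉ Set.range (algebraMap K F)) : Transcendental K f := by
  intro halg
  apply hf
  have hint : IsIntegral K f := halg.isIntegral
  have hirr := minpoly.irreducible hint
  have hdeg := IsAlgClosed.degree_eq_one_of_irreducible K hirr
  exact minpoly.mem_range_of_degree_eq_one K f hdeg

theorem not_mem_range_of_transcendental {f : F} (hf : Transcendental K f) :
    f ∉ Set.range (algebraMap K F) := by
  rintro ⟨a, rfl⟩
  exact hf (isAlgebraic_algebraMap a)

theorem isTranscendenceBasis_unit {x : F} (hx : Transcendental K x)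
    (halg : Algebra.IsAlgebraic K⟮x⟯ F) : IsTranscendenceBasis K (fun _ : Unit => x) := by
  have hind : AlgebraicIndependent K (fun _ : Unit => x) :=
    algebraicIndependent_unique_type_iff.mpr hx
  rw [hind.isTranscendenceBasis_iff_isAlgebraic]
  have hr : Set.range (fun _ : Unit => x) = {x} := by simp
  rw [hr]
  exact (IsFractionRing.comap_isAlgebraic_iff (A := Algebra.adjoin K {x}) (K := K⟮x⟯) (C := F)).mpr halg

theorem IsFF1.isAlgebraic (h : IsFF1 K F) {f : F} (hf : Transcendental K f) :
    Algebra.IsAlgebraic K⟮f⟯ F := by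
  obtain ⟨x, hx, hfin⟩ := h
  have hb := isTranscendenceBasis_unit hx inferInstance
  have htr : Algebra.trdeg K F = 1 := by
    have := hb.lift_cardinalMk_eq_trdeg
    simpa using this.symm
  have hind : AlgebraicIndependent K (fun _ : Unit => f) :=
    algebraicIndependent_unique_type_iff.mpr hf
  have hb' : IsTranscendenceBasis K (fun _ : Unit => f) :=
    hind.isTranscendenceBasis_of_lift_trdeg_le_of_finite (by simp [htr])
  have := hb'.isAlgebraic_field
  have hr : Set.range (fun _ : Unit => f) = {f} := by simp
  rwa [hr] at this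

theorem IsFF1.essFiniteType (h : IsFF1 K F) : Algebra.EssFiniteType K F := by
  obtain ⟨x, hx, hfin⟩ := h
  have h1 : Algebra.EssFiniteType K K⟮x⟯ :=
    IntermediateField.essFiniteType_iff.mpr ⟨{x}, by simp⟩
  exact Algebra.EssFiniteType.comp K K⟮x⟯ F

theorem IsFF1.finiteDimensional (h : IsFF1 K F) {f : F} (hf : Transcendental K f) :
    FiniteDimensional K⟮f⟯ F := by
  have h1 := h.isAlgebraic hf
  have h2 := h.essFiniteType
  have h3 : Algebra.EssFiniteType K⟮f⟯ F := Algebra.EssFiniteType.of_comp K K⟮f⟯ F
  exact Algebra.finite_of_essFiniteType_of_isAlgebraic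

end Fermat.Agent.S24
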