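import Fermat.Agent.S24.Theta
import Fermat.Agent.S24.Inv
import Fermat.Agent.S24.FF1
import Fermat.Agent.ES.NumIndex
import Fermat.Prelude.Thm_ModularCurve_coeff_jqModC_neg_one

set_option autoImplicit false

/-! # S24 task B-Degree : `[F : ℚ̄(j)] = ψ(N)` -/

open UpperHalfPlane ModularForm EisensteinSeries CongruenceSubgroup IntermediateField
open scoped MatrixGroups Manifold

namespace Fermat.Agent.S24

/-- the chart at the cusp `∞`. -/
noncomputable def cuspChart (N : ℕ) [NeZero N] : Chart N where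
  R := perSub N
  T := TInf N
  inj := TInf_injective N
  le := Btil_le_perSub N
  const a := TInf_const N (iotaK a) _

theorem degree_Jser_one : Jser 1 = ModularCurve.jqModC Kb := by
  rw [Jser, dif_neg one_ne_zero]
  exact ModularCurve.jqNModC_one Kb

theorem degree_jF_not_mem_range (N : ℕ) [NeZero N] :
    jF N ∉ Set.range (algebraMap Kb (FN N)) := by
  rintro ⟨a, ha⟩
  have h1 : (algebraMap Kb (LaurentSeries Kb) a) = Jser 1 := congrArg Subtype.val ha
  rw [ModularCurve.algebraMap_laurentSeries_eq_single, degree_Jser_one] at h1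
  have h2 := congrArg (fun s => HahnSeries.coeff s (-1 : ℤ)) h1
  simp only [ModularCurve.coeff_jqModC_neg_one] at h2
  rw [HahnSeries.coeff_single_of_ne (by norm_num)] at h2
  exact zero_ne_one h2

theorem transcendental_jF (N : ℕ) [NeZero N] : Transcendental Kb (jF N) :=
  transcendental_of_not_mem_range (degree_jF_not_mem_range N)

theorem degree_onB_injective {N : ℕ} (c : Chart N) : Function.Injective c.onB := by
  intro a b hab
  have := c.inj hab
  exact Subring.inclusion_injective c.le this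

theorem degree_actB_one (N : ℕ) (b : Btil N) : actB N 1 b = b :=
  Subtype.ext (act_one _)

theorem degree_actB_mul (N : ℕ) (g h : SL(2, ℤ)) (b : Btil N) :
    actB N (g * h) b = actB N g (actB N h b) :=
  Subtype.ext (act_mul g h _)

theorem degree_actB_injective (N : ℕ) (g : SL(2, ℤ)) : Function.Injective (actB N g) := by
  intro a b hab
  have := congrArg (actB N g⁻¹) hab
  rwa [← degree_actB_mul, ← degree_actB_mul, inv_mul_cancel, degree_actB_one,
    degree_actB_one] at this

/-- the conjugate attached to a coset -/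
theorem degree_actB_out (N : ℕ) [NeZero N] (g : SL(2, ℤ)) (q : SL(2, ℤ) ⧸ Gamma0 N) (a : A0 N) :
    actB N g (actB N q.out (PhiB N a)) = actB N (g • q).out (PhiB N a) := by
  have h1 : g • q = ((g * q.out : SL(2, ℤ)) : SL(2, ℤ) ⧸ Gamma0 N) := by
    conv_lhs => rw [← QuotientGroup.out_eq' q]
    rfl
  obtain ⟨γ, hγ⟩ := QuotientGroup.mk_out_eq_mul (Gamma0 N) (g * q.out)
  rw [h1, hγ, degree_actB_mul, act_PhiB N γ γ.2, degree_actB_mul]

theorem degree_out_one_mem (N : ℕ) :
    ((1 : SL(2, ℤ)) : SL(2, ℤ) ⧸ Gamma0 N).out ∈ Gamma0 N := by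
  obtain ⟨γ, hγ⟩ := QuotientGroup.mk_out_eq_mul (Gamma0 N) 1
  rw [hγ, one_mul]
  exact γ.2

/-- constants in `Btil`. -/
noncomputable def degreeConst (N : ℕ) : Kb →+* Btil N :=
  constK.codRestrict (Btil N) (constK_mem_Btil N)

theorem degree_eq_eval₂ (N : ℕ) (P : Polynomial Kb) (b : Btil N)
    (hb : (b : ℍ → ℂ) = fun z => (P.map iotaK).eval (jFun z)) :
    b = Polynomial.eval₂ (degreeConst N) ⟨jFun, jFun_mem_Btil N⟩ P := by
  apply Subtype.ext
  funext z
  rw [hb]
  have h := Polynomial.hom_eval₂ P (degreeConst N)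
    ((Pi.evalRingHom (fun _ : ℍ => ℂ) z).comp (Btil N).subtype) ⟨jFun, jFun_mem_Btil N⟩
  have h2 : ((Pi.evalRingHom (fun _ : ℍ => ℂ) z).comp (Btil N).subtype).comp (degreeConst N)
      = iotaK := by
    ext a; rfl
  rw [h2] at h
  show Polynomial.eval (jFun z) (Polynomial.map iotaK P) = _
  rw [Polynomial.eval_map]
  exact h.symm

theorem degree_onB_eval₂ {N : ℕ} (c : Chart N) (P : Polynomial Kb) :
    c.onB (Polynomial.eval₂ (degreeConst N) ⟨jFun, jFun_mem_Btil N⟩ P) =
      Polynomial.eval₂ ((HahnSeries.C : ℂ →+* LaurentSeries ℂ).comp iotaK)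
        (c.onB ⟨jFun, jFun_mem_Btil N⟩) P := by
  rw [Polynomial.hom_eval₂]
  congr 1
  ext1 a
  exact c.const a

theorem degree_theta_aeval (N : ℕ) [NeZero N] (c : Chart N) (g : SL(2, ℤ)) (P : Polynomial Kb) :
    theta N c g (Polynomial.aeval (jF N) P) =
      Polynomial.eval₂ ((HahnSeries.C : ℂ →+* LaurentSeries ℂ).comp iotaK)
        (c.onB ⟨jFun, jFun_mem_Btil N⟩) P := by
  rw [Polynomial.aeval_def, Polynomial.hom_eval₂, theta_jF]
  congr 1
  ext1 a
  exact theta_const N c g a

/-- the "characteristic polynomial" of `u / w`. -/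
noncomputable def degreeH (N : ℕ) [NeZero N] [Fintype (SL(2, ℤ) ⧸ Gamma0 N)] (u w : A0 N) :
    Polynomial (Btil N) :=
  ∏ q : SL(2, ℤ) ⧸ Gamma0 N, (Polynomial.C (actB N q.out (PhiB N w)) * Polynomial.X -
    Polynomial.C (actB N q.out (PhiB N u)))

theorem degreeH_map_actB (N : ℕ) [NeZero N] [Fintype (SL(2, ℤ) ⧸ Gamma0 N)] (u w : A0 N)
    (g : SL(2, ℤ)) : (degreeH N u w).map (actB N g) = degreeH N u w := by
  rw [degreeH, Polynomial.map_prod]
  simp only [Polynomial.map_sub, Polynomial.map_mul, Polynomial.map_C, Polynomial.map_X,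
    degree_actB_out]
  exact Equiv.prod_comp (MulAction.toPerm g) (fun q : SL(2, ℤ) ⧸ Gamma0 N =>
    (Polynomial.C (actB N q.out (PhiB N w)) * Polynomial.X -
      Polynomial.C (actB N q.out (PhiB N u))))

theorem degreeH_natDegree_le (N : ℕ) [NeZero N] [Fintype (SL(2, ℤ) ⧸ Gamma0 N)] (u w : A0 N) :
    (degreeH N u w).natDegree ≤ Fintype.card (SL(2, ℤ) ⧸ Gamma0 N) := by
  rw [degreeH]
  refine (Polynomial.natDegree_prod_le _ _).trans ?_
  rw [Fintype.card, Finset.card_eq_sum_ones]
  refine Finset.sum_le_sum fun q _ => ?_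
  rw [Polynomial.natDegree_sub_C]
  exact (Polynomial.natDegree_C_mul_le _ _).trans Polynomial.natDegree_X_le

theorem degreeH_coeff (N : ℕ) [NeZero N] [Fintype (SL(2, ℤ) ⧸ Gamma0 N)] (u w : A0 N) (i : ℕ) :
    ∃ P : Polynomial Kb, (degreeH N u w).coeff i =
      Polynomial.eval₂ (degreeConst N) ⟨jFun, jFun_mem_Btil N⟩ P := by
  obtain ⟨P, hP⟩ := inv_mem N ((degreeH N u w).coeff i : ℍ → ℂ) ((degreeH N u w).coeff i).2
    (fun g => by
      have h := congrArg (fun p => Polynomial.coeff p i) (degreeH_map_actB N u w g)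
      simp only [Polynomial.coeff_map] at h
      exact congrArg Subtype.val h)
  exact ⟨P, degree_eq_eval₂ N P _ hP⟩

/-- every element of `F` is a root of a nonzero polynomial of degree `≤ [SL₂(ℤ) : Γ₀(N)]`
over `ℚ̄(j)`. -/
theorem exists_poly_jF (N : ℕ) [NeZero N] (f : FN N) :
    ∃ P : Polynomial Kb⟮jF N⟯, P ≠ 0 ∧ P.natDegree ≤ (Gamma0 N).index ∧
      Polynomial.aeval f P = 0 := by
  classical
  have : Fintype (SL(2, ℤ) ⧸ Gamma0 N) := Fintype.ofFinite _
  obtain ⟨u, hu, w, hw, hw0, hf⟩ := exists_div_A0 N f.1 f.2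
  set u' : A0 N := ⟨u, hu⟩ with hu'
  set w' : A0 N := ⟨w, hw⟩ with hw'
  have hw'0 : w' ≠ 0 := fun h => hw0 (congrArg Subtype.val h)
  set c := cuspChart N with hc
  set θ := theta N c 1 with hθ
  set ψ := c.onB with hψ
  have hψinj : Function.Injective ψ := degree_onB_injective c
  set n := Fintype.card (SL(2, ℤ) ⧸ Gamma0 N) with hn
  have hnidx : n = (Gamma0 N).index := by
    rw [hn, Subgroup.index_eq_card, Nat.card_eq_fintype_card]
  choose Pc hPc using degreeH_coeff N u' w'
  set φ : Kb⟮jF N⟯ →+* LaurentSeries ℂ := θ.comp (algebraMap Kb⟮jF N⟯ (FN N)) with hφ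
  set p : ℕ → Kb⟮jF N⟯ := fun i => Polynomial.aeval (AdjoinSimple.gen Kb (jF N)) (Pc i) with hp
  have hφp : ∀ i, φ (p i) = ψ ((degreeH N u' w').coeff i) := by
    intro i
    rw [hPc i, hψ, degree_onB_eval₂, ← degree_theta_aeval N c 1, hφ, hp]
    simp only [RingHom.comp_apply]
    congr 1
    rw [← Polynomial.aeval_algebraMap_apply, AdjoinSimple.algebraMap_gen]
  set P : Polynomial Kb⟮jF N⟯ := ∑ i ∈ Finset.range (n + 1), Polynomial.monomial i (p i) with hP
  have hPcoeff : ∀ i, P.coeff i = if i < n + 1 then p i else 0 := by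
    intro i
    rw [hP, Polynomial.finsetSum_coeff]
    simp only [Polynomial.coeff_monomial]
    rw [Finset.sum_ite_eq' (Finset.range (n + 1)) i]
    simp only [Finset.mem_range]
  have hmap : P.map φ = (degreeH N u' w').map ψ := by
    ext1 i
    rw [Polynomial.coeff_map, Polynomial.coeff_map, hPcoeff]
    split_ifs with hi
    · exact hφp i
    · rw [map_zero, Polynomial.coeff_eq_zero_of_natDegree_lt, map_zero]
      exact lt_of_le_of_lt (degreeH_natDegree_le N u' w') (by omega)
  have hprod : (degreeH N u' w').map ψ = ∏ q : SL(2, ℤ) ⧸ Gamma0 N,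
      (Polynomial.C (ψ (actB N q.out (PhiB N w'))) * Polynomial.X -
        Polynomial.C (ψ (actB N q.out (PhiB N u')))) := by
    rw [degreeH, Polynomial.map_prod]
    simp only [Polynomial.map_sub, Polynomial.map_mul, Polynomial.map_C, Polynomial.map_X]
  have hWne : ∀ g : SL(2, ℤ), ψ (actB N g (PhiB N w')) ≠ 0 := by
    intro g h
    rw [map_eq_zero_iff _ hψinj, map_eq_zero_iff _ (degree_actB_injective N g),
      map_eq_zero_iff _ (PhiB_injective N)] at h
    exact hw'0 h
  refine ⟨P, ?_, ?_, ?_⟩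
  · intro h0
    have h1 : (degreeH N u' w').map ψ = 0 := by rw [← hmap, h0, Polynomial.map_zero]
    rw [hprod] at h1
    obtain ⟨q, -, hq⟩ := (Finset.prod_eq_zero_iff (M₀ := Polynomial (LaurentSeries ℂ))
      (s := Finset.univ) (f := fun q : SL(2, ℤ) ⧸ Gamma0 N =>
      (Polynomial.C (ψ (actB N q.out (PhiB N w'))) * Polynomial.X -
        Polynomial.C (ψ (actB N q.out (PhiB N u')))))).mp h1
    have h2 := congrArg (fun r => Polynomial.coeff r 1) hq
    simp only [Polynomial.coeff_sub, Polynomial.coeff_C_mul, Polynomial.coeff_X_one, mul_one,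
      Polynomial.coeff_C_succ, sub_zero, Polynomial.coeff_zero] at h2
    exact hWne _ h2
  · rw [← hnidx, hP]
    refine Polynomial.natDegree_sum_le_of_forall_le _ _ fun i hi => ?_
    exact (Polynomial.natDegree_monomial_le _).trans (by
      have := Finset.mem_range.mp hi; omega)
  · apply θ.injective
    rw [map_zero, Polynomial.aeval_def, Polynomial.hom_eval₂, ← hφ, ← Polynomial.eval_map, hmap,
      hprod, Polynomial.eval_prod]
    apply Finset.prod_eq_zero (Finset.mem_univ ((1 : SL(2, ℤ)) : SL(2, ℤ) ⧸ Gamma0 N))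
    have hout := degree_out_one_mem N
    rw [act_PhiB N _ hout, act_PhiB N _ hout]
    have hfθ : θ f = ψ (PhiB N u') / ψ (PhiB N w') := by
      have h1 : f = (⟨u, A0_le N u hu⟩ : FN N) / ⟨w, A0_le N w hw⟩ := Subtype.ext hf
      rw [h1, map_div₀, hθ]
      have h2 := theta_A0 N c 1 u'
      have h3 := theta_A0 N c 1 w'
      rw [degree_actB_one] at h2 h3
      rw [← h2, ← h3]
    have hW : ψ (PhiB N w') ≠ 0 := by
      have := hWne 1
      rwa [degree_actB_one] at this
    simp only [Polynomial.eval_sub, Polynomial.eval_mul, Polynomial.eval_C, Polynomial.eval_X]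
    rw [hfθ]
    field_simp
    ring

theorem degree_isAlgebraic (N : ℕ) [NeZero N] : Algebra.IsAlgebraic Kb⟮jF N⟯ (FN N) :=
  ⟨fun f => by
    obtain ⟨P, hP0, -, hP⟩ := exists_poly_jF N f
    exact ⟨P, hP0, hP⟩⟩

theorem finiteDimensional_jF (N : ℕ) [NeZero N] : FiniteDimensional Kb⟮jF N⟯ (FN N) := by
  classical
  have halg := degree_isAlgebraic N
  have h2 : Algebra.EssFiniteType Kb (FN N) := by
    rw [IntermediateField.essFiniteType_iff]
    refine ⟨(N.divisors).image Jser, ?_⟩
    rw [modularFunctionFieldBar_eq]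
    congr 1
    ext y
    simp only [Finset.coe_image, Set.mem_image, Finset.mem_coe, Nat.mem_divisors, fGens,
      Set.mem_ofPred_eq]
    constructor
    · rintro ⟨d, ⟨hd, -⟩, rfl⟩
      exact ⟨d, hd, rfl⟩
    · rintro ⟨d, hd, rfl⟩
      exact ⟨d, ⟨hd, NeZero.ne N⟩, rfl⟩
  have h3 : Algebra.EssFiniteType Kb⟮jF N⟯ (FN N) :=
    Algebra.EssFiniteType.of_comp Kb Kb⟮jF N⟯ (FN N)
  exact Algebra.finite_of_essFiniteType_of_isAlgebraic

theorem degree_finrank_le_aux {K' F : Type*} [Field K'] [Field F] [Algebra K' F] [CharZero K']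
    [FiniteDimensional K' F] (n : ℕ)
    (h : ∀ f : F, ∃ P : Polynomial K', P ≠ 0 ∧ P.natDegree ≤ n ∧ Polynomial.aeval f P = 0) :
    Module.finrank K' F ≤ n := by
  obtain ⟨α, hα⟩ := Field.exists_primitive_element K' F
  obtain ⟨P, hP0, hPdeg, hP⟩ := h α
  have hint : IsIntegral K' α := Algebra.IsIntegral.isIntegral α
  have h1 : Module.finrank K' F = (minpoly K' α).natDegree := by
    rw [← IntermediateField.adjoin.finrank hint, hα, IntermediateField.finrank_top']
  rw [h1]
  exact (Polynomial.natDegree_le_of_dvd (minpoly.dvd _ _ hP) hP0).trans hPdeg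

theorem degree_le_finrank_aux {K' F L Q : Type*} [Field K'] [Field F] [Algebra K' F] [Field L]
    [FiniteDimensional K' F] [Finite Q] (θ : Q → F →+* L) (hinj : Function.Injective θ)
    (hagree : ∀ q q' (x : K'), θ q (algebraMap K' F x) = θ q' (algebraMap K' F x)) :
    Nat.card Q ≤ Module.finrank K' F := by
  classical
  rcases isEmpty_or_nonempty Q with hQ | ⟨⟨q₀⟩⟩
  · simp
  letI : Algebra K' L := ((θ q₀).comp (algebraMap K' F)).toAlgebra
  let e : Q → (F →ₐ[K'] L) := fun q =>
    { θ q with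
      commutes' := fun x => hagree q q₀ x }
  have he : Function.Injective e := by
    intro q q' h
    apply hinj
    ext1 f
    exact DFunLike.congr_fun h f
  have h1 := Cardinal.lift_mk_le_lift_mk_of_injective he
  have h2 := cardinalMk_algHom K' F L
  rw [Module.finrank_linearMap_self] at h2
  have h4 : Cardinal.mk Q = (Nat.card Q : Cardinal) := by
    rw [Nat.cast_card]
  rw [h4] at h1
  have h5 := h1.trans (Cardinal.lift_le.mpr h2)
  simpa using h5

theorem degree_finrank_le (N : ℕ) [NeZero N] :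
    Module.finrank Kb⟮jF N⟯ (FN N) ≤ (Gamma0 N).index := by
  have := finiteDimensional_jF N
  have : CharZero Kb⟮jF N⟯ := charZero_of_injective_algebraMap (algebraMap Kb Kb⟮jF N⟯).injective
  exact degree_finrank_le_aux _ (exists_poly_jF N)

theorem degree_theta_eq_on_adjoin (N : ℕ) [NeZero N] (c : Chart N) (g g' : SL(2, ℤ))
    (x : Kb⟮jF N⟯) : theta N c g (x : FN N) = theta N c g' (x : FN N) := by
  have hx : (x : FN N) ∈ Subfield.closure (Set.range (algebraMap Kb (FN N)) ∪ {jF N}) := x.2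
  have hle : Subfield.closure (Set.range (algebraMap Kb (FN N)) ∪ {jF N}) ≤
      (theta N c g).eqLocusField (theta N c g') := by
    rw [Subfield.closure_le]
    rintro y (⟨a, rfl⟩ | hy)
    · show theta N c g _ = theta N c g' _
      rw [theta_const, theta_const]
    · rw [Set.mem_singleton_iff] at hy
      subst hy
      show theta N c g _ = theta N c g' _
      rw [theta_jF, theta_jF]
  exact hle hx

theorem degree_le_finrank (N : ℕ) [NeZero N] :
    (Gamma0 N).index ≤ Module.finrank Kb⟮jF N⟯ (FN N) := by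
  have := finiteDimensional_jF N
  rw [Subgroup.index_eq_card]
  exact degree_le_finrank_aux (thetaQ N (cuspChart N)) (thetaQ_injective N (cuspChart N))
    (fun q q' x => degree_theta_eq_on_adjoin N (cuspChart N) q.out q'.out x)

theorem finrank_jF (N : ℕ) [NeZero N] :
    Module.finrank Kb⟮jF N⟯ (FN N) = ModularCurve.dedekindPsi N := by
  rw [← Fermat.Agent.ES.index_Gamma0 N]
  exact le_antisymm (degree_finrank_le N) (degree_le_finrank N)

theorem isFF1_FN (N : ℕ) [NeZero N] : IsFF1 Kb (FN N) :=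
  ⟨jF N, transcendental_jF N, finiteDimensional_jF N⟩

end Fermat.Agent.S24
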