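import Fermat.Agent.S24.Expand
import Fermat.Prelude.Thm_ModularCurve_coeffMap_qExpand

set_option autoImplicit false
set_option linter.style.haveILetI false

/-! # S24 task B-Phi : the function field as a field of functions -/

open UpperHalfPlane ModularForm EisensteinSeries CongruenceSubgroup
open scoped MatrixGroups Manifold

namespace Fermat.Agent.S24

/-! ### auxiliary lemmas -/

theorem phi_Jser_of_ne {d : ℕ} [NeZero d] : Jser d = ModularCurve.jqNModC Kb d := by
  unfold Jser
  rw [dif_neg (NeZero.ne d)]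

theorem phi_coeffMap_jqModC {K K' : Type*} [CommRing K] [CommRing K'] (f : K →+* K') :
    ModularCurve.coeffMap f (ModularCurve.jqModC K) = ModularCurve.jqModC K' :=
  ModularCurve.map_jqModC f

theorem phi_coeffEmb_qExpand_jq (d : ℕ) [NeZero d] :
    ModularCurve.coeffEmb Kb (ModularCurve.qExpand ℚ d ModularCurve.jq) = Jser d := by
  rw [phi_Jser_of_ne, ModularCurve.jqNModC, ModularCurve.coeffEmb, ModularCurve.coeffMap_qExpand,
    ← ModularCurve.jqModC_rat, phi_coeffMap_jqModC]

theorem phi_coeffEmb_algebraMap (r : ℚ) :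
    ModularCurve.coeffEmb Kb (algebraMap ℚ (LaurentSeries ℚ) r) =
      algebraMap Kb (LaurentSeries Kb) (algebraMap ℚ Kb r) := by
  rw [ModularCurve.algebraMap_laurentSeries_eq_single, ModularCurve.algebraMap_laurentSeries_eq_single,
    ModularCurve.coeffEmb, ModularCurve.coeffMap_single]

theorem modularFunctionFieldBar_eq (N : ℕ) [NeZero N] :
    ModularCurve.modularFunctionFieldBar N = IntermediateField.adjoin Kb (fGens N) := by
  apply le_antisymm
  · show ModularCurve.laurentBaseChange Kb (ModularCurve.modularFunctionFieldFull N) ≤ _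
    unfold ModularCurve.laurentBaseChange
    rw [IntermediateField.adjoin_le_iff]
    rintro _ ⟨x, hx, rfl⟩
    have hx' : x ∈ IntermediateField.adjoin ℚ (ModularCurve.divisorExpansions N) := hx
    show ModularCurve.coeffEmb Kb x ∈ IntermediateField.adjoin Kb (fGens N)
    induction hx' using IntermediateField.adjoin_induction with
    | mem y hy =>
      obtain ⟨d, hd0, hd, rfl⟩ := hy
      rw [phi_coeffEmb_qExpand_jq]
      exact IntermediateField.subset_adjoin _ _ ⟨d, hd, rfl⟩
    | algebraMap r =>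
      rw [phi_coeffEmb_algebraMap]
      exact IntermediateField.algebraMap_mem _ _
    | add y z _ _ hy hz => rw [map_add]; exact add_mem (hy (by assumption)) (hz (by assumption))
    | inv y _ hy => rw [map_inv₀]; exact inv_mem (hy (by assumption))
    | mul y z _ _ hy hz => rw [map_mul]; exact mul_mem (hy (by assumption)) (hz (by assumption))
  · rw [IntermediateField.adjoin_le_iff]
    rintro _ ⟨d, hd, rfl⟩
    haveI : NeZero d := ⟨fun h => NeZero.ne N (by subst h; simpa using hd)⟩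
    rw [← phi_coeffEmb_qExpand_jq]
    exact ModularCurve.coeffEmb_mem_laurentBaseChange Kb (ModularCurve.jqd_mem_full N hd)

theorem A0_le (N : ℕ) [NeZero N] (a : LaurentSeries Kb) (ha : a ∈ A0 N) :
    a ∈ ModularCurve.modularFunctionFieldBar N := by
  rw [modularFunctionFieldBar_eq]
  exact IntermediateField.algebra_adjoin_le_adjoin Kb (fGens N) ha

/-- every element of the function field is a quotient of elements of `A0`. -/
theorem exists_div_A0 (N : ℕ) [NeZero N] (f : LaurentSeries Kb)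
    (hf : f ∈ ModularCurve.modularFunctionFieldBar N) :
    ∃ u ∈ A0 N, ∃ w ∈ A0 N, w ≠ 0 ∧ f = u / w := by
  rw [modularFunctionFieldBar_eq, IntermediateField.mem_adjoin_iff_div] at hf
  obtain ⟨r, hr, s, hs, rfl⟩ := hf
  by_cases h0 : s = 0
  · exact ⟨0, zero_mem _, 1, one_mem _, one_ne_zero, by simp [h0]⟩
  · exact ⟨r, hr, s, hs, h0, rfl⟩

/-- two ring homs out of `A0` agreeing on constants and on the `Jser d` are equal. -/
theorem phi_ringHom_ext {R : Type*} [Semiring R] (N : ℕ) (f g : A0 N →+* R)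
    (hc : ∀ a : Kb, f (algebraMap Kb (A0 N) a) = g (algebraMap Kb (A0 N) a))
    (hJ : ∀ (d : ℕ) (hd : d ∣ N), f ⟨Jser d, Jser_mem_A0 hd⟩ = g ⟨Jser d, Jser_mem_A0 hd⟩) :
    f = g := by
  ext ⟨a, ha⟩
  have ha' : a ∈ Algebra.adjoin Kb (fGens N) := ha
  induction ha' using Algebra.adjoin_induction with
  | mem x hx =>
    obtain ⟨d, hd, rfl⟩ := hx
    exact hJ d hd
  | algebraMap r => exact hc r
  | add x y hx hy ihx ihy =>
    have hx' : x ∈ A0 N := hx
    have hy' : y ∈ A0 N := hy
    have h1 : (⟨x + y, ha⟩ : A0 N) = ⟨x, hx'⟩ + ⟨y, hy'⟩ := rfl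
    rw [h1, map_add, map_add, ihx hx', ihy hy']
  | mul x y hx hy ihx ihy =>
    have hx' : x ∈ A0 N := hx
    have hy' : y ∈ A0 N := hy
    have h1 : (⟨x * y, ha⟩ : A0 N) = ⟨x, hx'⟩ * ⟨y, hy'⟩ := rfl
    rw [h1, map_mul, map_mul, ihx hx', ihy hy']

/-- the algebraic expansion map. -/
noncomputable def phiKappa (N : ℕ) [NeZero N] : A0 N →+* LaurentSeries ℂ :=
  (ModularCurve.qExpand ℂ N).comp ((ModularCurve.coeffMap iotaK).comp (A0 N).val.toRingHom)

theorem phiKappa_apply (N : ℕ) [NeZero N] (a : A0 N) :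
    phiKappa N a = ModularCurve.qExpand ℂ N (ModularCurve.coeffMap iotaK (a : LaurentSeries Kb)) :=
  rfl

/-- the analytic expansion map. -/
noncomputable def phiTau (N : ℕ) [NeZero N] : Btil N →+* LaurentSeries ℂ :=
  (TInf N).comp (Subring.inclusion (Btil_le_perSub N))

theorem phiTau_apply (N : ℕ) [NeZero N] (b : Btil N) :
    phiTau N b = TInf N ⟨(b : ℍ → ℂ), Btil_le_perSub N b.2⟩ := rfl

theorem phiTau_injective (N : ℕ) [NeZero N] : Function.Injective (phiTau N) :=
  (TInf_injective N).comp (Subring.inclusion_injective _)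

theorem phi_coeffMap_injective {R S : Type*} [CommRing R] [CommRing S] (f : R →+* S)
    (hf : Function.Injective f) : Function.Injective (ModularCurve.coeffMap f) := by
  intro x y h
  ext k
  apply hf
  rw [← ModularCurve.coeffMap_coeff, ← ModularCurve.coeffMap_coeff, h]

theorem phiKappa_injective (N : ℕ) [NeZero N] : Function.Injective (phiKappa N) :=
  (ModularCurve.qExpand_injective N).comp
    ((phi_coeffMap_injective iotaK iotaK.injective).comp Subtype.val_injective)

theorem phiKappa_const (N : ℕ) [NeZero N] (a : Kb) :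
    phiKappa N (algebraMap Kb (A0 N) a) = phiTau N ⟨constK a, constK_mem_Btil N a⟩ := by
  rw [phiKappa_apply, phiTau_apply]
  have h1 : ((algebraMap Kb (A0 N) a : A0 N) : LaurentSeries Kb) =
      algebraMap Kb (LaurentSeries Kb) a := rfl
  rw [h1, ModularCurve.algebraMap_laurentSeries_eq_single, ModularCurve.coeffMap_single,
    ModularCurve.qExpand_single, mul_zero]
  exact (TInf_const N (iotaK a) _).symm

theorem phiKappa_Jser (N : ℕ) [NeZero N] (d : ℕ) (hd : d ∣ N) :
    phiKappa N ⟨Jser d, Jser_mem_A0 hd⟩ = phiTau N ⟨jd d, jd_mem_Btil hd⟩ := by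
  haveI : NeZero d := ⟨fun h => NeZero.ne N (by subst h; simpa using hd)⟩
  haveI : NeZero (d * N) := ⟨mul_ne_zero (NeZero.ne d) (NeZero.ne N)⟩
  rw [phiKappa_apply, phiTau_apply]
  show ModularCurve.qExpand ℂ N (ModularCurve.coeffMap iotaK (Jser d)) =
    TInf N ⟨jd d, Btil_le_perSub N (jd_mem_Btil hd)⟩
  rw [TInf_jd N hd, phi_Jser_of_ne, ModularCurve.jqNModC, ModularCurve.coeffMap_qExpand,
    phi_coeffMap_jqModC, ModularCurve.qExpand_qExpand]
  exact ModularCurve.qExpand_congr (mul_comm N d) _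

theorem phiKappa_mem_range (N : ℕ) [NeZero N] (a : A0 N) : phiKappa N a ∈ (phiTau N).range := by
  obtain ⟨a, ha⟩ := a
  have ha' : a ∈ Algebra.adjoin Kb (fGens N) := ha
  induction ha' using Algebra.adjoin_induction with
  | mem x hx =>
    obtain ⟨d, hd, rfl⟩ := hx
    exact ⟨_, (phiKappa_Jser N d hd).symm⟩
  | algebraMap r => exact ⟨_, (phiKappa_const N r).symm⟩
  | add x y hx hy ihx ihy =>
    have hx' : x ∈ A0 N := hx
    have hy' : y ∈ A0 N := hy
    have h1 : (⟨x + y, ha⟩ : A0 N) = ⟨x, hx'⟩ + ⟨y, hy'⟩ := rfl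
    rw [h1, map_add]
    exact add_mem (ihx hx') (ihy hy')
  | mul x y hx hy ihx ihy =>
    have hx' : x ∈ A0 N := hx
    have hy' : y ∈ A0 N := hy
    have h1 : (⟨x * y, ha⟩ : A0 N) = ⟨x, hx'⟩ * ⟨y, hy'⟩ := rfl
    rw [h1, map_mul]
    exact mul_mem (ihx hx') (ihy hy')

/-- factoring a ring hom through an injective one. -/
theorem phi_exists_factor {A B M : Type*} [Ring A] [Ring B] [Ring M] (τ : B →+* M) (κ : A →+* M)
    (hτ : Function.Injective τ) (h : ∀ a, κ a ∈ τ.range) : ∃ Φ : A →+* B, ∀ a, τ (Φ a) = κ a := by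
  choose φ hφ using h
  refine ⟨{ toFun := φ, map_one' := ?_, map_mul' := ?_, map_zero' := ?_, map_add' := ?_ }, hφ⟩
  · apply hτ; rw [hφ, map_one, map_one]
  · intro x y; apply hτ; rw [hφ, map_mul, map_mul, hφ, hφ]
  · apply hτ; rw [hφ, map_zero, map_zero]
  · intro x y; apply hτ; rw [hφ, map_add, map_add, hφ, hφ]

theorem exists_PhiB (N : ℕ) [NeZero N] : ∃ Φ : A0 N →+* Btil N, Function.Injective Φ ∧
    (∀ a : Kb, ((Φ (algebraMap Kb (A0 N) a) : Btil N) : ℍ → ℂ) = constK a) ∧
    ∀ (d : ℕ) (hd : d ∣ N), ((Φ ⟨Jser d, Jser_mem_A0 hd⟩ : Btil N) : ℍ → ℂ) = jd d := by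
  obtain ⟨Φ, hΦ⟩ := phi_exists_factor (phiTau N) (phiKappa N) (phiTau_injective N)
    (phiKappa_mem_range N)
  refine ⟨Φ, ?_, ?_, ?_⟩
  · intro x y hxy
    apply phiKappa_injective N
    rw [← hΦ, ← hΦ, hxy]
  · intro a
    have h1 : Φ (algebraMap Kb (A0 N) a) = ⟨constK a, constK_mem_Btil N a⟩ := by
      apply phiTau_injective N
      rw [hΦ, phiKappa_const]
    rw [h1]
  · intro d hd
    have h1 : Φ ⟨Jser d, Jser_mem_A0 hd⟩ = ⟨jd d, jd_mem_Btil hd⟩ := by
      apply phiTau_injective N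
      rw [hΦ, phiKappa_Jser N d hd]
    rw [h1]

/-- `j(q^d) ↦ j(d z)`. -/
noncomputable def PhiB (N : ℕ) [NeZero N] : A0 N →+* Btil N := (exists_PhiB N).choose

theorem PhiB_injective (N : ℕ) [NeZero N] : Function.Injective (PhiB N) :=
  (exists_PhiB N).choose_spec.1

theorem PhiB_const (N : ℕ) [NeZero N] (a : Kb) :
    ((PhiB N (algebraMap Kb (A0 N) a) : Btil N) : ℍ → ℂ) = constK a :=
  (exists_PhiB N).choose_spec.2.1 a

theorem PhiB_Jser (N : ℕ) [NeZero N] {d : ℕ} (hd : d ∣ N) :
    ((PhiB N ⟨Jser d, Jser_mem_A0 hd⟩ : Btil N) : ℍ → ℂ) = jd d :=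
  (exists_PhiB N).choose_spec.2.2 d hd

/-- elements of the image of `PhiB` are `Γ₀(N)`-invariant. -/
theorem act_PhiB (N : ℕ) [NeZero N] (g : SL(2, ℤ)) (hg : g ∈ Gamma0 N) (a : A0 N) :
    actB N g (PhiB N a) = PhiB N a := by
  have h : (actB N g).comp (PhiB N) = PhiB N := by
    apply phi_ringHom_ext
    · intro a
      apply Subtype.ext
      rw [RingHom.comp_apply, coe_actB, PhiB_const, act_constK]
    · intro d hd
      apply Subtype.ext
      rw [RingHom.comp_apply, coe_actB, PhiB_Jser N hd, act_jd_of_mem_Gamma0 hd g hg]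
  exact congrArg (fun F : A0 N →+* Btil N => F a) h

/-- compatibility of `PhiB` with the expansions at `∞`. -/
theorem TInf_PhiB (N : ℕ) [NeZero N] (a : A0 N) :
    TInf N ⟨(PhiB N a : ℍ → ℂ), Btil_le_perSub N (PhiB N a).2⟩ =
      ModularCurve.qExpand ℂ N (ModularCurve.coeffMap iotaK (a : LaurentSeries Kb)) := by
  have h : (phiTau N).comp (PhiB N) = phiKappa N := by
    apply phi_ringHom_ext
    · intro a
      rw [RingHom.comp_apply, phiKappa_const]
      congr 1
      exact Subtype.ext (PhiB_const N a)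
    · intro d hd
      rw [RingHom.comp_apply, phiKappa_Jser N d hd]
      congr 1
      exact Subtype.ext (PhiB_Jser N hd)
  exact congrArg (fun F : A0 N →+* LaurentSeries ℂ => F a) h

end Fermat.Agent.S24
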