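import Fermat.Agent.S24.Phi

set_option autoImplicit false

/-! # S24 task B-Theta : the embeddings `F → ℂ((s))` attached to a chart and a coset -/

open UpperHalfPlane ModularForm EisensteinSeries CongruenceSubgroup
open scoped MatrixGroups Manifold

namespace Fermat.Agent.S24

/-- a "chart": an injective ring homomorphism to Laurent series from a ring of functions
containing `Btil N`. -/
structure Chart (N : ℕ) where
  R : Subring (ℍ → ℂ)
  T : R →+* LaurentSeries ℂ
  inj : Function.Injective T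
  le : Btil N ≤ R
  const : ∀ a : Kb, T ⟨constK a, le (constK_mem_Btil N a)⟩ = HahnSeries.C (iotaK a)

/-- restriction of the chart to `Btil`. -/
noncomputable def Chart.onB {N : ℕ} (c : Chart N) : Btil N →+* LaurentSeries ℂ :=
  c.T.comp (Subring.inclusion c.le)

theorem theta_onB_injective {N : ℕ} (c : Chart N) : Function.Injective c.onB := by
  intro x y h
  have := c.inj h
  exact Subring.inclusion_injective c.le this

theorem theta_act_injective (g : SL(2, ℤ)) : Function.Injective (act g) := by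
  intro f f' h
  have := congrArg (act g⁻¹) h
  rwa [← act_mul, ← act_mul, inv_mul_cancel, act_one, act_one] at this

theorem theta_actB_injective (N : ℕ) (g : SL(2, ℤ)) : Function.Injective (actB N g) := by
  intro x y h
  apply Subtype.ext
  apply theta_act_injective g
  have := congrArg (Subtype.val) h
  simpa using this

theorem theta_actB_mul (N : ℕ) (g h : SL(2, ℤ)) (b : Btil N) :
    actB N (g * h) b = actB N g (actB N h b) := by
  apply Subtype.ext
  simp [act_mul]

/-- the inclusion of `A0 N` in the function field. -/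
noncomputable def thetaIncl (N : ℕ) [NeZero N] : A0 N →+* FN N where
  toFun a := ⟨(a : LaurentSeries Kb), A0_le N a a.2⟩
  map_one' := rfl
  map_mul' _ _ := rfl
  map_zero' := rfl
  map_add' _ _ := rfl

theorem thetaIncl_injective (N : ℕ) [NeZero N] : Function.Injective (thetaIncl N) := by
  intro x y h
  apply Subtype.ext
  exact congrArg (fun t : FN N => (t : LaurentSeries Kb)) h

theorem thetaIncl_exists_div (N : ℕ) [NeZero N] (f : FN N) :
    ∃ u w : A0 N, w ≠ 0 ∧ f = thetaIncl N u / thetaIncl N w := by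
  obtain ⟨u, hu, w, hw, hw0, hf⟩ := exists_div_A0 N f f.2
  refine ⟨⟨u, hu⟩, ⟨w, hw⟩, ?_, ?_⟩
  · intro h
    exact hw0 (congrArg Subtype.val h)
  · apply Subtype.ext
    exact hf

theorem exists_theta (N : ℕ) [NeZero N] (c : Chart N) (g : SL(2, ℤ)) :
    ∃ θ : FN N →+* LaurentSeries ℂ, ∀ a : A0 N,
      θ ⟨(a : LaurentSeries Kb), A0_le N a a.2⟩ = c.onB (actB N g (PhiB N a)) := by
  let _ : Algebra (A0 N) (FN N) := (thetaIncl N).toAlgebra
  have : FaithfulSMul (A0 N) (FN N) :=
    (faithfulSMul_iff_algebraMap_injective (A0 N) (FN N)).mpr (thetaIncl_injective N)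
  have : IsFractionRing (A0 N) (FN N) := IsFractionRing.of_field _ _ (fun f => by
    obtain ⟨u, w, -, hf⟩ := thetaIncl_exists_div N f
    exact ⟨u, w, hf⟩)
  have hinj : Function.Injective ((c.onB.comp (actB N g)).comp (PhiB N)) :=
    ((theta_onB_injective c).comp (theta_actB_injective N g)).comp (PhiB_injective N)
  exact ⟨IsFractionRing.lift hinj, fun a => IsFractionRing.lift_algebraMap hinj a⟩

/-- `f ↦` expansion of `f ∘ g⁻¹` in the chart `c`. -/
noncomputable def theta (N : ℕ) [NeZero N] (c : Chart N) (g : SL(2, ℤ)) :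
    FN N →+* LaurentSeries ℂ := (exists_theta N c g).choose

theorem theta_A0 (N : ℕ) [NeZero N] (c : Chart N) (g : SL(2, ℤ)) (a : A0 N) :
    theta N c g ⟨(a : LaurentSeries Kb), A0_le N a a.2⟩ = c.onB (actB N g (PhiB N a)) :=
  (exists_theta N c g).choose_spec a

/-- the element `j` of the function field. -/
noncomputable def jF (N : ℕ) [NeZero N] : FN N :=
  ⟨Jser 1, A0_le N _ (Jser_mem_A0 (one_dvd N))⟩

theorem theta_const (N : ℕ) [NeZero N] (c : Chart N) (g : SL(2, ℤ)) (a : Kb) :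
    theta N c g (algebraMap Kb (FN N) a) = HahnSeries.C (iotaK a) := by
  have h1 : algebraMap Kb (FN N) a = ⟨((algebraMap Kb (A0 N) a : A0 N) : LaurentSeries Kb),
      A0_le N _ (algebraMap Kb (A0 N) a).2⟩ := rfl
  rw [h1, theta_A0]
  have h2 : actB N g (PhiB N (algebraMap Kb (A0 N) a)) = ⟨constK a, constK_mem_Btil N a⟩ := by
    apply Subtype.ext
    rw [coe_actB, PhiB_const, act_constK]
  rw [h2]
  exact c.const a

theorem jFun_mem_Btil (N : ℕ) : jFun ∈ Btil N := by
  rw [← jd_one]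
  exact jd_mem_Btil (one_dvd N)

theorem theta_jF (N : ℕ) [NeZero N] (c : Chart N) (g : SL(2, ℤ)) :
    theta N c g (jF N) = c.onB ⟨jFun, jFun_mem_Btil N⟩ := by
  have h1 := theta_A0 N c g ⟨Jser 1, Jser_mem_A0 (one_dvd N)⟩
  have h2 : actB N g (PhiB N ⟨Jser 1, Jser_mem_A0 (one_dvd N)⟩) = ⟨jFun, jFun_mem_Btil N⟩ := by
    apply Subtype.ext
    rw [coe_actB, PhiB_Jser N (one_dvd N), jd_one, act_jFun]
  rw [h2] at h1
  exact h1

theorem theta_ext (N : ℕ) [NeZero N] (θ θ' : FN N →+* LaurentSeries ℂ)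
    (h : ∀ a : A0 N, θ (thetaIncl N a) = θ' (thetaIncl N a)) : θ = θ' := by
  ext1 f
  obtain ⟨u, w, -, hf⟩ := thetaIncl_exists_div N f
  rw [hf, map_div₀, map_div₀, h, h]

theorem theta_incl (N : ℕ) [NeZero N] (c : Chart N) (g : SL(2, ℤ)) (a : A0 N) :
    theta N c g (thetaIncl N a) = c.onB (actB N g (PhiB N a)) := theta_A0 N c g a

theorem theta_mul_of_mem_Gamma0 (N : ℕ) [NeZero N] (c : Chart N) (g γ : SL(2, ℤ))
    (hγ : γ ∈ Gamma0 N) : theta N c (g * γ) = theta N c g := by
  apply theta_ext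
  intro a
  rw [theta_incl, theta_incl, theta_actB_mul, act_PhiB N γ hγ]

theorem inv_mul_mem_Gamma0_of_theta_eq (N : ℕ) [NeZero N] (c : Chart N) (g g' : SL(2, ℤ))
    (h : theta N c g = theta N c g') : g⁻¹ * g' ∈ Gamma0 N := by
  apply mem_Gamma0_of_act_jd_eq
  have h1 := congrArg (fun θ => θ (thetaIncl N ⟨Jser N, Jser_mem_A0 dvd_rfl⟩)) h
  simp only [theta_incl] at h1
  have h2 := congrArg Subtype.val (theta_onB_injective c h1)
  rw [coe_actB, coe_actB, PhiB_Jser N dvd_rfl] at h2
  rw [act_mul, ← h2, ← act_mul, inv_mul_cancel, act_one]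

/-- the embedding attached to a coset. -/
noncomputable def thetaQ (N : ℕ) [NeZero N] (c : Chart N) (q : SL(2, ℤ) ⧸ Gamma0 N) :
    FN N →+* LaurentSeries ℂ := theta N c q.out

theorem thetaQ_mk (N : ℕ) [NeZero N] (c : Chart N) (g : SL(2, ℤ)) :
    thetaQ N c (g : SL(2, ℤ) ⧸ Gamma0 N) = theta N c g := by
  obtain ⟨γ, hγ⟩ := QuotientGroup.mk_out_eq_mul (Gamma0 N) g
  unfold thetaQ
  rw [hγ]
  exact theta_mul_of_mem_Gamma0 N c g γ γ.2

theorem thetaQ_injective (N : ℕ) [NeZero N] (c : Chart N) :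
    Function.Injective (thetaQ N c) := by
  intro q q' h
  have h1 := inv_mul_mem_Gamma0_of_theta_eq N c _ _ h
  have h2 : ((q.out : SL(2, ℤ)) : SL(2, ℤ) ⧸ Gamma0 N) = (q'.out : SL(2, ℤ)) :=
    QuotientGroup.eq.mpr h1
  rwa [QuotientGroup.out_eq', QuotientGroup.out_eq'] at h2

theorem theta_order_div {x y : LaurentSeries ℂ} (hx : x ≠ 0) (hy : y ≠ 0) :
    (x / y).order = x.order - y.order := by
  have h1 : x / y ≠ 0 := div_ne_zero hx hy
  have h2 := HahnSeries.order_mul h1 hy
  rw [div_mul_cancel₀ _ hy] at h2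
  omega

theorem theta_leadingCoeff_div {x y : LaurentSeries ℂ} (hy : y ≠ 0) :
    (x / y).leadingCoeff = x.leadingCoeff / y.leadingCoeff := by
  have h2 := HahnSeries.leadingCoeff_mul (x / y) y
  rw [div_mul_cancel₀ _ hy] at h2
  rw [h2, mul_div_cancel_right₀]
  exact HahnSeries.leadingCoeff_ne_zero.mpr hy

/-- transfer of the "order / leading coefficient" relation from `Btil` to the function field. -/
theorem thetaQ_smul (N : ℕ) [NeZero N] (c : Chart N) (ε : SL(2, ℤ)) (ζ : ℂ) (hζ : ζ ≠ 0)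
    (h : ∀ b : Btil N, b ≠ 0 → (c.onB (actB N ε b)).order = (c.onB b).order ∧
      (c.onB (actB N ε b)).leadingCoeff = ζ ^ (c.onB b).order * (c.onB b).leadingCoeff)
    (q : SL(2, ℤ) ⧸ Gamma0 N) (f : FN N) (hf : f ≠ 0) :
    (thetaQ N c (ε • q) f).order = (thetaQ N c q f).order ∧
      (thetaQ N c (ε • q) f).leadingCoeff =
        ζ ^ (thetaQ N c q f).order * (thetaQ N c q f).leadingCoeff := by
  obtain ⟨g, rfl⟩ := QuotientGroup.mk_surjective q
  have e1 : ε • (g : SL(2, ℤ) ⧸ Gamma0 N) = ((ε * g : SL(2, ℤ)) : SL(2, ℤ) ⧸ Gamma0 N) := rfl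
  rw [e1, thetaQ_mk, thetaQ_mk]
  obtain ⟨u, w, hw, hfe⟩ := thetaIncl_exists_div N f
  have hu : u ≠ 0 := by
    rintro rfl
    apply hf
    rw [hfe, map_zero, zero_div]
  have key : ∀ a : A0 N, a ≠ 0 → theta N c g (thetaIncl N a) ≠ 0 ∧
      theta N c (ε * g) (thetaIncl N a) ≠ 0 ∧
      (theta N c (ε * g) (thetaIncl N a)).order = (theta N c g (thetaIncl N a)).order ∧
      (theta N c (ε * g) (thetaIncl N a)).leadingCoeff =
        ζ ^ (theta N c g (thetaIncl N a)).order * (theta N c g (thetaIncl N a)).leadingCoeff := by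
    intro a ha
    have hb : actB N g (PhiB N a) ≠ 0 := by
      intro h0
      apply ha
      apply PhiB_injective N
      apply theta_actB_injective N g
      rw [h0, map_zero, map_zero]
    have ha' : thetaIncl N a ≠ 0 := by
      intro h0
      exact ha (thetaIncl_injective N (by rw [h0, map_zero]))
    refine ⟨(_root_.map_ne_zero _).mpr ha', (_root_.map_ne_zero _).mpr ha', ?_⟩
    rw [theta_incl, theta_incl, theta_actB_mul]
    exact h _ hb
  obtain ⟨u1, u2, u3, u4⟩ := key u hu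
  obtain ⟨w1, w2, w3, w4⟩ := key w hw
  rw [hfe, map_div₀, map_div₀, theta_order_div u2 w2, theta_order_div u1 w1,
    theta_leadingCoeff_div w2, theta_leadingCoeff_div w1, u3, w3, u4, w4, zpow_sub₀ hζ]
  refine ⟨rfl, ?_⟩
  have hz : ζ ^ (theta N c g (thetaIncl N w)).order ≠ 0 := zpow_ne_zero _ hζ
  have hl : (theta N c g (thetaIncl N w)).leadingCoeff ≠ 0 :=
    HahnSeries.leadingCoeff_ne_zero.mpr w1
  field_simp

end Fermat.Agent.S24
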