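import Fermat.Agent.S24.SumOrd

set_option autoImplicit false

/-!
# S24: separating a place from finitely many others (prime avoidance)
-/

namespace Fermat.Agent.S24

open AlgebraicCurve IsDedekindDomain WithZero IntermediateField
open scoped IntermediateField.algebraAdjoinAdjoin

variable {K F : Type*} [Field K] [Field F] [Algebra K F]

theorem exists_ord_pos_of_not_mem [IsAlgClosed K] [CharZero K] (h : IsFF1 K F) {y : F}
    (hy : Transcendental K y) (v : Place K F) (hv : 0 ≤ v.ord y) (W : Finset (Place K F))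
    (hW : ∀ w ∈ W, 0 ≤ w.ord y) (hvW : v ∉ W) :
    ∃ f : F, f ≠ 0 ∧ 0 < v.ord f ∧ ∀ w ∈ W, w.ord f = 0 := by
  classical
  have := SumOrd.isPrincipalIdealRing_adjoin hy
  have := h.finiteDimensional hy
  have : IsDedekindDomain (integralClosure (Algebra.adjoin K {y}) F) :=
    integralClosure.isDedekindDomain (Algebra.adjoin K {y}) K⟮y⟯ F
  have : IsFractionRing (integralClosure (Algebra.adjoin K {y}) F) F :=
    integralClosure.isFractionRing_of_finite_extension K⟮y⟯ F
  have : IsScalarTower K (integralClosure (Algebra.adjoin K {y}) F) F :=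
    IsScalarTower.of_algebraMap_eq (fun _ => rfl)
  rcases W.eq_empty_or_nonempty with rfl | hne
  · obtain ⟨t, ht, ht0, -⟩ := exists_ord_eq_one v
    exact ⟨t, ht0, by omega, by simp⟩
  obtain ⟨Pv, hPv⟩ := exists_ofHeightOneSpectrum_eq
      (R := integralClosure (Algebra.adjoin K {y}) F) v (SumOrd.mem_of_mem_integralClosure v hv)
  have hch : ∀ w : Place K F, ∃ Pw : HeightOneSpectrum (integralClosure (Algebra.adjoin K {y}) F),
      w ∈ W → Place.ofHeightOneSpectrum (K := K) Pw = w := by
    intro w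
    by_cases hw : w ∈ W
    · obtain ⟨Pw, hPw⟩ := exists_ofHeightOneSpectrum_eq
        (R := integralClosure (Algebra.adjoin K {y}) F) w
        (SumOrd.mem_of_mem_integralClosure w (hW w hw))
      exact ⟨Pw, fun _ => hPw⟩
    · exact ⟨Pv, fun h => absurd h hw⟩
  choose PW hPW using hch
  have hnot : ¬ ((Pv.asIdeal : Set (integralClosure (Algebra.adjoin K {y}) F)) ⊆
      ⋃ w ∈ (↑W : Set (Place K F)), ((PW w).asIdeal : Set _)) := by
    intro hsub
    obtain ⟨w0, hw0⟩ := hne
    obtain ⟨w, hw, hle⟩ := (Ideal.subset_union_prime (s := W) (f := fun w => (PW w).asIdeal) w0 w0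
      (fun i _ _ _ => (PW i).isPrime)).mp hsub
    have heq : Pv.asIdeal = (PW w).asIdeal :=
      Pv.isMaximal.eq_of_le (PW w).isPrime.ne_top hle
    have : Pv = PW w := HeightOneSpectrum.ext heq
    apply hvW
    rw [← hPv, this, hPW w hw]
    exact hw
  rw [Set.not_subset] at hnot
  obtain ⟨b, hbv, hbW⟩ := hnot
  simp only [Finset.mem_coe, Set.mem_iUnion, SetLike.mem_coe, exists_prop, not_exists, not_and]
    at hbW hbv
  have hb0 : b ≠ 0 := by
    obtain ⟨w0, hw0⟩ := hne
    intro h0
    exact hbW w0 hw0 (h0 ▸ zero_mem _)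
  have hbF : algebraMap (integralClosure (Algebra.adjoin K {y}) F) F b ≠ 0 := by
    simpa using (IsFractionRing.injective (integralClosure (Algebra.adjoin K {y}) F) F).ne hb0
  refine ⟨algebraMap _ F b, hbF, ?_, fun w hw => ?_⟩
  · rw [← hPv]
    exact (ord_ofHeightOneSpectrum_pos_iff (K := K) (F := F) Pv hb0).mpr hbv
  · have h1 : 0 ≤ w.ord (algebraMap _ F b) :=
      ord_nonneg_of_mem w (SumOrd.mem_of_mem_integralClosure w (hW w hw) b)
    have h2 : ¬ 0 < w.ord (algebraMap _ F b) := by
      intro hpos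
      rw [← hPW w hw] at hpos
      exact hbW w hw ((ord_ofHeightOneSpectrum_pos_iff (K := K) (F := F) (PW w) hb0).mp hpos)
    omega

end Fermat.Agent.S24
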