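import Mathlib
import Fermat.Prelude.Def_AlgebraicCurve_CanonicalDivisor

set_option autoImplicit false

/-!
# S24, part A: basic API for `AlgebraicCurve.Place`
-/

namespace Fermat.Agent.S24

open AlgebraicCurve

variable {K F : Type*} [Field K] [Field F] [Algebra K F]

theorem exists_ord_eq_one (v : Place K F) : ∃ t : F, v.ord t = 1 ∧ t ≠ 0 ∧
    ∃ ht : t ∈ v.toValuationSubring, Irreducible (⟨t, ht⟩ : v.toValuationSubring) := by
  obtain ⟨π, hπ⟩ := IsDiscreteValuationRing.exists_irreducible v.toValuationSubring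
  refine ⟨π, v.ord_coe_irreducible hπ, ?_, π.2, hπ⟩
  simpa [ne_eq, ZeroMemClass.coe_eq_zero] using hπ.ne_zero

theorem mem_of_ord_nonneg (v : Place K F) {f : F} (h : 0 ≤ v.ord f) :
    f ∈ v.toValuationSubring := by
  rcases eq_or_ne f 0 with rfl | hf
  · exact zero_mem _
  obtain ⟨π, hπ⟩ := IsDiscreteValuationRing.exists_irreducible v.toValuationSubring
  obtain ⟨u, hu⟩ := v.exists_unit_mul_zpow hf hπ
  rw [hu]
  obtain ⟨n, hn⟩ := Int.eq_ofNat_of_zero_le h
  rw [hn, zpow_natCast]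
  exact mul_mem (u : v.toValuationSubring).2 (pow_mem π.2 n)

theorem ord_nonneg_of_mem (v : Place K F) {f : F} (h : f ∈ v.toValuationSubring) :
    0 ≤ v.ord f := by
  rcases eq_or_ne f 0 with rfl | hf
  · simp
  obtain ⟨π, hπ⟩ := IsDiscreteValuationRing.exists_irreducible v.toValuationSubring
  obtain ⟨u, hu⟩ := v.exists_unit_mul_zpow hf hπ
  by_contra hneg
  rw [not_le] at hneg
  obtain ⟨n, hn⟩ := Int.eq_ofNat_of_zero_le (show 0 ≤ -v.ord f - 1 by omega)
  have hπF : (π : F) ≠ 0 := by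
    simpa [ne_eq, ZeroMemClass.coe_eq_zero] using hπ.ne_zero
  -- u = f * π^(n+1)
  have h1 : ((u : v.toValuationSubring) : F) = f * (π : F) ^ (n + 1) := by
    have : v.ord f = -((n : ℤ) + 1) := by omega
    rw [this] at hu
    rw [hu, mul_assoc, zpow_neg, ← zpow_natCast]
    push_cast
    rw [inv_mul_cancel₀ (zpow_ne_zero _ hπF), mul_one]
  have h2 : (u : v.toValuationSubring) = ⟨f, h⟩ * π ^ (n + 1) := by
    ext; simpa using h1
  have h3 : IsUnit (⟨f, h⟩ * π ^ (n + 1) : v.toValuationSubring) := h2 ▸ u.isUnit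
  have h4 : IsUnit (π ^ (n + 1)) := isUnit_of_mul_isUnit_right h3
  exact hπ.not_isUnit ((isUnit_pow_iff (Nat.succ_ne_zero n)).mp h4)

theorem mem_iff_ord_nonneg (v : Place K F) {f : F} :
    f ∈ v.toValuationSubring ↔ 0 ≤ v.ord f :=
  ⟨ord_nonneg_of_mem v, mem_of_ord_nonneg v⟩

theorem ord_algebraMap (v : Place K F) (a : K) : v.ord (algebraMap K F a) = 0 := by
  rcases eq_or_ne a 0 with rfl | ha
  · simp
  have h1 := ord_nonneg_of_mem v (v.algebraMap_mem' a)
  have h2 := ord_nonneg_of_mem v (v.algebraMap_mem' a⁻¹)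
  rw [map_inv₀, v.ord_inv] at h2
  omega

theorem ord_neg (v : Place K F) (f : F) : v.ord (-f) = v.ord f := by
  simp [Place.ord]

theorem ord_pow (v : Place K F) (f : F) (n : ℕ) : v.ord (f ^ n) = n * v.ord f := by
  have := v.ord_zpow f n
  simpa using this

theorem ord_div (v : Place K F) {f g : F} (hf : f ≠ 0) (hg : g ≠ 0) :
    v.ord (f / g) = v.ord f - v.ord g := by
  rw [div_eq_mul_inv, v.ord_mul hf (inv_ne_zero hg), v.ord_inv]; ring

theorem min_le_ord_add (v : Place K F) {f g : F} (hfg : f + g ≠ 0) :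
    min (v.ord f) (v.ord g) ≤ v.ord (f + g) := by
  rcases eq_or_ne f 0 with rfl | hf
  · simp
  rcases eq_or_ne g 0 with rfl | hg
  · simp
  wlog hle : v.ord f ≤ v.ord g generalizing f g
  · have := this (by rwa [add_comm]) hg hf (by omega)
    rwa [add_comm, min_comm]
  rw [min_eq_left hle]
  have h1 : 0 ≤ v.ord (g / f) := by rw [ord_div v hg hf]; omega
  have h2 : (1 + g / f) ∈ v.toValuationSubring :=
    add_mem (one_mem _) (mem_of_ord_nonneg v h1)
  have h3 := ord_nonneg_of_mem v h2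
  have h4 : f + g = f * (1 + g / f) := by field_simp
  have h5 : (1 + g / f) ≠ 0 := by
    intro h; rw [h4, h, mul_zero] at hfg; exact hfg rfl
  rw [h4, v.ord_mul hf h5]
  omega

theorem ord_add_eq_of_lt (v : Place K F) {f g : F} (hf : f ≠ 0) (h : v.ord f < v.ord g) :
    v.ord (f + g) = v.ord f := by
  rcases eq_or_ne g 0 with rfl | hg
  · simp
  have hfg : f + g ≠ 0 := by
    intro h0
    have : g = -f := by linear_combination h0
    rw [this, ord_neg] at h
    exact lt_irrefl _ h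
  have h1 := min_le_ord_add v hfg
  rw [min_eq_left h.le] at h1
  have h2 : min (v.ord (f + g)) (v.ord (-g)) ≤ v.ord ((f + g) + -g) :=
    min_le_ord_add v (by simpa using hf)
  rw [ord_neg, add_neg_cancel_right] at h2
  rcases min_le_iff.mp h2 with h3 | h3 <;> omega

/-- A place is determined by the sign of `ord`. -/
theorem place_ext_of_le {v w : Place K F}
    (h : ∀ f : F, f ∈ v.toValuationSubring → f ∈ w.toValuationSubring) : v = w := by
  apply Place.ext
  apply le_antisymm (fun f hf => h f hf)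
  intro f hf
  by_contra hfv
  -- `ord_v f < 0`
  have hf0 : f ≠ 0 := fun h0 => hfv (h0 ▸ zero_mem _)
  have h1 : v.ord f < 0 := by
    by_contra hh; exact hfv (mem_of_ord_nonneg v (not_lt.mp hh))
  -- then every element of `F` lies in `w`
  apply w.ne_top'
  refine SetLike.ext fun x => ⟨fun _ => ValuationSubring.mem_top x, fun _ => ?_⟩
  rcases eq_or_ne x 0 with rfl | hx
  · exact zero_mem _
  -- x = (x * f⁻¹^n) * f^n with n large
  obtain ⟨n, hn⟩ : ∃ n : ℕ, 0 ≤ v.ord x + n * (-v.ord f) := by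
    refine ⟨(-v.ord x).toNat, ?_⟩
    have : (-v.ord x) ≤ ((-v.ord x).toNat : ℤ) := Int.self_le_toNat _
    have h0 : (0 : ℤ) ≤ ((-v.ord x).toNat : ℤ) := Int.natCast_nonneg _
    nlinarith
  have h2 : x * (f⁻¹) ^ n ∈ v.toValuationSubring := by
    apply mem_of_ord_nonneg
    rw [v.ord_mul hx (pow_ne_zero _ (inv_ne_zero hf0)), ord_pow, v.ord_inv]
    exact hn
  have h3 : x = (x * (f⁻¹) ^ n) * f ^ n := by
    rw [mul_assoc, ← mul_pow, inv_mul_cancel₀ hf0, one_pow, mul_one]
  rw [h3]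
  exact mul_mem (h _ h2) (pow_mem hf n)

end Fermat.Agent.S24
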