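import Fermat.Agent.S24.Residue
import Fermat.Agent.S24.SumOrd

set_option autoImplicit false

/-!
# S24, task A6: principal divisors have degree zero
-/

namespace Fermat.Agent.S24

open AlgebraicCurve IntermediateField KaehlerDifferential

variable {K F : Type*} [Field K] [Field F] [Algebra K F]

theorem principal_degree_eq_sum [IsAlgClosed K] (h : IsFF1 K F) (D : Divisor K F) :
    Divisor.degree D = ∑ v ∈ D.support, D v := by
  simp only [Divisor.degree, Finsupp.liftAddHom_apply, Finsupp.sum, AddMonoidHom.coe_mulRight,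
    deg_eq_one h, Nat.cast_one, mul_one]

theorem principal_adjoin_inv_eq (f : F) : K⟮f⁻¹⟯ = K⟮f⟯ := by
  apply le_antisymm
  · rw [adjoin_simple_le_iff]
    exact inv_mem (mem_adjoin_simple_self K f)
  · rw [adjoin_simple_le_iff]
    have := inv_mem (mem_adjoin_simple_self K f⁻¹)
    rwa [inv_inv] at this

theorem degree_eq_zero_of_principal [IsAlgClosed K] [CharZero K] (h : IsFF1 K F) {f : F}
    (hf : f ≠ 0) (D : Divisor K F) (hD : ∀ v, D v = v.ord f) : Divisor.degree D = 0 := by
  classical
  by_cases hr : f ∈ Set.range (algebraMap K F)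
  · obtain ⟨a, rfl⟩ := hr
    have : D = 0 := by
      ext v
      rw [hD, ord_algebraMap]
      rfl
    rw [this, map_zero]
  have ht : Transcendental K f := transcendental_of_not_mem_range hr
  have ht' : Transcendental K f⁻¹ := by
    apply transcendental_of_not_mem_range
    rintro ⟨a, ha⟩
    apply hr
    exact ⟨a⁻¹, by rw [map_inv₀, ha, inv_inv]⟩
  rw [principal_degree_eq_sum h]
  have hsupp : D.support = (finite_ord_pos h ht).toFinset ∪ (finite_ord_pos h ht').toFinset := by
    ext v
    simp only [Finsupp.mem_support_iff, hD, Finset.mem_union, Set.Finite.mem_toFinset,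
      Set.mem_ofPred_eq, Place.ord_inv]
    omega
  have hdisj : Disjoint (finite_ord_pos h ht).toFinset (finite_ord_pos h ht').toFinset := by
    rw [Finset.disjoint_left]
    intro v hv hv'
    simp only [Set.Finite.mem_toFinset, Set.mem_ofPred_eq, Place.ord_inv] at hv hv'
    omega
  rw [hsupp, Finset.sum_union hdisj]
  have h1 := sum_ord_pos h ht
  have h2 := sum_ord_pos h ht'
  have h3 : Module.finrank K⟮f⁻¹⟯ F = Module.finrank K⟮f⟯ F := by
    rw [principal_adjoin_inv_eq]
  have h4 : ∑ v ∈ (finite_ord_pos h ht').toFinset, v.ord f⁻¹ =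
      -∑ v ∈ (finite_ord_pos h ht').toFinset, D v := by
    rw [← Finset.sum_neg_distrib]
    exact Finset.sum_congr rfl fun v _ => by rw [hD, Place.ord_inv]
  have h5 : ∑ v ∈ (finite_ord_pos h ht).toFinset, v.ord f =
      ∑ v ∈ (finite_ord_pos h ht).toFinset, D v :=
    Finset.sum_congr rfl fun v _ => by rw [hD]
  rw [h4, h3] at h2
  rw [h5] at h1
  linarith

end Fermat.Agent.S24
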