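import Mathlib
import Fermat.Prelude.Def_ModularCurve_ArithmeticGalois
import Fermat.Prelude.Def_ModularCurve_JqCoeff

set_option autoImplicit false

/-!
# S24, analytic part: basic definitions
-/

open UpperHalfPlane ModularForm EisensteinSeries CongruenceSubgroup
open scoped MatrixGroups Manifold

namespace Fermat.Agent.S24

/-- the constant field -/
abbrev Kb : Type := AlgebraicClosure ℚ

/-- a fixed embedding of `ℚ̄` in `ℂ`. -/
noncomputable def iotaK : Kb →+* ℂ :=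
  haveI : Algebra.IsAlgebraic ℚ Kb := AlgebraicClosure.isAlgebraic ℚ
  ((IsAlgClosed.lift : Kb →ₐ[ℚ] ℂ) : Kb →+* ℂ)

/-- the analytic `j`-function `E₄³/Δ = q⁻¹ + 744 + …`. -/
noncomputable def jFun (z : ℍ) : ℂ := E₄ z ^ 3 / discriminant z

/-- `z ↦ f ((a z + b) / δ)`. -/
noncomputable def pre (a b δ : ℕ) (f : ℍ → ℂ) (z : ℍ) : ℂ :=
  f (ofComplex (((a : ℂ) * z + b) / δ))

/-- `z ↦ j (d z)`. -/
noncomputable def jd (d : ℕ) : ℍ → ℂ := pre d 0 1 jFun

/-- left action of `SL(2,ℤ)` on functions: `(act g f) z = f (g⁻¹ z)`. -/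
noncomputable def act (g : SL(2, ℤ)) : (ℍ → ℂ) →+* (ℍ → ℂ) where
  toFun f := fun z => f (g⁻¹ • z)
  map_one' := rfl
  map_mul' _ _ := rfl
  map_zero' := rfl
  map_add' _ _ := rfl

@[simp] theorem act_apply (g : SL(2, ℤ)) (f : ℍ → ℂ) (z : ℍ) : act g f z = f (g⁻¹ • z) := rfl

theorem act_one (f : ℍ → ℂ) : act 1 f = f := by
  funext z; simp

theorem act_mul (g h : SL(2, ℤ)) (f : ℍ → ℂ) : act (g * h) f = act g (act h f) := by
  funext z; simp [mul_smul]

/-- constants from `ℚ̄`. -/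
noncomputable def constK : Kb →+* (ℍ → ℂ) := (Pi.constRingHom ℍ ℂ).comp iotaK

@[simp] theorem constK_apply (a : Kb) (z : ℍ) : constK a z = iotaK a := rfl

theorem act_constK (g : SL(2, ℤ)) (a : Kb) : act g (constK a) = constK a := rfl

/-- generators of `Btil`. -/
def btilGens (N : ℕ) : Set (ℍ → ℂ) :=
  Set.range constK ∪ {f | ∃ (g : SL(2, ℤ)) (d : ℕ), d ∣ N ∧ f = act g (jd d)}

/-- the ring generated over `ℚ̄` by all `SL(2,ℤ)`-conjugates of the `j (d z)`, `d ∣ N`. -/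
def Btil (N : ℕ) : Subring (ℍ → ℂ) := Subring.closure (btilGens N)

theorem constK_mem_Btil (N : ℕ) (a : Kb) : constK a ∈ Btil N :=
  Subring.subset_closure (Or.inl ⟨a, rfl⟩)

theorem act_jd_mem_Btil {N d : ℕ} (g : SL(2, ℤ)) (hd : d ∣ N) : act g (jd d) ∈ Btil N :=
  Subring.subset_closure (Or.inr ⟨g, d, hd, rfl⟩)

theorem jd_mem_Btil {N d : ℕ} (hd : d ∣ N) : jd d ∈ Btil N := by
  have := act_jd_mem_Btil 1 hd
  rwa [act_one] at this

theorem act_mem_Btil {N : ℕ} (g : SL(2, ℤ)) {b : ℍ → ℂ} (hb : b ∈ Btil N) : act g b ∈ Btil N := by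
  induction hb using Subring.closure_induction with
  | mem x hx =>
    rcases hx with ⟨a, rfl⟩ | ⟨h, d, hd, rfl⟩
    · rw [act_constK]; exact constK_mem_Btil N a
    · rw [← act_mul]; exact act_jd_mem_Btil _ hd
  | zero => simp
  | one => simp
  | add x y _ _ hx hy => rw [map_add]; exact add_mem hx hy
  | neg x _ hx => rw [map_neg]; exact neg_mem hx
  | mul x y _ _ hx hy => rw [map_mul]; exact mul_mem hx hy

/-- the action on `Btil`. -/
noncomputable def actB (N : ℕ) (g : SL(2, ℤ)) : Btil N →+* Btil N :=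
  ((act g).comp (Btil N).subtype).codRestrict (Btil N) fun b => act_mem_Btil g b.2

@[simp] theorem coe_actB (N : ℕ) (g : SL(2, ℤ)) (b : Btil N) :
    ((actB N g b : Btil N) : ℍ → ℂ) = act g b := rfl

/-- holomorphic, `N`-periodic, bounded at `i∞`. -/
def IsBd (N : ℕ) (f : ℍ → ℂ) : Prop :=
  Function.Periodic (f ∘ ofComplex) ((N : ℝ) : ℂ) ∧ MDiff f ∧ IsBoundedAtImInfty f

/-- holomorphic, `N`-periodic, meromorphic at `i∞`. -/
def IsPer (N : ℕ) (f : ℍ → ℂ) : Prop :=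
  ∃ m : ℕ, IsBd N (f * discriminant ^ m)

/-- holomorphic functions. -/
def holSub : Subring (ℍ → ℂ) where
  carrier := {f | MDiff f}
  mul_mem' hf hg := hf.mul hg
  add_mem' hf hg := hf.add hg
  one_mem' := mdifferentiable_const
  zero_mem' := mdifferentiable_const
  neg_mem' hf := hf.neg

/-- the `q`-series `j(q^d)` with coefficients in `ℚ̄`. -/
noncomputable def Jser (d : ℕ) : LaurentSeries Kb :=
  if h : d = 0 then 0 else haveI : NeZero d := ⟨h⟩; ModularCurve.jqNModC Kb d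

/-- the generators of the function field. -/
def fGens (N : ℕ) : Set (LaurentSeries Kb) := {y | ∃ d : ℕ, d ∣ N ∧ y = Jser d}

/-- `ℚ̄[j(q^d) : d ∣ N]`. -/
noncomputable def A0 (N : ℕ) : Subalgebra Kb (LaurentSeries Kb) := Algebra.adjoin Kb (fGens N)

theorem Jser_mem_A0 {N d : ℕ} (hd : d ∣ N) : Jser d ∈ A0 N :=
  Algebra.subset_adjoin ⟨d, hd, rfl⟩

/-- the function field of `X₀(N)` over `ℚ̄`. -/
abbrev FN (N : ℕ) : Type := ↥(ModularCurve.modularFunctionFieldBar N)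

end Fermat.Agent.S24
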