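import Fermat.Agent.S24.Avoid

set_option autoImplicit false

namespace Fermat.Agent.S24

open AlgebraicCurve IntermediateField Polynomial

variable {K F : Type*} [Field K] [Field F] [Algebra K F]

namespace AbsCount

theorem aeval_mem (v : Place K F) {y : F} (hy : 0 ≤ v.ord y) (p : K[X]) :
    aeval y p ∈ v.toValuationSubring := by
  rw [aeval_eq_sum_range]
  refine sum_mem fun i _ => ?_
  rw [Algebra.smul_def]
  exact mul_mem (v.algebraMap_mem' _) (pow_mem (mem_of_ord_nonneg v hy) _)

theorem ord_aeval_of_coeff_zero_ne (v : Place K F) {y : F} (hy : 0 < v.ord y) {p : K[X]}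
    (hp : p.coeff 0 ≠ 0) : aeval y p ≠ 0 ∧ v.ord (aeval y p) = 0 := by
  have h1 : aeval y p = algebraMap K F (p.coeff 0) + aeval y p.divX * y := by
    conv_lhs => rw [← divX_mul_X_add p]
    simp [add_comm]
  have ha : algebraMap K F (p.coeff 0) ≠ 0 := by simpa using hp
  have hy0 : y ≠ 0 := by rintro rfl; simp at hy
  rcases eq_or_ne (aeval y p.divX) 0 with h0 | h0
  · rw [h1, h0, zero_mul, add_zero]
    exact ⟨ha, ord_algebraMap v _⟩
  · have h2 : v.ord (algebraMap K F (p.coeff 0)) < v.ord (aeval y p.divX * y) := by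
      rw [ord_algebraMap, v.ord_mul h0 hy0]
      have := ord_nonneg_of_mem v (aeval_mem v hy.le p.divX)
      omega
    have h3 := ord_add_eq_of_lt v ha h2
    rw [← h1, ord_algebraMap] at h3
    refine ⟨?_, h3⟩
    intro h4
    have h5 : aeval y p.divX * y = - algebraMap K F (p.coeff 0) := by
      rw [h1] at h4; linear_combination h4
    rw [h5, ord_neg] at h2
    exact lt_irrefl _ h2

theorem ord_aeval (v : Place K F) {y : F} (hy : 0 < v.ord y) {p : K[X]} (hp : p ≠ 0) :
    aeval y p ≠ 0 ∧ v.ord (aeval y p) = p.rootMultiplicity 0 * v.ord y := by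
  obtain ⟨q, hq, hdvd⟩ := exists_eq_pow_rootMultiplicity_mul_and_not_dvd p hp 0
  rw [C_0, sub_zero] at hq hdvd
  have hq0 : q.coeff 0 ≠ 0 := fun h => hdvd (X_dvd_iff.mpr h)
  obtain ⟨h1, h2⟩ := ord_aeval_of_coeff_zero_ne v hy hq0
  have hy0 : y ≠ 0 := by rintro rfl; simp at hy
  have h3 : aeval y p = y ^ (p.rootMultiplicity 0) * aeval y q := by
    conv_lhs => rw [hq]
    simp
  rw [h3]
  refine ⟨mul_ne_zero (pow_ne_zero _ hy0) h1, ?_⟩
  rw [v.ord_mul (pow_ne_zero _ hy0) h1, h2, ord_pow, add_zero]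

/-- two places (on two fields) which are positive at `y` are proportional on `K(y)`. -/
theorem ord_mul_ord_eq {M : Type*} [Field M] [Algebra K M] (v : Place K F) (u : Place K M)
    (φ : F →ₐ[K] M) {y : F} (hy : 0 < v.ord y) (hy' : 0 < u.ord (φ y)) {r : F} (hr : r ∈ K⟮y⟯) :
    u.ord (φ r) * v.ord y = v.ord r * u.ord (φ y) := by
  rcases eq_or_ne r 0 with rfl | hr0
  · simp
  obtain ⟨p, q, rfl⟩ := (mem_adjoin_simple_iff K r).mp hr
  have hp : p ≠ 0 := by rintro rfl; simp at hr0
  have hq : q ≠ 0 := by rintro rfl; simp at hr0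
  obtain ⟨h1, h2⟩ := ord_aeval v hy hp
  obtain ⟨h3, h4⟩ := ord_aeval v hy hq
  obtain ⟨h5, h6⟩ := ord_aeval u hy' hp
  obtain ⟨h7, h8⟩ := ord_aeval u hy' hq
  rw [map_div₀, ← aeval_algHom_apply, ← aeval_algHom_apply, ord_div v h1 h3, ord_div u h5 h7,
    h2, h4, h6, h8]
  ring

theorem ord_prod (v : Place K F) {ι : Type*} (s : Finset ι) (f : ι → F) (hf : ∀ i ∈ s, f i ≠ 0) :
    v.ord (∏ i ∈ s, f i) = ∑ i ∈ s, v.ord (f i) := by
  classical
  induction s using Finset.induction_on with
  | empty => simp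
  | insert a s ha ih =>
    rw [Finset.prod_insert ha, Finset.sum_insert ha,
      v.ord_mul (hf a (Finset.mem_insert_self a s))
        (Finset.prod_ne_zero_iff.mpr fun i hi => hf i (Finset.mem_insert_of_mem hi)),
      ih fun i hi => hf i (Finset.mem_insert_of_mem hi)]

theorem isVal_comp {M : Type*} [Field M] [Algebra K M] (φ : F →ₐ[K] M) (u : Place K M)
    (hnt : ∃ f : F, f ≠ 0 ∧ u.ord (φ f) ≠ 0) : IsVal K (fun f => u.ord (φ f)) where
  map_mul f g hf hg := by
    simp only [map_mul]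
    exact u.ord_mul ((map_ne_zero φ).mpr hf) ((map_ne_zero φ).mpr hg)
  map_add f g _ _ hfg := by
    simp only [map_add]
    exact min_le_ord_add u (by rw [← map_add]; exact (map_ne_zero φ).mpr hfg)
  map_const a _ := by
    simp only [AlgHom.commutes]
    exact (ord_algebraMap u a).ge
  nontrivial := hnt

section surj

variable [IsAlgClosed K] [CharZero K] {M : Type*} [Field M] [Algebra K M] {Q : Type*} [Fintype Q]

theorem exists_eq_of_pos (h : IsFF1 K F) {y : F} (hy : Transcendental K y) [Nonempty Q]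
    (emb : Q → (F →ₐ[K] M)) (u : Place K M)
    (pl : Q → Place K F) (m : Q → ℤ) (hm : ∀ q, 0 < m q)
    (hpl : ∀ q (f : F), f ≠ 0 → u.ord (emb q f) = m q * (pl q).ord f)
    (hY : ∀ q, 0 < u.ord (emb q y))
    (hchar : ∀ f : F, ∃ P : Polynomial K⟮y⟯, ∀ q0 : Q,
      P.map ((emb q0 : F →+* M).comp (algebraMap K⟮y⟯ F)) = ∏ q : Q, (X - C (emb q f)))
    (v : Place K F) (hv : 0 < v.ord y) : ∃ q, pl q = v := by
  classical
  by_contra hne
  rw [not_exists] at hne
  have hy0 : y ≠ 0 := by rintro rfl; simp at hv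
  have hply : ∀ q, 0 < (pl q).ord y := by
    intro q
    have := hY q
    rw [hpl q y hy0] at this
    exact (pos_iff_pos_of_mul_pos this).mp (hm q)
  obtain ⟨f, hf0, hfv, hfW⟩ := exists_ord_pos_of_not_mem h hy v hv.le (Finset.univ.image pl)
    (by
      intro w hw
      obtain ⟨q, -, rfl⟩ := Finset.mem_image.mp hw
      exact (hply q).le)
    (by
      intro hw
      obtain ⟨q, -, hq⟩ := Finset.mem_image.mp hw
      exact hne q hq)
  have hfq : ∀ q, u.ord (emb q f) = 0 := by
    intro q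
    rw [hpl q f hf0, hfW (pl q) (Finset.mem_image_of_mem pl (Finset.mem_univ q)), mul_zero]
  obtain ⟨P, hP⟩ := hchar f
  obtain ⟨q0⟩ := ‹Nonempty Q›
  set φ : K⟮y⟯ →+* M := ((emb q0 : F →+* M).comp (algebraMap K⟮y⟯ F)) with hφ
  have hP0 := hP q0
  have hroot : aeval f P = 0 := by
    apply (emb q0 : F →+* M).injective
    rw [map_zero]
    show emb q0 (aeval f P) = 0
    have h1 : emb q0 (aeval f P) = (P.map φ).eval (emb q0 f) := by
      rw [eval_map, aeval_def]
      exact hom_eval₂ P (algebraMap K⟮y⟯ F) (emb q0 : F →+* M) f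
    rw [h1, hP0, eval_prod]
    exact Finset.prod_eq_zero (Finset.mem_univ q0) (by simp)
  have hcoef : ∀ i, φ (P.coeff i) ∈ u.toValuationSubring := by
    intro i
    rw [← coeff_map, hP0]
    have h1 : (∏ q, (X - C (emb q f))) ∈ Polynomial.lifts (u.toValuationSubring.subtype) := by
      refine Subsemiring.prod_mem _ fun q _ => ?_
      exact ⟨X - C ⟨emb q f, mem_of_ord_nonneg u (hfq q).ge⟩, by simp⟩
    obtain ⟨z, hz⟩ := (Polynomial.lifts_iff_coeff_lifts _).mp h1 i
    rw [← hz]
    exact z.2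
  have hc0 : φ (P.coeff 0) = ∏ q, (- emb q f) := by
    rw [← coeff_map, hP0, coeff_zero_eq_eval_zero, eval_prod]
    simp
  have hembne : ∀ q, - emb q f ≠ 0 := fun q => neg_ne_zero.mpr ((map_ne_zero (emb q)).mpr hf0)
  have hc0ord : u.ord (φ (P.coeff 0)) = 0 := by
    rw [hc0, ord_prod u _ _ fun q _ => hembne q]
    exact Finset.sum_eq_zero fun q _ => by rw [ord_neg, hfq]
  have hc0ne : (algebraMap K⟮y⟯ F (P.coeff 0)) ≠ 0 := by
    intro h0
    have : φ (P.coeff 0) = 0 := by rw [hφ, RingHom.comp_apply, h0, map_zero]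
    rw [hc0] at this
    exact Finset.prod_ne_zero_iff.mpr (fun q _ => hembne q) this
  have key : ∀ r : K⟮y⟯, u.ord (φ r) * v.ord y =
      v.ord (algebraMap K⟮y⟯ F r) * u.ord (emb q0 y) :=
    fun r => ord_mul_ord_eq v u (emb q0) hv (hY q0) r.2
  have hcoefv : ∀ i, (algebraMap K⟮y⟯ F (P.coeff i)) ∈ v.toValuationSubring := by
    intro i
    apply mem_of_ord_nonneg
    have h1 := key (P.coeff i)
    have h2 := ord_nonneg_of_mem u (hcoef i)
    by_contra hneg
    rw [not_le] at hneg
    have h3 := hY q0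
    nlinarith
  have hc0v : v.ord (algebraMap K⟮y⟯ F (P.coeff 0)) = 0 := by
    have h1 := key (P.coeff 0)
    rw [hc0ord, zero_mul] at h1
    rcases mul_eq_zero.mp h1.symm with h2 | h2
    · exact h2
    · exact absurd h2 (hY q0).ne'
  have hsplit : aeval f P = aeval f P.divX * f + algebraMap K⟮y⟯ F (P.coeff 0) := by
    conv_lhs => rw [← divX_mul_X_add P]
    simp
  have hdivX : aeval f P.divX ∈ v.toValuationSubring := by
    rw [aeval_eq_sum_range]
    refine sum_mem fun i _ => ?_
    rw [Algebra.smul_def, coeff_divX]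
    exact mul_mem (hcoefv _) (pow_mem (mem_of_ord_nonneg v hfv.le) _)
  have h5 : algebraMap K⟮y⟯ F (P.coeff 0) = - (aeval f P.divX * f) := by
    rw [hroot] at hsplit; linear_combination -hsplit
  have h6 : aeval f P.divX ≠ 0 := by
    intro h0; rw [h0, zero_mul, neg_zero] at h5; exact hc0ne h5
  rw [h5, ord_neg, v.ord_mul h6 hf0] at hc0v
  have := ord_nonneg_of_mem v hdivX
  omega

end surj

section count

variable [IsAlgClosed K] [CharZero K] {M : Type*} [Field M] [Algebra K M]
  {G Q : Type*} [Group G] [MulAction G Q] [Fintype Q]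

theorem main_place (h : IsFF1 K F) {y : F} (hy : Transcendental K y) [Nonempty Q] (g : G)
    (emb : Q → (F →ₐ[K] M)) (u : Place K M) (Y : M) (hY : ∀ q, emb q y = Y) (hYpos : 0 < u.ord Y)
    (hchar : ∀ f : F, ∃ P : Polynomial K⟮y⟯, ∀ q0 : Q,
      P.map ((emb q0 : F →+* M).comp (algebraMap K⟮y⟯ F)) = ∏ q : Q, (X - C (emb q f)))
    (hinv : ∀ q f, u.ord (emb (g • q) f) = u.ord (emb q f))
    (hdvd : ∀ (q : Q) (k : ℕ), g ^ k • q = q → ∀ f : F, f ≠ 0 → u.ord Y ∣ k * u.ord (emb q f))
    (hcard : Fintype.card Q ≤ Module.finrank K⟮y⟯ F) :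
    Nat.card {v : Place K F // 0 < v.ord y} =
        Nat.card (MulAction.orbitRel.Quotient (Subgroup.zpowers g) Q) ∧
      Module.finrank K⟮y⟯ F = Fintype.card Q := by
  classical
  have hy0 : y ≠ 0 := fun h0 => hy (h0 ▸ isAlgebraic_zero)
  have hval : ∀ q, IsVal K (fun f => u.ord (emb q f)) := fun q =>
    isVal_comp _ _ ⟨y, hy0, by rw [hY]; exact hYpos.ne'⟩
  choose pl m hm hpl hsub using fun q => (hval q).exists_place
  have hply : ∀ q, 0 < (pl q).ord y := by
    intro q
    have h1 := hpl q y hy0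
    simp only [hY] at h1
    rw [h1] at hYpos
    exact (pos_iff_pos_of_mul_pos hYpos).mp (hm q)
  have hsurj : ∀ v : Place K F, 0 < v.ord y → ∃ q, pl q = v :=
    exists_eq_of_pos h hy emb u pl m hm hpl (fun q => by rw [hY]; exact hYpos) hchar
  have hplg : ∀ q, pl (g • q) = pl q := by
    intro q
    apply Place.ext
    rw [hsub, hsub]
    ext f
    simp only [IsVal.mem_valuationSubring, hinv]
  have hplz : ∀ (n : ℤ) (q : Q), pl (g ^ n • q) = pl q := by
    intro n
    induction n using Int.induction_on with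
    | zero => intro q; simp
    | succ n ih => intro q; rw [zpow_add_one, mul_smul, ih, hplg]
    | pred n ih =>
      intro q
      rw [zpow_sub_one, mul_smul, ih]
      have := hplg (g⁻¹ • q)
      rw [smul_inv_smul] at this
      exact this.symm
  have horb : ∀ q q' : Q, q' ∈ MulAction.orbit (Subgroup.zpowers g) q → pl q' = pl q := by
    rintro q q' ⟨⟨a, n, rfl⟩, rfl⟩
    exact hplz n q
  -- the bound
  have hbound : ∀ q, (pl q).ord y ≤ (Fintype.card (MulAction.orbit (Subgroup.zpowers g) q) : ℤ) := by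
    intro q
    rw [← MulAction.minimalPeriod_eq_card]
    set k := Function.minimalPeriod (g • ·) q with hk
    have hkq : g ^ k • q = q := by
      have := Function.iterate_minimalPeriod (f := (g • ·)) (x := q)
      rwa [smul_iterate] at this
    obtain ⟨t, ht, ht0, -⟩ := exists_ord_eq_one (pl q)
    have h1 := hdvd q k hkq t ht0
    rw [hpl q t ht0, ht, mul_one] at h1
    have hkpos : 0 < k := by
      rw [hk, MulAction.minimalPeriod_eq_card]
      exact Fintype.card_pos_iff.mpr ⟨⟨q, MulAction.mem_orbit_self q⟩⟩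
    have h2 : u.ord Y ≤ k * m q :=
      Int.le_of_dvd (mul_pos (by exact_mod_cast hkpos) (hm q)) h1
    have h3 := hpl q y hy0
    simp only [hY] at h3
    rw [h3] at h2
    have := hm q
    nlinarith
  set Pl := (finite_ord_pos h hy).toFinset with hPl
  have hsum := sum_ord_pos h hy
  have hmaps : ((Finset.univ : Finset Q) : Set Q).MapsTo pl Pl := by
    intro q _
    simp only [hPl, Set.Finite.coe_toFinset, Set.mem_ofPred_eq]
    exact hply q
  have hcardQ := Finset.card_eq_sum_card_fiberwise hmaps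
  rw [Finset.card_univ] at hcardQ
  have horbsub : ∀ q, (MulAction.orbit (Subgroup.zpowers g) q).toFinset ⊆
      Finset.univ.filter (fun a => pl a = pl q) := by
    intro q a ha
    simp only [Set.mem_toFinset] at ha
    simp only [Finset.mem_filter, Finset.mem_univ, true_and]
    exact horb q a ha
  have hle : ∀ v ∈ Pl, v.ord y ≤ ((Finset.univ.filter (fun a => pl a = v)).card : ℤ) := by
    intro v hv
    simp only [hPl, Set.Finite.mem_toFinset, Set.mem_ofPred_eq] at hv
    obtain ⟨q, rfl⟩ := hsurj v hv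
    refine (hbound q).trans ?_
    have := Finset.card_le_card (horbsub q)
    rw [Set.toFinset_card] at this
    exact_mod_cast this
  have hsumle : (∑ v ∈ Pl, v.ord y) ≤ ∑ v ∈ Pl, ((Finset.univ.filter (fun a => pl a = v)).card : ℤ) :=
    Finset.sum_le_sum hle
  have hcardQ' : (Fintype.card Q : ℤ) = ∑ v ∈ Pl, ((Finset.univ.filter (fun a => pl a = v)).card : ℤ) := by
    rw [hcardQ]; push_cast; rfl
  have hn : Module.finrank K⟮y⟯ F = Fintype.card Q := by
    have h1 : (Module.finrank K⟮y⟯ F : ℤ) ≤ Fintype.card Q := by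
      rw [← hsum, hcardQ']; exact hsumle
    have h2 : (Fintype.card Q : ℤ) ≤ Module.finrank K⟮y⟯ F := by exact_mod_cast hcard
    exact_mod_cast le_antisymm h1 h2
  have heq : ∀ v ∈ Pl, v.ord y = ((Finset.univ.filter (fun a => pl a = v)).card : ℤ) := by
    refine (Finset.sum_eq_sum_iff_of_le hle).mp ?_
    rw [← hcardQ', hsum, hn]
  have horbeq : ∀ q, (MulAction.orbit (Subgroup.zpowers g) q).toFinset =
      Finset.univ.filter (fun a => pl a = pl q) := by
    intro q
    refine Finset.eq_of_subset_of_card_le (horbsub q) ?_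
    have h1 := heq (pl q) (hmaps (Finset.mem_coe.mpr (Finset.mem_univ q)))
    have h2 := hbound q
    rw [Set.toFinset_card]
    rw [h1] at h2
    exact_mod_cast h2
  refine ⟨?_, hn⟩
  symm
  refine Nat.card_congr (Equiv.ofBijective
    (Quotient.lift (s := MulAction.orbitRel (Subgroup.zpowers g) Q)
      (fun q => (⟨pl q, hply q⟩ : {v : Place K F // 0 < v.ord y})) ?_) ⟨?_, ?_⟩)
  · intro a b hab
    exact Subtype.ext (horb b a (MulAction.orbitRel_apply.mp hab))
  · intro a b
    induction a using Quotient.inductionOn with | _ a => ?_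
    induction b using Quotient.inductionOn with | _ b => ?_
    intro hab
    have hab' : pl a = pl b := congrArg Subtype.val hab
    apply Quotient.sound
    show (MulAction.orbitRel (Subgroup.zpowers g) Q) a b
    rw [MulAction.orbitRel_apply, ← Set.mem_toFinset, horbeq b]
    simp [hab']
  · rintro ⟨v, hv⟩
    obtain ⟨q, rfl⟩ := hsurj v hv
    exact ⟨Quotient.mk _ q, rfl⟩

end count

end AbsCount

open AbsCount in
/-- **Abstract counting theorem**: interface between the algebra of places and the analytic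
description of `X₀(N)`. -/
theorem card_places_eq_card_orbits_of_char [IsAlgClosed K] [CharZero K] (h : IsFF1 K F) {y : F}
    (hy : Transcendental K y)
    {M : Type*} [Field M] [Algebra K M] {G Q : Type*} [Group G] [MulAction G Q] [Fintype Q]
    [Nonempty Q] (g : G)
    (emb : Q → (F →ₐ[K] M)) (w : M → ℤ) (hw : IsVal K w) (Y : M) (hY : ∀ q, emb q y = Y)
    (hYpos : 0 < w Y)
    (hchar : ∀ f : F, ∃ P : Polynomial K⟮y⟯, ∀ q0 : Q,
      P.map ((emb q0 : F →+* M).comp (algebraMap K⟮y⟯ F)) =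
        ∏ q : Q, (Polynomial.X - Polynomial.C (emb q f)))
    (hinv : ∀ q f, w (emb (g • q) f) = w (emb q f))
    (hdvd : ∀ (q : Q) (k : ℕ), g ^ k • q = q → ∀ f : F, f ≠ 0 → w Y ∣ k * w (emb q f))
    (hcard : Fintype.card Q ≤ Module.finrank K⟮y⟯ F) :
    Nat.card {v : Place K F // 0 < v.ord y} =
        Nat.card (MulAction.orbitRel.Quotient (Subgroup.zpowers g) Q) ∧
      Module.finrank K⟮y⟯ F = Fintype.card Q := by
  obtain ⟨u, m, hm, hu, -⟩ := hw.exists_place
  have hy0 : y ≠ 0 := fun h0 => hy (h0 ▸ isAlgebraic_zero)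
  obtain ⟨q1⟩ := ‹Nonempty Q›
  have hY0 : Y ≠ 0 := by rw [← hY q1]; exact (map_ne_zero (emb q1)).mpr hy0
  have hne : ∀ q (f : F), f ≠ 0 → emb q f ≠ 0 := fun q f hf => (map_ne_zero (emb q)).mpr hf
  haveI : Nonempty Q := ⟨q1⟩
  refine main_place h hy g emb u Y hY ?_ hchar ?_ ?_ hcard
  · rw [hu Y hY0] at hYpos
    exact (pos_iff_pos_of_mul_pos hYpos).mp hm
  · intro q f
    rcases eq_or_ne f 0 with rfl | hf
    · simp
    have := hinv q f
    rw [hu _ (hne _ f hf), hu _ (hne _ f hf)] at this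
    exact mul_left_cancel₀ hm.ne' this
  · intro q k hk f hf
    have := hdvd q k hk f hf
    rw [hu Y hY0, hu _ (hne _ f hf), mul_left_comm] at this
    exact (mul_dvd_mul_iff_left hm.ne').mp this

end Fermat.Agent.S24
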