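import Mathlib

set_option autoImplicit false

/-!
# S24: the product over a full set of embeddings is the characteristic polynomial
-/

namespace Fermat.Agent.S24

open Polynomial Matrix

theorem exists_charpoly_map {E F M : Type*} [Field E] [Field F] [Field M] [Algebra E F]
    [FiniteDimensional E F] {Q : Type*} [Fintype Q] (θ : Q → F →+* M)
    (hθ : Function.Injective θ)
    (hE : ∀ q q' (r : E), θ q (algebraMap E F r) = θ q' (algebraMap E F r))
    (hcard : Fintype.card Q = Module.finrank E F) (f : F) :
    ∃ P : Polynomial E, ∀ q0, P.map ((θ q0).comp (algebraMap E F)) = ∏ q, (X - C (θ q f)) := by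
  classical
  let e : Fin (Module.finrank E F) ≃ Q := Fintype.equivOfCardEq (by simp [hcard])
  let b : Module.Basis Q E F := (Module.finBasis E F).reindex e
  let A : Matrix Q Q E := Algebra.leftMulMatrix b f
  refine ⟨A.charpoly, fun q0 => ?_⟩
  set φ : E →+* M := (θ q0).comp (algebraMap E F) with hφ
  have hφq : ∀ q (r : E), θ q (algebraMap E F r) = φ r := fun q r => hE q q0 r
  let V : Matrix Q Q M := fun q i => θ q (b i)
  let D : Matrix Q Q M := Matrix.diagonal fun q => θ q f
  have hexp : ∀ q (x : F), θ q x = ∑ i, φ (b.repr x i) * θ q (b i) := by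
    intro q x
    conv_lhs => rw [← b.sum_repr x]
    rw [map_sum]
    refine Finset.sum_congr rfl fun i _ => ?_
    rw [Algebra.smul_def, map_mul, hφq]
  have hDV : D * V = V * A.map φ := by
    ext q j
    rw [Matrix.diagonal_mul, Matrix.mul_apply]
    show θ q f * θ q (b j) = ∑ i, θ q (b i) * φ (A i j)
    rw [← map_mul, hexp q (f * b j)]
    refine Finset.sum_congr rfl fun i _ => ?_
    have hA : A i j = b.repr (f * b j) i := Algebra.leftMulMatrix_eq_repr_mul b f i j
    rw [hA, mul_comm]
  have hli : LinearIndependent M (fun q => (⇑(θ q) : F → M)) := by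
    have h1 := linearIndependent_monoidHom F M
    have h2 : Function.Injective (fun q => ((θ q : F →+* M) : F →* M)) := by
      intro q q' h
      apply hθ
      ext x
      exact DFunLike.congr_fun h x
    exact h1.comp _ h2
  have hdet : V.det ≠ 0 := by
    intro h0
    obtain ⟨c, hc0, hc⟩ := Matrix.exists_vecMul_eq_zero_iff.mpr h0
    apply hc0
    have hsum : ∑ q, c q • (⇑(θ q) : F → M) = 0 := by
      funext x
      simp only [Finset.sum_apply, Pi.smul_apply, smul_eq_mul, Pi.zero_apply]
      calc ∑ q, c q * θ q x = ∑ q, c q * ∑ i, φ (b.repr x i) * θ q (b i) := by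
            refine Finset.sum_congr rfl fun q _ => ?_
            rw [← hexp]
        _ = ∑ i, φ (b.repr x i) * ∑ q, c q * θ q (b i) := by
            simp only [Finset.mul_sum]
            rw [Finset.sum_comm]
            refine Finset.sum_congr rfl fun i _ => Finset.sum_congr rfl fun q _ => ?_
            ring
        _ = 0 := by
            refine Finset.sum_eq_zero fun i _ => ?_
            have := congrFun hc i
            simp only [Matrix.vecMul, dotProduct, Pi.zero_apply] at this
            rw [show ∑ q, c q * θ q (b i) = ∑ q, c q * V q i from rfl, this, mul_zero]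
    funext q
    exact Fintype.linearIndependent_iff.mp hli c hsum q
  have hunit : IsUnit V := (Matrix.isUnit_iff_isUnit_det V).mpr (isUnit_iff_ne_zero.mpr hdet)
  obtain ⟨U, hU⟩ := hunit
  have hconj : A.map φ = U.val⁻¹ * D * U.val := by
    rw [hU, mul_assoc, hDV, ← mul_assoc, Matrix.nonsing_inv_mul V
      ((Matrix.isUnit_iff_isUnit_det V).mp (hU ▸ U.isUnit)), one_mul]
  rw [← Matrix.charpoly_map, hconj, Matrix.charpoly_units_conj', Matrix.charpoly_diagonal]

end Fermat.Agent.S24
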