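import Fermat.Agent.S24.FF1

set_option autoImplicit false

/-!
# S24, part A: places containing a Dedekind domain `R` with `Frac R = F`
-/

namespace Fermat.Agent.S24

open AlgebraicCurve IsDedekindDomain WithZero

variable {K F : Type*} [Field K] [Field F] [Algebra K F]
variable {R : Type*} [CommRing R] [IsDedekindDomain R] [Algebra R F] [IsFractionRing R F]
  [Algebra K R] [IsScalarTower K R F]

namespace Ded

/-- additive version of the adic valuation -/
noncomputable def wOf (w : HeightOneSpectrum R) (f : F) : ℤ := -(WithZero.log (w.valuation F f))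

theorem isVal_wOf (w : HeightOneSpectrum R) : IsVal K (wOf (F := F) w) where
  map_mul f g hf hg := by
    simp only [wOf, map_mul]
    rw [WithZero.log_mul ((Valuation.ne_zero_iff _).mpr hf) ((Valuation.ne_zero_iff _).mpr hg)]
    ring
  map_add f g hf hg hfg := by
    simp only [wOf]
    have h := (w.valuation F).map_add f g
    have hf' := (Valuation.ne_zero_iff (w.valuation F)).mpr hf
    have hg' := (Valuation.ne_zero_iff (w.valuation F)).mpr hg
    have hfg' := (Valuation.ne_zero_iff (w.valuation F)).mpr hfg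
    rcases le_max_iff.mp h with h1 | h1
    · have := (WithZero.log_le_log hfg' hf').mpr h1
      exact min_le_iff.mpr (Or.inl (by omega))
    · have := (WithZero.log_le_log hfg' hg').mpr h1
      exact min_le_iff.mpr (Or.inr (by omega))
  map_const a ha := by
    simp only [wOf]
    rw [IsScalarTower.algebraMap_apply K R F]
    have h1 := w.valuation_le_one (K := F) (algebraMap K R a)
    have h0 : w.valuation F (algebraMap R F (algebraMap K R a)) ≠ 0 := by
      rw [Valuation.ne_zero_iff, ← IsScalarTower.algebraMap_apply K R F]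
      simpa using ha
    have := (WithZero.log_le_log h0 one_ne_zero).mpr h1
    simp only [WithZero.log_one] at this
    omega
  nontrivial := by
    obtain ⟨π, hπ⟩ := w.valuation_exists_uniformizer F
    refine ⟨π, ?_, ?_⟩
    · intro h; rw [h, map_zero] at hπ; exact WithZero.coe_ne_zero hπ.symm
    · simp [wOf, hπ]

theorem wOf_nonneg_iff (w : HeightOneSpectrum R) {f : F} (hf : f ≠ 0) :
    0 ≤ wOf w f ↔ w.valuation F f ≤ 1 := by
  have h0 := (Valuation.ne_zero_iff (w.valuation F)).mpr hf
  rw [← WithZero.log_le_log h0 one_ne_zero, WithZero.log_one, wOf]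
  omega

end Ded

open Ded

theorem ord_ofHeightOneSpectrum (w : HeightOneSpectrum R) {f : F} (hf : f ≠ 0) :
    (Place.ofHeightOneSpectrum (K := K) w).ord f = -(WithZero.log (w.valuation F f)) := by
  obtain ⟨m, hm, h⟩ := (isVal_wOf (K := K) (F := F) w).eq_mul_ord
    (Place.ofHeightOneSpectrum (K := K) w) (by
      intro f hf h0
      have := mem_of_ord_nonneg _ h0
      rw [Place.ofHeightOneSpectrum_toValuationSubring, Valuation.mem_valuationSubring_iff] at this
      exact (wOf_nonneg_iff w hf).mpr this)
  obtain ⟨π, hπ⟩ := w.valuation_exists_uniformizer F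
  have hπ0 : π ≠ 0 := by
    intro h; rw [h, map_zero] at hπ; exact WithZero.coe_ne_zero hπ.symm
  have h1 : wOf w π = 1 := by simp [wOf, hπ]
  have h2 := h π hπ0
  rw [h1] at h2
  have hm1 : m = 1 := by
    have : m ∣ 1 := ⟨_, h2⟩
    exact Int.eq_one_of_dvd_one hm.le this
  have h3 := h f hf
  rw [hm1, one_mul] at h3
  exact h3.symm

theorem ord_ofHeightOneSpectrum_pos_iff (w : HeightOneSpectrum R) {r : R} (hr : r ≠ 0) :
    0 < (Place.ofHeightOneSpectrum (K := K) w).ord (algebraMap R F r) ↔ r ∈ w.asIdeal := by
  have hr' : algebraMap R F r ≠ 0 := by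
    simpa using (IsFractionRing.injective R F).ne hr
  rw [ord_ofHeightOneSpectrum w hr', ← w.valuation_lt_one_iff_mem (K := F)]
  have h0 := (Valuation.ne_zero_iff (w.valuation F)).mpr hr'
  rw [← WithZero.log_lt_log h0 one_ne_zero, WithZero.log_one]
  omega

theorem ofHeightOneSpectrum_injective :
    Function.Injective (Place.ofHeightOneSpectrum (K := K) (F := F) (R := R)) := by
  intro w w' h
  ext r
  by_cases hr : r = 0
  · simp [hr]
  rw [← ord_ofHeightOneSpectrum_pos_iff (K := K) (F := F) w hr,
    ← ord_ofHeightOneSpectrum_pos_iff (K := K) (F := F) w' hr, h]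

theorem exists_ofHeightOneSpectrum_eq (v : Place K F)
    (hR : ∀ r : R, algebraMap R F r ∈ v.toValuationSubring) :
    ∃ w : HeightOneSpectrum R, Place.ofHeightOneSpectrum (K := K) w = v := by
  -- the centre of `v` on `R`
  let φ : R →+* v.toValuationSubring := (algebraMap R F).codRestrict v.toValuationSubring.toSubring hR
  let P : Ideal R := (IsLocalRing.maximalIdeal v.toValuationSubring).comap φ
  have hPprime : P.IsPrime := Ideal.comap_isPrime φ _
  have hmemP : ∀ r : R, r ∈ P ↔ ¬ IsUnit (φ r) := by
    intro r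
    simp only [P, Ideal.mem_comap, IsLocalRing.mem_maximalIdeal, mem_nonunits_iff]
  have hPbot : P ≠ ⊥ := by
    intro hbot
    apply v.ne_top'
    refine SetLike.ext fun x => ⟨fun _ => ValuationSubring.mem_top x, fun _ => ?_⟩
    obtain ⟨a, b, hb, rfl⟩ := IsFractionRing.div_surjective (A := R) x
    have hb0 : b ≠ 0 := nonZeroDivisors.ne_zero hb
    have hbP : b ∉ P := by rw [hbot]; simpa using hb0
    rw [hmemP, not_not] at hbP
    obtain ⟨u, hu⟩ := hbP
    have h1 : (algebraMap R F b)⁻¹ = ((u⁻¹ : (v.toValuationSubring)ˣ) : v.toValuationSubring) := by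
      have h2 : ((u : v.toValuationSubring) : F) = algebraMap R F b := by rw [hu]; rfl
      rw [← h2]
      have h3 : ((u : v.toValuationSubring) : F) * ((u⁻¹ : (v.toValuationSubring)ˣ) : v.toValuationSubring) = 1 :=
        congrArg Subtype.val u.mul_inv
      exact inv_eq_of_mul_eq_one_right h3
    rw [div_eq_mul_inv, h1]
    exact mul_mem (hR a) (Subtype.mem _)
  let w : HeightOneSpectrum R := ⟨P, hPprime, hPbot⟩
  refine ⟨w, place_ext_of_le ?_⟩
  intro f hf
  rw [Place.ofHeightOneSpectrum_toValuationSubring, Valuation.mem_valuationSubring_iff] at hf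
  obtain ⟨n, d, hnd⟩ := w.exists_primeCompl_mul_eq_of_integer f hf
  have hdP : (d : R) ∉ P := d.2
  rw [hmemP, not_not] at hdP
  obtain ⟨u, hu⟩ := hdP
  have h2 : ((u : v.toValuationSubring) : F) = algebraMap R F d := by rw [hu]; rfl
  have h3 : ((u : v.toValuationSubring) : F) * ((u⁻¹ : (v.toValuationSubring)ˣ) : v.toValuationSubring) = 1 :=
    congrArg Subtype.val u.mul_inv
  have : f = algebraMap R F n * ((u⁻¹ : (v.toValuationSubring)ˣ) : v.toValuationSubring) := by
    rw [← hnd, ← h2, mul_assoc, h3, mul_one]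
  rw [this]
  exact mul_mem (hR n) (Subtype.mem _)

end Fermat.Agent.S24
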