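import Fermat.Agent.S24.ADefs

set_option autoImplicit false

/-! # S24 task B-TInf : `q^{1/N}`-expansion of `N`-periodic functions meromorphic at `i∞` -/

open UpperHalfPlane ModularForm EisensteinSeries CongruenceSubgroup
open scoped MatrixGroups Manifold

namespace Fermat.Agent.S24

theorem IsBd.mul {N : ℕ} {f g : ℍ → ℂ} (hf : IsBd N f) (hg : IsBd N g) : IsBd N (f * g) :=
  ⟨hf.1.mul hg.1, hf.2.1.mul hg.2.1, hf.2.2.mul hg.2.2⟩

theorem IsBd.add {N : ℕ} {f g : ℍ → ℂ} (hf : IsBd N f) (hg : IsBd N g) : IsBd N (f + g) :=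
  ⟨hf.1.add hg.1, hf.2.1.add hg.2.1, hf.2.2.add hg.2.2⟩

theorem isBd_const (N : ℕ) (c : ℂ) : IsBd N (fun _ => c) :=
  ⟨fun _ => rfl, mdifferentiable_const, Filter.const_boundedAtFilter _ c⟩

theorem isBd_one (N : ℕ) : IsBd N 1 := isBd_const N 1

theorem isBd_zero (N : ℕ) : IsBd N 0 := isBd_const N 0

theorem IsBd.neg {N : ℕ} {f : ℍ → ℂ} (hf : IsBd N f) : IsBd N (-f) := by
  have := (isBd_const N (-1)).mul hf
  convert this using 1
  funext z
  simp

theorem isBd_discriminant (N : ℕ) : IsBd N discriminant := by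
  refine ⟨?_, (CuspForm.discriminant).holo', ModularFormClass.bdd_at_infty CuspForm.discriminant⟩
  have h1 : Function.Periodic (discriminant ∘ ofComplex) ((1 : ℝ) : ℂ) :=
    SlashInvariantFormClass.periodic_comp_ofComplex CuspForm.discriminant one_mem_strictPeriods_SL
  have := h1.nat_mul N
  simpa using this

theorem IsBd.pow {N : ℕ} {f : ℍ → ℂ} (hf : IsBd N f) (m : ℕ) : IsBd N (f ^ m) := by
  induction m with
  | zero => simpa using isBd_one N
  | succ m ih => rw [pow_succ]; exact ih.mul hf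

theorem IsBd.mul_discriminant_pow {N : ℕ} {f : ℍ → ℂ} {m : ℕ} (hf : IsBd N (f * discriminant ^ m))
    (n : ℕ) : IsBd N (f * discriminant ^ (m + n)) := by
  rw [pow_add, ← mul_assoc]
  exact hf.mul ((isBd_discriminant N).pow n)

theorem IsPer.mul {N : ℕ} {f g : ℍ → ℂ} (hf : IsPer N f) (hg : IsPer N g) : IsPer N (f * g) := by
  obtain ⟨m, hm⟩ := hf
  obtain ⟨n, hn⟩ := hg
  refine ⟨m + n, ?_⟩
  have := hm.mul hn
  convert this using 1
  rw [pow_add]; ring

theorem IsPer.add {N : ℕ} {f g : ℍ → ℂ} (hf : IsPer N f) (hg : IsPer N g) : IsPer N (f + g) := by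
  obtain ⟨m, hm⟩ := hf
  obtain ⟨n, hn⟩ := hg
  refine ⟨m + n, ?_⟩
  have := (hm.mul ((isBd_discriminant N).pow n)).add (hn.mul ((isBd_discriminant N).pow m))
  convert this using 1
  rw [pow_add]; ring

theorem IsPer.neg {N : ℕ} {f : ℍ → ℂ} (hf : IsPer N f) : IsPer N (-f) := by
  obtain ⟨m, hm⟩ := hf
  refine ⟨m, ?_⟩
  rw [neg_mul]
  exact hm.neg

/-- the ring of holomorphic `N`-periodic functions which are meromorphic at `i∞`. -/
def perSub (N : ℕ) : Subring (ℍ → ℂ) where
  carrier := {f | IsPer N f}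
  mul_mem' := IsPer.mul
  add_mem' := IsPer.add
  one_mem' := ⟨0, by simpa using isBd_one N⟩
  zero_mem' := ⟨0, by simpa using isBd_zero N⟩
  neg_mem' := IsPer.neg

theorem mem_perSub {N : ℕ} {f : ℍ → ℂ} : f ∈ perSub N ↔ IsPer N f := Iff.rfl

theorem IsBd.isPer {N : ℕ} {f : ℍ → ℂ} (hf : IsBd N f) : IsPer N f := ⟨0, by simpa using hf⟩

theorem IsPer.mdiff {N : ℕ} {f : ℍ → ℂ} (hf : IsPer N f) : MDiff f := by
  obtain ⟨m, hm⟩ := hf
  have h1 := UpperHalfPlane.mdifferentiable_iff.mp hm.2.1
  have h2 := UpperHalfPlane.mdifferentiable_iff.mp ((isBd_discriminant N).pow m).2.1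
  rw [UpperHalfPlane.mdifferentiable_iff]
  have h3 : DifferentiableOn ℂ
      (fun z => ((f * discriminant ^ m) ∘ ofComplex) z / ((discriminant ^ m) ∘ ofComplex) z)
      {z | 0 < z.im} := by
    refine h1.div h2 ?_
    intro z _
    simp only [Function.comp_apply, Pi.pow_apply]
    exact pow_ne_zero _ (discriminant_ne_zero _)
  refine h3.congr ?_
  intro z _
  simp only [Function.comp_apply, Pi.pow_apply, Pi.mul_apply]
  rw [mul_div_assoc, div_self (pow_ne_zero _ (discriminant_ne_zero _)), mul_one]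

theorem IsPer.periodic {N : ℕ} {f : ℍ → ℂ} (hf : IsPer N f) :
    Function.Periodic (f ∘ ofComplex) ((N : ℝ) : ℂ) := by
  obtain ⟨m, hm⟩ := hf
  intro z
  have h1 := hm.1 z
  have h2 := (isBd_discriminant N).1 z
  simp only [Function.comp_apply, Pi.pow_apply, Pi.mul_apply] at h1 h2 ⊢
  rw [h2] at h1
  exact mul_right_cancel₀ (pow_ne_zero _ (discriminant_ne_zero _)) h1

theorem IsBd.analyticAt {N : ℕ} [NeZero N] {f : ℍ → ℂ} (hf : IsBd N f) :
    AnalyticAt ℂ (cuspFunction N f) 0 :=
  analyticAt_cuspFunction_zero (by exact_mod_cast Nat.pos_of_ne_zero (NeZero.ne N))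
    hf.1 hf.2.1 hf.2.2

/-- expansion of a bounded function -/
noncomputable def tinfE (N : ℕ) (f : ℍ → ℂ) : LaurentSeries ℂ :=
  HahnSeries.ofPowerSeries ℤ ℂ (qExpansion N f)

theorem tinfE_mul {N : ℕ} [NeZero N] {f g : ℍ → ℂ} (hf : IsBd N f) (hg : IsBd N g) :
    tinfE N (f * g) = tinfE N f * tinfE N g := by
  rw [tinfE, tinfE, tinfE, qExpansion_mul hf.analyticAt hg.analyticAt, map_mul]

theorem tinfE_add {N : ℕ} [NeZero N] {f g : ℍ → ℂ} (hf : IsBd N f) (hg : IsBd N g) :
    tinfE N (f + g) = tinfE N f + tinfE N g := by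
  rw [tinfE, tinfE, tinfE, qExpansion_add hf.analyticAt hg.analyticAt, map_add]

theorem tinfE_eq_zero_iff {N : ℕ} [NeZero N] {f : ℍ → ℂ} (hf : IsBd N f) :
    tinfE N f = 0 ↔ f = 0 := by
  rw [tinfE, map_eq_zero_iff _ HahnSeries.ofPowerSeries_injective]
  exact qExpansion_eq_zero_iff (by exact_mod_cast Nat.pos_of_ne_zero (NeZero.ne N))
    hf.1 hf.2.1 hf.2.2

theorem tinfE_pow {N : ℕ} [NeZero N] {f : ℍ → ℂ} (hf : IsBd N f) (m : ℕ) :
    tinfE N (f ^ m) = tinfE N f ^ m := by
  induction m with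
  | zero =>
    rw [pow_zero, pow_zero, tinfE, qExpansion_one, map_one]
  | succ m ih => rw [pow_succ, pow_succ, tinfE_mul (hf.pow m) hf, ih]

theorem tinfE_discriminant_ne_zero (N : ℕ) [NeZero N] : tinfE N discriminant ≠ 0 := by
  rw [Ne, tinfE_eq_zero_iff (isBd_discriminant N)]
  intro h
  exact discriminant_ne_zero I (congrFun h I)

/-- the value of the expansion computed with the exponent `m` -/
noncomputable def tinfV (N : ℕ) (f : ℍ → ℂ) (m : ℕ) : LaurentSeries ℂ :=
  tinfE N (f * discriminant ^ m) * ((tinfE N discriminant)⁻¹) ^ m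

theorem tinfV_eq {N : ℕ} [NeZero N] {f : ℍ → ℂ} {m n : ℕ} (hm : IsBd N (f * discriminant ^ m))
    (hn : IsBd N (f * discriminant ^ n)) : tinfV N f m = tinfV N f n := by
  have hD := tinfE_discriminant_ne_zero N
  have h1 : tinfE N (f * discriminant ^ m) * tinfE N discriminant ^ n =
      tinfE N (f * discriminant ^ n) * tinfE N discriminant ^ m := by
    rw [← tinfE_pow (isBd_discriminant N), ← tinfE_pow (isBd_discriminant N),
      ← tinfE_mul hm ((isBd_discriminant N).pow n), ← tinfE_mul hn ((isBd_discriminant N).pow m)]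
    congr 1
    ring
  rw [tinfV, tinfV, inv_pow, inv_pow, ← div_eq_mul_inv, ← div_eq_mul_inv,
    div_eq_div_iff (pow_ne_zero _ hD) (pow_ne_zero _ hD)]
  exact h1

/-- the expansion -/
noncomputable def tinfT (N : ℕ) (f : perSub N) : LaurentSeries ℂ :=
  tinfV N f.1 (Classical.choose f.2)

theorem tinfT_eq {N : ℕ} [NeZero N] (f : perSub N) {m : ℕ} (hm : IsBd N (f.1 * discriminant ^ m)) :
    tinfT N f = tinfV N f.1 m :=
  tinfV_eq (Classical.choose_spec f.2) hm

theorem exists_TInf (N : ℕ) [NeZero N] : ∃ T : perSub N →+* LaurentSeries ℂ,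
    Function.Injective T ∧
    ∀ f : perSub N, IsBd N f.1 → T f = HahnSeries.ofPowerSeries ℤ ℂ (qExpansion N f.1) := by
  have hD := tinfE_discriminant_ne_zero N
  have hbd : ∀ f : perSub N, IsBd N f.1 → tinfT N f = tinfE N f.1 := by
    intro f hf
    rw [tinfT_eq f (m := 0) (by simpa using hf), tinfV]
    simp
  let T : perSub N →+* LaurentSeries ℂ :=
    { toFun := tinfT N
      map_one' := by
        rw [hbd 1 (isBd_one N)]
        show tinfE N 1 = 1
        rw [tinfE, qExpansion_one, map_one]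
      map_zero' := by
        rw [hbd 0 (isBd_zero N)]
        show tinfE N 0 = 0
        rw [tinfE, qExpansion_zero, map_zero]
      map_mul' := by
        intro f g
        obtain ⟨m, hm⟩ := f.2
        obtain ⟨n, hn⟩ := g.2
        have hmn : IsBd N ((f * g : perSub N).1 * discriminant ^ (m + n)) := by
          have := hm.mul hn
          convert this using 1
          show f.1 * g.1 * discriminant ^ (m + n) = _
          rw [pow_add]; ring
        rw [tinfT_eq f hm, tinfT_eq g hn, tinfT_eq _ hmn, tinfV, tinfV, tinfV]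
        have : (f * g : perSub N).1 * discriminant ^ (m + n) =
            (f.1 * discriminant ^ m) * (g.1 * discriminant ^ n) := by
          show f.1 * g.1 * discriminant ^ (m + n) = _
          rw [pow_add]; ring
        rw [this, tinfE_mul hm hn, pow_add]
        ring
      map_add' := by
        intro f g
        obtain ⟨m, hm⟩ := f.2
        obtain ⟨n, hn⟩ := g.2
        have hm' : IsBd N (f.1 * discriminant ^ (m + n)) := hm.mul_discriminant_pow n
        have hn' : IsBd N (g.1 * discriminant ^ (m + n)) := by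
          rw [add_comm]; exact hn.mul_discriminant_pow m
        have hmn : IsBd N ((f + g : perSub N).1 * discriminant ^ (m + n)) := by
          have := hm'.add hn'
          convert this using 1
          show (f.1 + g.1) * discriminant ^ (m + n) = _
          ring
        rw [tinfT_eq f hm', tinfT_eq g hn', tinfT_eq _ hmn, tinfV, tinfV, tinfV]
        have : (f + g : perSub N).1 * discriminant ^ (m + n) =
            (f.1 * discriminant ^ (m + n)) + (g.1 * discriminant ^ (m + n)) := by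
          show (f.1 + g.1) * discriminant ^ (m + n) = _
          ring
        rw [this, tinfE_add hm' hn']
        ring }
  refine ⟨T, ?_, fun f hf => hbd f hf⟩
  rw [injective_iff_map_eq_zero]
  intro f hf
  obtain ⟨m, hm⟩ := f.2
  have h1 : tinfV N f.1 m = 0 := by
    rw [← tinfT_eq f hm]; exact hf
  rw [tinfV, mul_eq_zero] at h1
  rcases h1 with h1 | h1
  · rw [tinfE_eq_zero_iff hm] at h1
    apply Subtype.ext
    funext z
    have := congrFun h1 z
    simp only [Pi.mul_apply, Pi.pow_apply, Pi.zero_apply, mul_eq_zero] at this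
    rcases this with h | h
    · exact h
    · exact absurd h (pow_ne_zero _ (discriminant_ne_zero _))
  · exact absurd h1 (pow_ne_zero _ (inv_ne_zero hD))

/-- the `q^{1/N}`-expansion. -/
noncomputable def TInf (N : ℕ) [NeZero N] : perSub N →+* LaurentSeries ℂ := (exists_TInf N).choose

theorem TInf_injective (N : ℕ) [NeZero N] : Function.Injective (TInf N) :=
  (exists_TInf N).choose_spec.1

theorem TInf_of_isBd (N : ℕ) [NeZero N] (f : perSub N) (hf : IsBd N f.1) :
    TInf N f = HahnSeries.ofPowerSeries ℤ ℂ (qExpansion N f.1) :=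
  (exists_TInf N).choose_spec.2 f hf

theorem TInf_const (N : ℕ) [NeZero N] (c : ℂ) (h : (fun _ : ℍ => c) ∈ perSub N) :
    TInf N ⟨fun _ => c, h⟩ = HahnSeries.C c := by
  rw [TInf_of_isBd N _ (isBd_const N c)]
  have h1 : (fun _ : ℍ => c) = c • (1 : ℍ → ℂ) := by
    ext τ; simp
  have h2 : IsBd N (1 : ℍ → ℂ) := isBd_const N 1
  show HahnSeries.ofPowerSeries ℤ ℂ (qExpansion N (fun _ : ℍ => c)) = _
  rw [h1, qExpansion_smul h2.analyticAt, qExpansion_one]
  rw [← HahnSeries.ofPowerSeries_C]
  congr 1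
  ext n
  simp [PowerSeries.coeff_C, PowerSeries.coeff_one]

end Fermat.Agent.S24
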