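import Fermat.Agent.S24.Twist
import Fermat.Agent.S24.TInf

set_option autoImplicit false

/-! # S24 task B-ExpandA : `q^{1/N}`-expansion of `f ((a z + b)/δ)` and of translates -/

open UpperHalfPlane ModularForm EisensteinSeries CongruenceSubgroup
open scoped MatrixGroups Manifold

namespace Fermat.Agent.S24

theorem expA_im (a b δ : ℕ) (z : ℂ) :
    ((((a : ℂ) * z + b) / δ)).im = a * z.im / δ := by
  rw [Complex.div_natCast_im]
  simp

theorem expA_im_pos {a δ : ℕ} (b : ℕ) (ha : 0 < a) (hδ : 0 < δ) {z : ℂ} (hz : 0 < z.im) :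
    0 < ((((a : ℂ) * z + b) / δ)).im := by
  rw [expA_im]; positivity

theorem expA_periodic_one {f : ℍ → ℂ} (hf : IsBd 1 f) :
    Function.Periodic (f ∘ ofComplex) (1 : ℂ) := by
  simpa using hf.1

theorem expA_pre_ofComplex (a b δ : ℕ) (f : ℍ → ℂ) {z : ℂ} (hz : 0 < z.im) :
    (pre a b δ f ∘ ofComplex) z = (f ∘ ofComplex) (((a : ℂ) * z + b) / δ) := by
  simp only [Function.comp_apply, pre, ofComplex_apply_of_im_pos hz]

theorem isBd_pre {f : ℍ → ℂ} (hf : IsBd 1 f) {N a b δ : ℕ} (ha : 0 < a) (hδ : 0 < δ)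
    (hδN : δ ∣ N) : IsBd N (pre a b δ f) := by
  refine ⟨?_, ?_, ?_⟩
  · intro z
    by_cases hz : 0 < z.im
    · have hz' : 0 < (z + ((N : ℝ) : ℂ)).im := by simpa using hz
      rw [expA_pre_ofComplex a b δ f hz, expA_pre_ofComplex a b δ f hz']
      obtain ⟨k, rfl⟩ := hδN
      have h := (expA_periodic_one hf).nat_mul (a * k) (((a : ℂ) * z + b) / δ)
      rw [← h]
      congr 1
      have : (δ : ℂ) ≠ 0 := by exact_mod_cast hδ.ne'
      push_cast
      field_simp
      ring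
    · have hz1 : z.im ≤ 0 := not_lt.mp hz
      have hz' : (z + ((N : ℝ) : ℂ)).im ≤ 0 := by simpa using hz1
      simp only [Function.comp_apply]
      rw [ofComplex_apply_of_im_nonpos hz1, ofComplex_apply_of_im_nonpos hz']
  · have h1 := UpperHalfPlane.mdifferentiable_iff.mp hf.2.1
    rw [UpperHalfPlane.mdifferentiable_iff]
    have h2 : DifferentiableOn ℂ ((f ∘ ofComplex) ∘ (fun z : ℂ => ((a : ℂ) * z + b) / δ))
        {z | 0 < z.im} :=
      h1.comp (by fun_prop) (fun z hz => expA_im_pos b ha hδ hz)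
    exact h2.congr (fun z hz => expA_pre_ofComplex a b δ f hz)
  · obtain ⟨M, A, h⟩ := isBoundedAtImInfty_iff.mp hf.2.2
    rw [isBoundedAtImInfty_iff]
    refine ⟨M, A * δ / a, fun z hz => ?_⟩
    apply h
    rw [ofComplex_apply_of_im_pos (expA_im_pos b ha hδ z.im_pos)]
    show A ≤ (((a : ℂ) * z + b) / δ).im
    rw [expA_im]
    have ha' : (0 : ℝ) < a := by exact_mod_cast ha
    have hδ' : (0 : ℝ) < δ := by exact_mod_cast hδ
    rw [div_le_iff₀ ha'] at hz
    rw [le_div_iff₀ hδ']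
    have : (z : ℂ).im = z.im := rfl
    rw [this]
    linarith

theorem expA_qParam {N a δ : ℕ} (b : ℕ) (hN : 0 < N) (hδ : 0 < δ) (hδN : δ ∣ N) (z : ℂ) :
    Function.Periodic.qParam 1 (((a : ℂ) * z + b) / δ) =
      (rootU δ b : ℂ) * Function.Periodic.qParam N z ^ (a * (N / δ)) := by
  obtain ⟨k, rfl⟩ := hδN
  have hk : 0 < k := Nat.pos_of_mul_pos_left hN |> fun h => by
    rcases Nat.eq_zero_or_pos k with rfl | h'
    · simp at hN
    · exact h'
  rw [Nat.mul_div_cancel_left _ hδ]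
  simp only [Function.Periodic.qParam, rootU, Units.val_mk0]
  rw [← Complex.exp_nat_mul, ← Complex.exp_add]
  congr 1
  have h1 : (δ : ℂ) ≠ 0 := by exact_mod_cast hδ.ne'
  have h2 : (k : ℂ) ≠ 0 := by exact_mod_cast hk.ne'
  push_cast
  field_simp
  ring

theorem expA_hasSum_pre {f : ℍ → ℂ} (hf : IsBd 1 f) {N a b δ : ℕ} (hN : 0 < N) (ha : 0 < a)
    (hδ : 0 < δ) (hδN : δ ∣ N) (τ : ℍ) :
    HasSum (fun m : ℕ => (if a * (N / δ) ∣ m then
        (rootU δ b : ℂ) ^ (m / (a * (N / δ))) * (qExpansion 1 f).coeff (m / (a * (N / δ)))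
        else 0) • Function.Periodic.qParam N τ ^ m) (pre a b δ f τ) := by
  have hk : 0 < a * (N / δ) := Nat.mul_pos ha (Nat.div_pos (Nat.le_of_dvd hN hδN) hδ)
  set k := a * (N / δ) with hkdef
  have hw := expA_im_pos b ha hδ τ.im_pos
  have h := hasSum_qExpansion (h := 1) one_pos (by simpa using hf.1) hf.2.1 hf.2.2
    (ofComplex (((a : ℂ) * τ + b) / δ))
  rw [ofComplex_apply_of_im_pos hw] at h
  have hq : Function.Periodic.qParam 1 ((⟨((a : ℂ) * τ + b) / δ, hw⟩ : ℍ) : ℂ) =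
      (rootU δ b : ℂ) * Function.Periodic.qParam N τ ^ k := expA_qParam b hN hδ hδN τ
  rw [hq] at h
  have hval : pre a b δ f τ = f ⟨((a : ℂ) * τ + b) / δ, hw⟩ := by
    rw [pre, ofComplex_apply_of_im_pos hw]
  rw [hval]
  have hinj : Function.Injective (fun n : ℕ => k * n) := fun x y hxy =>
    Nat.eq_of_mul_eq_mul_left hk hxy
  refine (Function.Injective.hasSum_iff hinj ?_).mp ?_
  · intro m hm
    have : ¬ k ∣ m := fun ⟨j, hj⟩ => hm ⟨j, hj.symm⟩
    simp [this]
  · convert h using 1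
    funext n
    simp only [Function.comp_apply, dvd_mul_right, if_true, Nat.mul_div_cancel_left _ hk,
      smul_eq_mul]
    rw [mul_pow, ← pow_mul]
    ring

theorem expA_unique {N : ℕ} [NeZero N] {g : ℍ → ℂ} (hg : IsBd N g) {c : ℕ → ℂ}
    (h : ∀ τ : ℍ, HasSum (fun m : ℕ => c m • Function.Periodic.qParam N τ ^ m) (g τ)) (m : ℕ) :
    (qExpansion N g).coeff m = c m := by
  have hN' : (0 : ℝ) < (N : ℝ) := by exact_mod_cast Nat.pos_of_ne_zero (NeZero.ne N)
  exact (UpperHalfPlane.qExpansion_coeff_unique (ContinuousMap.mk g hg.2.1.continuous) hN'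
    hg.analyticAt h m).symm

theorem qExpansion_pre {f : ℍ → ℂ} (hf : IsBd 1 f) {N a b δ : ℕ} [NeZero N] (ha : 0 < a)
    (hδ : 0 < δ) (hδN : δ ∣ N) [NeZero (a * (N / δ))] :
    HahnSeries.ofPowerSeries ℤ ℂ (qExpansion N (pre a b δ f)) =
      ModularCurve.qExpand ℂ (a * (N / δ))
        (twist (rootU δ b) (HahnSeries.ofPowerSeries ℤ ℂ (qExpansion 1 f))) := by
  have hN : 0 < N := Nat.pos_of_ne_zero (NeZero.ne N)
  have hk : 0 < a * (N / δ) := Nat.pos_of_ne_zero (NeZero.ne _)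
  have hbd : IsBd N (pre a b δ f) := isBd_pre hf ha hδ hδN
  have hc := expA_unique hbd (expA_hasSum_pre hf hN ha hδ hδN)
  ext n
  rw [PowerSeries.coeff_coe]
  by_cases hkn : ((a * (N / δ) : ℕ) : ℤ) ∣ n
  · obtain ⟨j, rfl⟩ := hkn
    rw [ModularCurve.qExpand_coeff_mul, twist_coeff, PowerSeries.coeff_coe]
    have hk' : (0 : ℤ) < ((a * (N / δ) : ℕ) : ℤ) := by exact_mod_cast hk
    by_cases hj : j < 0
    · rw [if_pos hj, if_pos (mul_neg_of_pos_of_neg hk' hj), mul_zero]
    · rw [if_neg hj, if_neg (by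
        have : 0 ≤ j := not_lt.mp hj
        have := mul_nonneg hk'.le this
        omega), hc]
      obtain ⟨i, rfl⟩ := Int.eq_ofNat_of_zero_le (not_lt.mp hj)
      have h1 : (((a * (N / δ) : ℕ) : ℤ) * (i : ℤ)).natAbs = a * (N / δ) * i := by
        rw [← Nat.cast_mul, Int.natAbs_natCast]
      rw [h1, if_pos (dvd_mul_right _ _), Nat.mul_div_cancel_left _ hk, Int.natAbs_natCast,
        zpow_natCast]
  · rw [ModularCurve.qExpand_coeff_of_not_dvd _ _ hkn]
    split_ifs with h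
    · rfl
    · rw [hc, if_neg]
      intro hd
      apply hkn
      have : (n.natAbs : ℤ) = n := Int.natAbs_of_nonneg (not_lt.mp h)
      rw [← this]
      exact_mod_cast hd

theorem expA_coe_T_inv_smul (z : ℍ) : ((ModularGroup.T⁻¹ • z : ℍ) : ℂ) = z - 1 := by
  have := ModularGroup.coe_T_zpow_smul_eq z (n := -1)
  simpa [zpow_neg_one, sub_eq_add_neg] using this

theorem expA_act_T_apply (f : ℍ → ℂ) (z : ℍ) :
    act ModularGroup.T f z = (f ∘ ofComplex) ((z : ℂ) - 1) := by
  rw [act_apply, Function.comp_apply, ← expA_coe_T_inv_smul, ofComplex_apply]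

theorem expA_act_T_ofComplex (f : ℍ → ℂ) {z : ℂ} (hz : 0 < z.im) :
    (act ModularGroup.T f ∘ ofComplex) z = (f ∘ ofComplex) (z - 1) := by
  rw [Function.comp_apply, expA_act_T_apply, ofComplex_apply_of_im_pos hz]

theorem expA_isBd_act_T {N : ℕ} {f : ℍ → ℂ} (hf : IsBd N f) : IsBd N (act ModularGroup.T f) := by
  refine ⟨?_, ?_, ?_⟩
  · intro z
    by_cases hz : 0 < z.im
    · have hz' : 0 < (z + ((N : ℝ) : ℂ)).im := by simpa using hz
      rw [expA_act_T_ofComplex f hz, expA_act_T_ofComplex f hz', ← hf.1 (z - 1)]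
      congr 1
      ring
    · have hz1 : z.im ≤ 0 := not_lt.mp hz
      have hz' : (z + ((N : ℝ) : ℂ)).im ≤ 0 := by simpa using hz1
      simp only [Function.comp_apply]
      rw [ofComplex_apply_of_im_nonpos hz1, ofComplex_apply_of_im_nonpos hz']
  · have h1 := UpperHalfPlane.mdifferentiable_iff.mp hf.2.1
    rw [UpperHalfPlane.mdifferentiable_iff]
    have h2 : DifferentiableOn ℂ ((f ∘ ofComplex) ∘ (fun z : ℂ => z - 1)) {z | 0 < z.im} :=
      h1.comp (by fun_prop) (fun z hz => by simpa using hz)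
    exact h2.congr (fun z hz => expA_act_T_ofComplex f hz)
  · obtain ⟨M, A, h⟩ := isBoundedAtImInfty_iff.mp hf.2.2
    rw [isBoundedAtImInfty_iff]
    refine ⟨M, A, fun z hz => ?_⟩
    rw [act_apply]
    apply h
    have : (ModularGroup.T⁻¹ • z : ℍ).im = z.im := by
      show ((ModularGroup.T⁻¹ • z : ℍ) : ℂ).im = (z : ℂ).im
      rw [expA_coe_T_inv_smul]
      simp
    rw [this]
    exact hz

theorem expA_act_T_discriminant : act ModularGroup.T discriminant = discriminant := by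
  funext z
  rw [expA_act_T_apply]
  have h := (isBd_discriminant 1).1 ((z : ℂ) - 1)
  rw [← h]
  simp

/-- translation by `T`. -/
theorem act_T_mem_perSub {N : ℕ} {f : ℍ → ℂ} (hf : f ∈ perSub N) :
    act ModularGroup.T f ∈ perSub N := by
  obtain ⟨m, hm⟩ := hf
  refine ⟨m, ?_⟩
  have := expA_isBd_act_T hm
  rwa [map_mul, map_pow, expA_act_T_discriminant] at this

theorem expA_qParam_sub_one {N : ℕ} (z : ℂ) :
    Function.Periodic.qParam N (z - 1) =
      (rootU N (-1) : ℂ) * Function.Periodic.qParam N z := by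
  simp only [Function.Periodic.qParam, rootU, Units.val_mk0]
  rw [← Complex.exp_add]
  congr 1
  push_cast
  ring

theorem expA_hasSum_act_T {N : ℕ} [NeZero N] {f : ℍ → ℂ} (hf : IsBd N f) (τ : ℍ) :
    HasSum (fun m : ℕ => ((rootU N (-1) : ℂ) ^ m * (qExpansion N f).coeff m) •
      Function.Periodic.qParam N τ ^ m) (act ModularGroup.T f τ) := by
  have hN' : (0 : ℝ) < (N : ℝ) := by exact_mod_cast Nat.pos_of_ne_zero (NeZero.ne N)
  have h := hasSum_qExpansion hN' hf.1 hf.2.1 hf.2.2 (ModularGroup.T⁻¹ • τ)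
  rw [expA_coe_T_inv_smul, expA_qParam_sub_one] at h
  rw [act_apply]
  convert h using 1
  funext n
  simp only [smul_eq_mul]
  rw [mul_pow]
  ring

theorem expA_qExpansion_act_T {N : ℕ} [NeZero N] {f : ℍ → ℂ} (hf : IsBd N f) :
    HahnSeries.ofPowerSeries ℤ ℂ (qExpansion N (act ModularGroup.T f)) =
      twist (rootU N (-1)) (HahnSeries.ofPowerSeries ℤ ℂ (qExpansion N f)) := by
  have hc := expA_unique (expA_isBd_act_T hf) (expA_hasSum_act_T hf)
  ext n
  rw [twist_coeff, PowerSeries.coeff_coe, PowerSeries.coeff_coe]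
  split_ifs with h
  · rw [mul_zero]
  · rw [hc]
    obtain ⟨i, rfl⟩ := Int.eq_ofNat_of_zero_le (not_lt.mp h)
    rw [Int.natAbs_natCast, zpow_natCast]

theorem TInf_act_T (N : ℕ) [NeZero N] (f : perSub N) :
    TInf N ⟨act ModularGroup.T f.1, act_T_mem_perSub f.2⟩ = twist (rootU N (-1)) (TInf N f) := by
  obtain ⟨m, hm⟩ := f.2
  have hΔ : discriminant ∈ perSub N := (isBd_discriminant N).isPer
  obtain ⟨D, hD⟩ : ∃ D : perSub N, D.1 = discriminant := ⟨⟨discriminant, hΔ⟩, rfl⟩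
  have hDne : TInf N D ≠ 0 := by
    intro h
    have h0 : D = 0 := TInf_injective N (by rw [h, map_zero])
    have h3 : D.1 I = 0 := by rw [h0]; rfl
    rw [hD] at h3
    exact discriminant_ne_zero I h3
  -- bounded case
  have hb : ∀ g : perSub N, IsBd N g.1 →
      TInf N ⟨act ModularGroup.T g.1, act_T_mem_perSub g.2⟩ =
        twist (rootU N (-1)) (TInf N g) := by
    intro g hg
    rw [TInf_of_isBd N _ (expA_isBd_act_T hg), TInf_of_isBd N g hg]
    exact expA_qExpansion_act_T hg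
  have hDT : twist (rootU N (-1)) (TInf N D) = TInf N D := by
    rw [← hb D (by rw [hD]; exact isBd_discriminant N)]
    refine congrArg (TInf N) (Subtype.ext ?_)
    show act ModularGroup.T D.1 = D.1
    rw [hD, expA_act_T_discriminant]
  have e : ((f * D ^ m : perSub N) : ℍ → ℂ) = f.1 * discriminant ^ m := by
    rw [Subring.coe_mul, Subring.coe_pow, ← hD]
  have h1 := hb (f * D ^ m) (by rw [e]; exact hm)
  have h2 : (⟨act ModularGroup.T (f * D ^ m : perSub N).1, act_T_mem_perSub (f * D ^ m).2⟩ :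
      perSub N) = ⟨act ModularGroup.T f.1, act_T_mem_perSub f.2⟩ * D ^ m := by
    apply Subtype.ext
    have e2 : (((⟨act ModularGroup.T f.1, act_T_mem_perSub f.2⟩ : perSub N) * D ^ m : perSub N) :
        ℍ → ℂ) = act ModularGroup.T f.1 * discriminant ^ m := by
      rw [Subring.coe_mul, Subring.coe_pow, ← hD]
    rw [e2]
    show act ModularGroup.T ((f * D ^ m : perSub N) : ℍ → ℂ) = _
    rw [e, map_mul, map_pow, expA_act_T_discriminant]
  rw [h2, map_mul, map_mul, map_pow, map_mul, map_pow, hDT] at h1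
  exact mul_right_cancel₀ (pow_ne_zero m hDne) h1

end Fermat.Agent.S24
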