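import Fermat.Agent.S24.ADefs

set_option autoImplicit false

/-! # S24 task B-ExpandB : invariance of `j`, Hermite normal form for the conjugates of `j (d z)` -/

open UpperHalfPlane ModularForm EisensteinSeries CongruenceSubgroup
open scoped MatrixGroups Manifold

namespace Fermat.Agent.S24

theorem expandB_levelOne_smul {w : ℤ} (P : ModularForm 𝒮ℒ w) (g : SL(2, ℤ)) (z : ℍ) :
    P (g • z) = denom g z ^ w * P z := by
  have hg : (g : GL (Fin 2) ℝ) ∈ 𝒮ℒ := ⟨g, rfl⟩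
  exact SlashInvariantForm.slash_action_eqn'' P hg z

theorem expandB_discriminant_smul (g : SL(2, ℤ)) (z : ℍ) :
    ModularForm.discriminant (g • z) = denom g z ^ (12 : ℤ) * ModularForm.discriminant z := by
  have hg : (g : GL (Fin 2) ℝ) ∈ 𝒮ℒ := ⟨g, rfl⟩
  exact SlashInvariantForm.slash_action_eqn'' CuspForm.discriminant hg z

theorem jFun_smul (g : SL(2, ℤ)) (z : ℍ) : jFun (g • z) = jFun z := by
  unfold jFun
  rw [expandB_levelOne_smul E₄ g z, expandB_discriminant_smul g z]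
  have h1 : denom g z ≠ 0 := denom_ne_zero _ z
  have h2 : discriminant z ≠ 0 := discriminant_ne_zero z
  have e1 : denom g z ^ (4 : ℤ) = denom g z ^ 4 := by norm_cast
  have e2 : denom g z ^ (12 : ℤ) = denom g z ^ 12 := by norm_cast
  rw [e1, e2]
  field_simp

theorem act_jFun (g : SL(2, ℤ)) : act g jFun = jFun := by
  funext z
  rw [act_apply, jFun_smul]

theorem jd_one : jd 1 = jFun := by
  funext z
  simp [jd, pre]

/-- integer Hermite normal form -/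
theorem expandB_triangular_int (N : ℕ) (hN : N ≠ 0) (a b c d : ℤ) (hdet : a * d - b * c = 1) :
    ∃ (r s z x : ℤ) (A D : ℕ), r * x + s * z = 1 ∧ A * D = N ∧ 0 < A ∧ 0 < D ∧
      r * (N * a) + s * c = A ∧ -z * (N * a) + x * c = 0 ∧ -z * (N * b) + x * d = D ∧
      (D = 1 → (N : ℤ) ∣ c) := by
  set g : ℕ := Int.gcd (N * a) c with hg
  have hg0 : g ≠ 0 := by
    intro h0
    rw [hg, Int.gcd_eq_zero_iff] at h0
    obtain ⟨h1, h2⟩ := h0
    have hN' : (N : ℤ) ≠ 0 := by exact_mod_cast hN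
    have ha : a = 0 := by
      rcases mul_eq_zero.mp h1 with h | h
      · exact absurd h hN'
      · exact h
    rw [ha, h2] at hdet
    simp at hdet
  have hg0' : (g : ℤ) ≠ 0 := by exact_mod_cast hg0
  obtain ⟨x, hx⟩ : (g : ℤ) ∣ N * a := hg ▸ Int.gcd_dvd_left _ _
  obtain ⟨z, hz⟩ : (g : ℤ) ∣ c := hg ▸ Int.gcd_dvd_right _ _
  have hgN : (g : ℤ) ∣ N := by
    have : (N : ℤ) = (N * a) * d - N * b * c := by linear_combination -(N : ℤ) * hdet
    rw [this, hx, hz]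
    exact ⟨x * d - N * b * z, by ring⟩
  obtain ⟨D, hD⟩ : g ∣ N := by exact_mod_cast hgN
  have hD' : (N : ℤ) = g * D := by exact_mod_cast hD
  obtain ⟨r, s, hbez⟩ : ∃ r s : ℤ, (g : ℤ) = (N * a) * r + c * s :=
    ⟨_, _, hg ▸ Int.gcd_eq_gcd_ab _ _⟩
  have hrs : r * x + s * z = 1 := by
    have h1 : (g : ℤ) * (r * x + s * z) = g * 1 := by
      linear_combination (-r) * hx - s * hz - hbez
    exact mul_left_cancel₀ hg0' h1
  refine ⟨r, s, z, x, g, D, hrs, hD.symm, Nat.pos_of_ne_zero hg0, ?_, ?_, ?_, ?_, ?_⟩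
  · rcases Nat.eq_zero_or_pos D with rfl | h
    · exact absurd (by simpa using hD) hN
    · exact h
  · linear_combination -hbez
  · linear_combination (-z) * hx + x * hz
  · have h1 : (g : ℤ) * (-z * (N * b) + x * d) = g * D := by
      linear_combination (N : ℤ) * hdet - d * hx + (N : ℤ) * b * hz + hD'
    exact mul_left_cancel₀ hg0' h1
  · rintro rfl
    rw [hz, hD']
    exact ⟨z, by push_cast; ring⟩

theorem expandB_coe_smul (g : SL(2, ℤ)) (z : ℍ) :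
    ((g • z : ℍ) : ℂ) = ((g 0 0 : ℤ) * (z : ℂ) + (g 0 1 : ℤ)) / ((g 1 0 : ℤ) * (z : ℂ) + (g 1 1 : ℤ)) := by
  rw [coe_specialLinearGroup_apply]
  simp

theorem expandB_denom_ne (g : SL(2, ℤ)) (z : ℍ) :
    ((g 1 0 : ℤ) * (z : ℂ) + (g 1 1 : ℤ) : ℂ) ≠ 0 := by
  have := denom_ne_zero (g : GL (Fin 2) ℝ) z
  simpa [denom] using this

theorem expandB_jFun_eq_of_coe {w w' : ℍ} (γ : SL(2, ℤ))
    (h : (w' : ℂ) * ((γ 1 0 : ℤ) * (w : ℂ) + (γ 1 1 : ℤ)) = (γ 0 0 : ℤ) * (w : ℂ) + (γ 0 1 : ℤ)) :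
    jFun w' = jFun w := by
  rw [← jFun_smul γ w]
  congr 1
  apply UpperHalfPlane.ext
  rw [expandB_coe_smul, eq_div_iff (expandB_denom_ne γ w)]
  exact h

theorem expandB_im_pos (a b δ : ℕ) (ha : 0 < a) (hδ : 0 < δ) (z : ℍ) :
    0 < ((((a : ℂ) * z + b) / δ : ℂ)).im := by
  have h1 : ((((a : ℂ) * z + b) / δ : ℂ)).im = (a : ℝ) / δ * z.im := by
    have : (((a : ℂ) * z + b) / δ : ℂ) = (((a : ℝ) / δ : ℝ) : ℂ) * z + (((b : ℝ) / δ : ℝ) : ℂ) := by
      have hδ' : (δ : ℂ) ≠ 0 := by exact_mod_cast hδ.ne'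
      push_cast
      field_simp
    rw [this, Complex.add_im, Complex.im_ofReal_mul, Complex.ofReal_im, add_zero]
    rfl
  rw [h1]
  have := z.im_pos
  positivity

theorem expandB_coe_ofComplex (a b δ : ℕ) (ha : 0 < a) (hδ : 0 < δ) (z : ℍ) :
    ((ofComplex (((a : ℂ) * z + b) / δ) : ℍ) : ℂ) = ((a : ℂ) * z + b) / δ := by
  rw [ofComplex_apply_of_im_pos (expandB_im_pos a b δ ha hδ z)]

theorem expandB_jFun_add_int (w w' : ℍ) (k : ℤ) (h : (w' : ℂ) = w + k) : jFun w' = jFun w := by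
  rw [← jFun_smul (ModularGroup.T ^ k) w]
  congr 1
  apply UpperHalfPlane.ext
  rw [modular_T_zpow_smul, coe_vadd, h]
  push_cast
  ring

/-- Hermite normal form. -/
theorem act_jd_eq_pre (g : SL(2, ℤ)) {d : ℕ} (hd : 0 < d) :
    ∃ a b δ : ℕ, a * δ = d ∧ act g (jd d) = pre a b δ jFun ∧ (δ = 1 → g ∈ Gamma0 d) := by
  set h : SL(2, ℤ) := g⁻¹ with hh
  have hdet : h 0 0 * h 1 1 - h 0 1 * h 1 0 = 1 := by
    have := h.det_coe
    rwa [Matrix.det_fin_two] at this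
  obtain ⟨r, s, z', x, A, D, hrs, hAD, hA, hD, h1, h2, h3, h4⟩ :=
    expandB_triangular_int d hd.ne' _ _ _ _ hdet
  set B : ℤ := r * (d * h 0 1) + s * h 1 1 with hB
  have hDz : (0 : ℤ) < D := by exact_mod_cast hD
  obtain ⟨b, hb⟩ : ∃ b : ℕ, (b : ℤ) = B % D := by
    exact ⟨(B % D).toNat, Int.toNat_of_nonneg (Int.emod_nonneg _ hDz.ne')⟩
  set k : ℤ := B / D with hk
  have hBk : B = b + D * k := by
    rw [hb, hk]; exact (Int.emod_add_mul_ediv B D).symm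
  let γ : SL(2, ℤ) := ⟨!![r, s; -z', x], by rw [Matrix.det_fin_two_of]; linarith⟩
  refine ⟨A, b, D, hAD, ?_, ?_⟩
  · funext z
    rw [act_apply, ← hh]
    unfold jd pre
    set w' : ℍ := ofComplex (((d : ℂ) * ((h • z : ℍ) : ℂ) + (0 : ℕ)) / (1 : ℕ)) with hw'
    set w : ℍ := ofComplex (((A : ℂ) * z + b) / D) with hw
    have cw' : (w' : ℂ) = (d : ℂ) * ((h • z : ℍ) : ℂ) := by
      rw [hw', expandB_coe_ofComplex d 0 1 hd one_pos]
      simp
    have cw : (w : ℂ) = ((A : ℂ) * z + b) / D := expandB_coe_ofComplex A b D hA hD z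
    have hden := expandB_denom_ne h z
    have hDc : (D : ℂ) ≠ 0 := by exact_mod_cast hD.ne'
    rw [← jFun_smul γ w']
    apply expandB_jFun_add_int _ _ k
    rw [expandB_coe_smul, cw, cw', expandB_coe_smul]
    have g00 : γ 0 0 = r := rfl
    have g01 : γ 0 1 = s := rfl
    have g10 : γ 1 0 = -z' := rfl
    have g11 : γ 1 1 = x := rfl
    rw [g00, g01, g10, g11]
    have e1 : (r : ℂ) * (d * (h 0 0 : ℤ)) + s * (h 1 0 : ℤ) = A := by exact_mod_cast h1
    have e2 : -(z' : ℂ) * (d * (h 0 0 : ℤ)) + x * (h 1 0 : ℤ) = 0 := by exact_mod_cast h2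
    have e3 : -(z' : ℂ) * (d * (h 0 1 : ℤ)) + x * (h 1 1 : ℤ) = D := by exact_mod_cast h3
    have e4 : (r : ℂ) * (d * (h 0 1 : ℤ)) + s * (h 1 1 : ℤ) = b + D * k := by
      rw [hB] at hBk
      exact_mod_cast hBk
    set P : ℂ := (h 0 0 : ℤ) * (z : ℂ) + (h 0 1 : ℤ) with hP
    set Q : ℂ := (h 1 0 : ℤ) * (z : ℂ) + (h 1 1 : ℤ) with hQ
    have n1 : (r : ℂ) * (d * (P / Q)) + s = ((A : ℂ) * z + b + D * k) / Q := by
      rw [eq_div_iff hden]
      have : ((r : ℂ) * (d * (P / Q)) + s) * Q = r * (d * P) + s * Q := by field_simp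
      rw [this, hP, hQ]
      linear_combination (z : ℂ) * e1 + e4
    have n2 : ((-z' : ℤ) : ℂ) * (d * (P / Q)) + x = (D : ℂ) / Q := by
      rw [eq_div_iff hden]
      have : (((-z' : ℤ) : ℂ) * (d * (P / Q)) + x) * Q = -(z' : ℂ) * (d * P) + x * Q := by
        push_cast
        field_simp
      rw [this, hP, hQ]
      linear_combination (z : ℂ) * e2 + e3
    rw [n1, n2]
    field_simp
  · intro hD1
    have := h4 hD1
    rw [Gamma0_mem, ZMod.intCast_zmod_eq_zero_iff_dvd]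
    have e : h 1 0 = - g 1 0 := by
      rw [hh, Matrix.SpecialLinearGroup.SL2_inv_expl]
      rfl
    rw [e] at this
    exact (Int.dvd_neg).mp this

theorem act_jd_of_mem_Gamma0 {N d : ℕ} (hd : d ∣ N) (g : SL(2, ℤ)) (hg : g ∈ Gamma0 N) :
    act g (jd d) = jd d := by
  rcases Nat.eq_zero_or_pos d with rfl | hd0
  · funext z
    simp [jd, pre]
  set h : SL(2, ℤ) := g⁻¹ with hh
  have hdet : h 0 0 * h 1 1 - h 0 1 * h 1 0 = 1 := by
    have := h.det_coe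
    rwa [Matrix.det_fin_two] at this
  have hg' : (d : ℤ) ∣ h 1 0 := by
    rw [Gamma0_mem, ZMod.intCast_zmod_eq_zero_iff_dvd] at hg
    have e : h 1 0 = - g 1 0 := by
      rw [hh, Matrix.SpecialLinearGroup.SL2_inv_expl]
      rfl
    rw [e]
    exact (Int.dvd_neg).mpr (dvd_trans (by exact_mod_cast hd) hg)
  obtain ⟨r', hr'⟩ := hg'
  let γ : SL(2, ℤ) := ⟨!![h 0 0, d * h 0 1; r', h 1 1], by
    rw [Matrix.det_fin_two_of]; rw [hr'] at hdet; linarith⟩
  funext z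
  rw [act_apply, ← hh]
  unfold jd pre
  set w' : ℍ := ofComplex (((d : ℂ) * ((h • z : ℍ) : ℂ) + (0 : ℕ)) / (1 : ℕ)) with hw'
  set w : ℍ := ofComplex (((d : ℂ) * z + (0 : ℕ)) / (1 : ℕ)) with hw
  have cw' : (w' : ℂ) = (d : ℂ) * ((h • z : ℍ) : ℂ) := by
    rw [hw', expandB_coe_ofComplex d 0 1 hd0 one_pos]
    simp
  have cw : (w : ℂ) = (d : ℂ) * z := by
    rw [hw, expandB_coe_ofComplex d 0 1 hd0 one_pos]
    simp
  have hden := expandB_denom_ne h z
  apply expandB_jFun_eq_of_coe γ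
  have g00 : γ 0 0 = h 0 0 := rfl
  have g01 : γ 0 1 = d * h 0 1 := rfl
  have g10 : γ 1 0 = r' := rfl
  have g11 : γ 1 1 = h 1 1 := rfl
  rw [g00, g01, g10, g11, cw, cw', expandB_coe_smul]
  have e1 : ((h 1 0 : ℤ) : ℂ) = d * r' := by exact_mod_cast hr'
  rw [e1] at hden ⊢
  have e2 : (r' : ℂ) * ((d : ℂ) * z) + (h 1 1 : ℤ) = (d : ℂ) * r' * z + (h 1 1 : ℤ) := by ring
  rw [e2, mul_div_assoc', div_mul_cancel₀ _ hden]
  push_cast
  ring

end Fermat.Agent.S24
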