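import Fermat.Agent.S24.ExpandA
import Fermat.Agent.S24.ExpandB
import Fermat.Agent.S28.DeltaQExp

set_option autoImplicit false

/-! # S24 task B-ExpandC : expansions of the conjugates of `j (d z)`, consequences for `Btil` -/

open UpperHalfPlane ModularForm EisensteinSeries CongruenceSubgroup
open scoped MatrixGroups Manifold

namespace Fermat.Agent.S24

theorem expandC_im_pos {a δ : ℕ} (b : ℕ) (ha : 0 < a) (hδ : 0 < δ) (z : ℍ) :
    0 < ((((a : ℂ) * z + b) / δ : ℂ)).im := by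
  have h1 : ((((a : ℂ) * z + b) / δ : ℂ)).im = a * z.im / δ := by
    have : (((a : ℂ) * z + b) / δ : ℂ) = (((a : ℝ) * (z : ℂ) + (b : ℝ)) / (δ : ℝ) : ℂ) := by
      push_cast; ring
    rw [this, Complex.div_ofReal_im]
    simp
  rw [h1]
  have := z.im_pos
  positivity

theorem expandC_im {a δ : ℕ} (b : ℕ) (ha : 0 < a) (hδ : 0 < δ) (z : ℍ) :
    (ofComplex (((a : ℂ) * z + b) / δ)).im = a * z.im / δ := by
  rw [ofComplex_apply_of_im_pos (expandC_im_pos b ha hδ z)]
  show ((((a : ℂ) * z + b) / δ : ℂ)).im = a * z.im / δ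
  have : (((a : ℂ) * z + b) / δ : ℂ) = (((a : ℝ) * (z : ℂ) + (b : ℝ)) / (δ : ℝ) : ℂ) := by
    push_cast; ring
  rw [this, Complex.div_ofReal_im]
  simp

theorem expandC_tendsto {a δ : ℕ} (b : ℕ) (ha : 0 < a) (hδ : 0 < δ) :
    Filter.Tendsto (fun z : ℍ => ofComplex (((a : ℂ) * z + b) / δ)) atImInfty atImInfty := by
  rw [atImInfty, Filter.tendsto_comap_iff]
  have h : (im ∘ fun z : ℍ => ofComplex (((a : ℂ) * z + b) / δ)) =
      fun z : ℍ => ((a : ℝ) / δ) * z.im := by
    funext z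
    simp only [Function.comp_apply]
    rw [expandC_im b ha hδ z]; ring
  rw [h]
  refine Filter.Tendsto.const_mul_atTop (by positivity) Filter.tendsto_comap

theorem expandC_bdd {a δ : ℕ} (b : ℕ) (ha : 0 < a) (hδ : 0 < δ) :
    IsBoundedAtImInfty (fun z => discriminant z ^ a / pre a b δ discriminant z) := by
  have h1 := exp_isBigO_discriminant.comp_tendsto (expandC_tendsto b ha hδ)
  have h2 := (CuspFormClass.exp_decay_atImInfty (h := 1) CuspForm.discriminant one_pos
    one_mem_strictPeriods_SL).pow a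
  obtain ⟨C1, hC1⟩ := h1.bound
  obtain ⟨C2, hC2⟩ := h2.bound
  rw [IsBoundedAtImInfty, Filter.BoundedAtFilter]
  refine Asymptotics.IsBigO.of_bound (C2 * C1) ?_
  filter_upwards [hC1, hC2] with z h1z h2z
  simp only [Function.comp_apply, Pi.one_apply, norm_one, mul_one, norm_div, norm_pow,
    CuspForm.coe_discriminant, Real.norm_eq_abs, abs_of_pos (Real.exp_pos _)] at h1z h2z ⊢
  rw [expandC_im b ha hδ z] at h1z
  have hD : 0 < ‖pre a b δ discriminant z‖ := norm_pos_iff.mpr (discriminant_ne_zero _)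
  have hD0 : 0 < ‖discriminant z‖ ^ a := pow_pos (norm_pos_iff.mpr (discriminant_ne_zero _)) _
  have hE2 : 0 < Real.exp (-2 * Real.pi * z.im / 1) ^ a := pow_pos (Real.exp_pos _) _
  have hC2pos : 0 < C2 := by
    by_contra hneg
    push Not at hneg
    have := mul_nonpos_of_nonpos_of_nonneg hneg hE2.le
    linarith
  have hle : Real.exp (-2 * Real.pi * z.im / 1) ^ a ≤ Real.exp (-2 * Real.pi * (a * z.im / δ)) := by
    rw [← Real.exp_nat_mul]
    apply Real.exp_le_exp.mpr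
    have hy := z.im_pos
    have hδ1 : (1 : ℝ) ≤ δ := by exact_mod_cast hδ
    have h3 : (a : ℝ) * z.im / δ ≤ a * z.im := div_le_self (by positivity) hδ1
    have hpi := Real.pi_pos
    nlinarith
  rw [div_le_iff₀ hD]
  calc ‖discriminant z‖ ^ a ≤ C2 * Real.exp (-2 * Real.pi * z.im / 1) ^ a := h2z
    _ ≤ C2 * Real.exp (-2 * Real.pi * (a * z.im / δ)) := by gcongr
    _ ≤ C2 * (C1 * ‖discriminant (ofComplex (((a : ℂ) * z + b) / δ))‖) := by gcongr
    _ = C2 * C1 * ‖pre a b δ discriminant z‖ := by rw [mul_assoc]; rfl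

theorem expandC_isBd_E4 : IsBd 1 (E₄ : ℍ → ℂ) := by
  refine ⟨?_, E₄.holo', ModularFormClass.bdd_at_infty E₄⟩
  have h1 : Function.Periodic ((E₄ : ℍ → ℂ) ∘ ofComplex) ((1 : ℝ) : ℂ) :=
    SlashInvariantFormClass.periodic_comp_ofComplex E₄ one_mem_strictPeriods_SL
  simpa using h1

theorem expandC_isBd_quot {N a δ : ℕ} (b : ℕ) (ha : 0 < a) (hδ : 0 < δ) (hδN : δ ∣ N) :
    IsBd N (fun z => discriminant z ^ a / pre a b δ discriminant z) := by
  have hP : IsBd N (pre a b δ discriminant) := isBd_pre (isBd_discriminant 1) ha hδ hδN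
  have hD : IsBd N (discriminant ^ a) := (isBd_discriminant N).pow a
  refine ⟨?_, ?_, expandC_bdd b ha hδ⟩
  · exact hD.1.div hP.1
  · have h1 := UpperHalfPlane.mdifferentiable_iff.mp hD.2.1
    have h2 := UpperHalfPlane.mdifferentiable_iff.mp hP.2.1
    rw [UpperHalfPlane.mdifferentiable_iff]
    refine h1.div h2 ?_
    intro z _
    exact discriminant_ne_zero _

theorem expandC_pre_jFun_mul (a b δ : ℕ) :
    pre a b δ jFun * discriminant ^ a =
      pre a b δ E₄ ^ 3 * (fun z => discriminant z ^ a / pre a b δ discriminant z) := by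
  funext z
  simp only [Pi.mul_apply, Pi.pow_apply, pre, jFun]
  ring

theorem pre_jFun_mem_perSub {N a b δ : ℕ} [NeZero N] (ha : 0 < a) (hδ : 0 < δ) (hδN : δ ∣ N) :
    pre a b δ jFun ∈ perSub N := by
  refine ⟨a, ?_⟩
  rw [expandC_pre_jFun_mul]
  exact ((isBd_pre expandC_isBd_E4 ha hδ hδN).pow 3).mul (expandC_isBd_quot b ha hδ hδN)

/-- the formal identity `j * Δ = E₄ ^ 3`. -/
theorem expandC_jq_mul :
    ModularCurve.jqModC ℂ * HahnSeries.ofPowerSeries ℤ ℂ (qExpansion 1 discriminant) =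
      HahnSeries.ofPowerSeries ℤ ℂ (qExpansion 1 E₄) ^ 3 := by
  rw [Fermat.Agent.S28.qExpansion_discriminant, Fermat.Agent.S28.qExpansion_E4,
    ModularCurve.jqModC, ModularCurve.jNum, map_mul, map_mul, map_mul, map_pow, map_pow,
    HahnSeries.ofPowerSeries_X]
  have h1 : HahnSeries.ofPowerSeries ℤ ℂ
        (PowerSeries.map (Int.castRingHom ℂ) ModularCurve.dedekindEtaUnitInv) *
      HahnSeries.ofPowerSeries ℤ ℂ
        (PowerSeries.map (Int.castRingHom ℂ) ModularCurve.dedekindEtaUnit) = 1 := by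
    rw [← map_mul, ← map_mul, mul_comm, ModularCurve.dedekindEtaUnit_mul_inv, map_one, map_one]
  have h2 : (HahnSeries.single (-1 : ℤ) (1 : ℂ)) * HahnSeries.single (1 : ℤ) (1 : ℂ) = 1 := by
    rw [HahnSeries.single_mul_single]
    simp
  calc _ = (HahnSeries.single (-1 : ℤ) (1 : ℂ) * HahnSeries.single (1 : ℤ) (1 : ℂ)) *
        (HahnSeries.ofPowerSeries ℤ ℂ
          (PowerSeries.map (Int.castRingHom ℂ) ModularCurve.dedekindEtaUnitInv) *
        HahnSeries.ofPowerSeries ℤ ℂ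
          (PowerSeries.map (Int.castRingHom ℂ) ModularCurve.dedekindEtaUnit)) *
        HahnSeries.ofPowerSeries ℤ ℂ
          (PowerSeries.map (Int.castRingHom ℂ) ModularCurve.eisenstein4) ^ 3 := by ring
    _ = _ := by rw [h1, h2, one_mul, one_mul]

theorem TInf_pre_jFun {N a b δ : ℕ} [NeZero N] (ha : 0 < a) (hδ : 0 < δ) (hδN : δ ∣ N)
    [NeZero (a * (N / δ))] :
    TInf N ⟨pre a b δ jFun, pre_jFun_mem_perSub ha hδ hδN⟩ =
      ModularCurve.qExpand ℂ (a * (N / δ)) (twist (rootU δ b) (ModularCurve.jqModC ℂ)) := by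
  have hE : IsBd N (pre a b δ E₄) := isBd_pre expandC_isBd_E4 ha hδ hδN
  have hD : IsBd N (pre a b δ discriminant) := isBd_pre (isBd_discriminant 1) ha hδ hδN
  have hmul : (⟨pre a b δ jFun, pre_jFun_mem_perSub ha hδ hδN⟩ : perSub N) *
      ⟨pre a b δ discriminant, hD.isPer⟩ = ⟨pre a b δ E₄, hE.isPer⟩ ^ 3 := by
    apply Subtype.ext
    funext z
    show pre a b δ jFun z * pre a b δ discriminant z = pre a b δ E₄ z ^ 3
    simp only [pre, jFun]
    rw [div_mul_cancel₀ _ (discriminant_ne_zero _)]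
  have h1 := congrArg (TInf N) hmul
  rw [map_mul, map_pow, TInf_of_isBd N ⟨pre a b δ discriminant, hD.isPer⟩ hD,
    TInf_of_isBd N ⟨pre a b δ E₄, hE.isPer⟩ hE] at h1
  simp only at h1
  rw [qExpansion_pre (isBd_discriminant 1) ha hδ hδN, qExpansion_pre expandC_isBd_E4 ha hδ hδN,
    ← map_pow, ← map_pow, ← expandC_jq_mul, map_mul, map_mul] at h1
  refine mul_right_cancel₀ ?_ h1
  rw [← qExpansion_pre (isBd_discriminant 1) ha hδ hδN]
  intro h0
  have h2 := (tinfE_eq_zero_iff hD).mp h0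
  exact discriminant_ne_zero _ (congrFun h2 I)

theorem Btil_le_perSub (N : ℕ) [NeZero N] : Btil N ≤ perSub N := by
  rw [Btil, Subring.closure_le]
  rintro f (⟨c, rfl⟩ | ⟨g, d, hd, rfl⟩)
  · exact (isBd_const N (iotaK c)).isPer
  · have hN : 0 < N := Nat.pos_of_ne_zero (NeZero.ne N)
    have hd0 : 0 < d := Nat.pos_of_dvd_of_pos hd hN
    obtain ⟨a, b, δ, hab, h, -⟩ := act_jd_eq_pre g hd0
    have ha : 0 < a := Nat.pos_of_ne_zero (by rintro rfl; simp at hab; omega)
    have hδ : 0 < δ := Nat.pos_of_ne_zero (by rintro rfl; simp at hab; omega)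
    show act g (jd d) ∈ perSub N
    rw [h]
    exact pre_jFun_mem_perSub ha hδ ((Dvd.intro_left a hab).trans hd)

theorem expandC_jq_mem_range :
    ModularCurve.jqModC ℂ ∈ (ModularCurve.coeffMap iotaK).range :=
  ⟨ModularCurve.jqModC Kb, ModularCurve.map_jqModC iotaK⟩

theorem expandC_TInf_congr (N : ℕ) [NeZero N] {f g : ℍ → ℂ} (h : f = g) (hf : f ∈ perSub N)
    (hg : g ∈ perSub N) : TInf N ⟨f, hf⟩ = TInf N ⟨g, hg⟩ := by
  subst h; rfl

theorem TInf_Btil_mem_range (N : ℕ) [NeZero N] (b : ℍ → ℂ) (hb : b ∈ Btil N) :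
    TInf N ⟨b, Btil_le_perSub N hb⟩ ∈ (ModularCurve.coeffMap iotaK).range := by
  induction hb using Subring.closure_induction with
  | mem x hx =>
    rcases hx with ⟨c, rfl⟩ | ⟨g, d, hd, rfl⟩
    · have := TInf_const N (iotaK c) (isBd_const N (iotaK c)).isPer
      refine ⟨HahnSeries.C c, ?_⟩
      refine Eq.trans ?_ this.symm
      exact ModularCurve.coeffMap_single iotaK 0 c
    · have hN : 0 < N := Nat.pos_of_ne_zero (NeZero.ne N)
      have hd0 : 0 < d := Nat.pos_of_dvd_of_pos hd hN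
      obtain ⟨a, b, δ, hab, h, -⟩ := act_jd_eq_pre g hd0
      have ha : 0 < a := Nat.pos_of_ne_zero (by rintro rfl; simp at hab; omega)
      have hδ : 0 < δ := Nat.pos_of_ne_zero (by rintro rfl; simp at hab; omega)
      have hδN : δ ∣ N := (Dvd.intro_left a hab).trans hd
      have : NeZero (a * (N / δ)) :=
        ⟨(Nat.mul_pos ha (Nat.div_pos (Nat.le_of_dvd hN hδN) hδ)).ne'⟩
      rw [expandC_TInf_congr N h _ (pre_jFun_mem_perSub ha hδ hδN), TInf_pre_jFun ha hδ hδN]
      exact qExpand_mem_range _ _ (twist_mem_range _ (rootU_mem_range _ _) _ expandC_jq_mem_range)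
  | zero =>
    rw [expandC_TInf_congr N rfl _ (perSub N).zero_mem]
    exact (map_zero (TInf N)).symm ▸ Subring.zero_mem _
  | one =>
    rw [expandC_TInf_congr N rfl _ (perSub N).one_mem]
    exact (map_one (TInf N)).symm ▸ Subring.one_mem _
  | add x y hx hy ihx ihy =>
    have : TInf N ⟨x + y, Btil_le_perSub N (add_mem hx hy)⟩ =
      TInf N ⟨x, Btil_le_perSub N hx⟩ + TInf N ⟨y, Btil_le_perSub N hy⟩ := by
      rw [← map_add]; rfl
    rw [this]; exact add_mem ihx ihy
  | neg x hx ihx =>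
    have : TInf N ⟨-x, Btil_le_perSub N (neg_mem hx)⟩ = - TInf N ⟨x, Btil_le_perSub N hx⟩ := by
      rw [← map_neg]; rfl
    rw [this]; exact neg_mem ihx
  | mul x y hx hy ihx ihy =>
    have : TInf N ⟨x * y, Btil_le_perSub N (mul_mem hx hy)⟩ =
      TInf N ⟨x, Btil_le_perSub N hx⟩ * TInf N ⟨y, Btil_le_perSub N hy⟩ := by
      rw [← map_mul]; rfl
    rw [this]; exact mul_mem ihx ihy

theorem expandC_rootU_zero (δ : ℕ) : rootU δ 0 = 1 := by
  apply Units.ext
  simp [rootU]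

theorem TInf_jd (N : ℕ) [NeZero N] {d : ℕ} (hd : d ∣ N) [NeZero (d * N)] :
    TInf N ⟨jd d, Btil_le_perSub N (jd_mem_Btil hd)⟩ =
      ModularCurve.qExpand ℂ (d * N) (ModularCurve.jqModC ℂ) := by
  have hN : 0 < N := Nat.pos_of_ne_zero (NeZero.ne N)
  have hd0 : 0 < d := Nat.pos_of_dvd_of_pos hd hN
  have : NeZero (d * (N / 1)) := ⟨by rw [Nat.div_one]; exact NeZero.ne _⟩
  have h := TInf_pre_jFun (N := N) (a := d) (b := 0) (δ := 1) hd0 one_pos (one_dvd N)
  refine Eq.trans h ?_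
  have h0 : rootU 1 ((0 : ℕ) : ℤ) = 1 := by rw [Nat.cast_zero]; exact expandC_rootU_zero 1
  rw [h0, twist_one]
  exact ModularCurve.qExpand_congr (by rw [Nat.div_one]) _

theorem expandC_order_jq : (ModularCurve.jqModC ℂ).order = -1 := by
  have hc : (ModularCurve.jqModC ℂ).coeff (-1) = 1 := by
    rw [ModularCurve.jqModC, HahnSeries.coeff_single_mul, one_mul, sub_neg_eq_add, neg_add_cancel,
      show (0 : ℤ) = ((0 : ℕ) : ℤ) from rfl, HahnSeries.ofPowerSeries_apply_coeff,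
      PowerSeries.coeff_map, PowerSeries.coeff_zero_eq_constantCoeff,
      ModularCurve.constantCoeff_jNum]
    simp
  have hlt : ∀ k : ℤ, k < -1 → (ModularCurve.jqModC ℂ).coeff k = 0 := by
    intro k hk
    rw [ModularCurve.jqModC, HahnSeries.coeff_single_mul, one_mul]
    exact ModularCurve.ofPowerSeries_coeff_of_neg _ (by omega)
  have hne : ModularCurve.jqModC ℂ ≠ 0 := by
    intro h; rw [h] at hc; simp at hc
  apply le_antisymm
  · exact HahnSeries.order_le_of_coeff_ne_zero (by rw [hc]; exact one_ne_zero)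
  · by_contra hcon
    push Not at hcon
    exact hne (HahnSeries.coeff_order_eq_zero.mp (hlt _ hcon))

/-- the stabiliser of `j (N z)` is `Γ₀(N)`. -/
theorem mem_Gamma0_of_act_jd_eq (N : ℕ) [NeZero N] (g : SL(2, ℤ)) (h : act g (jd N) = jd N) :
    g ∈ Gamma0 N := by
  have hN : 0 < N := Nat.pos_of_ne_zero (NeZero.ne N)
  obtain ⟨a, b, δ, hab, h1, h2⟩ := act_jd_eq_pre g hN
  have ha : 0 < a := Nat.pos_of_ne_zero (by rintro rfl; simp at hab; omega)
  have hδ : 0 < δ := Nat.pos_of_ne_zero (by rintro rfl; simp at hab; omega)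
  have hδN : δ ∣ N := Dvd.intro_left a hab
  have : NeZero (a * (N / δ)) :=
    ⟨(Nat.mul_pos ha (Nat.div_pos (Nat.le_of_dvd hN hδN) hδ)).ne'⟩
  have : NeZero (N * N) := ⟨(Nat.mul_pos hN hN).ne'⟩
  have h3 : pre a b δ jFun = jd N := h1.symm.trans h
  have h4 := expandC_TInf_congr N h3 (pre_jFun_mem_perSub ha hδ hδN)
    (Btil_le_perSub N (jd_mem_Btil dvd_rfl))
  rw [TInf_pre_jFun ha hδ hδN, TInf_jd N dvd_rfl] at h4
  have h5 := congrArg HahnSeries.order h4
  rw [order_qExpand, order_qExpand, order_twist, expandC_order_jq] at h5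
  have h6 : a * (N / δ) = N * N := by
    have : ((a * (N / δ) : ℕ) : ℤ) = ((N * N : ℕ) : ℤ) := by linarith
    exact_mod_cast this
  have h7 : N / δ = a := by
    rw [← hab]; exact Nat.mul_div_cancel _ hδ
  rw [h7] at h6
  have h8 : a = N := by
    exact Nat.mul_self_inj.mp h6
  apply h2
  rw [h8] at hab
  exact Nat.eq_of_mul_eq_mul_left hN (by rw [hab, mul_one])

end Fermat.Agent.S24
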