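import Fermat.Agent.S24.PlaceBasic

set_option autoImplicit false

/-!
# S24, part A: a place from a `ℤ`-valued valuation function
-/

namespace Fermat.Agent.S24

open AlgebraicCurve

variable {K F : Type*} [Field K] [Field F] [Algebra K F]

/-- A (not necessarily normalised) nontrivial discrete valuation on `F`, trivial on `K`.
The value at `0` is junk. -/
structure IsVal (K : Type*) {F : Type*} [Field K] [Field F] [Algebra K F] (w : F → ℤ) : Prop where
  map_mul : ∀ f g : F, f ≠ 0 → g ≠ 0 → w (f * g) = w f + w g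
  map_add : ∀ f g : F, f ≠ 0 → g ≠ 0 → f + g ≠ 0 → min (w f) (w g) ≤ w (f + g)
  map_const : ∀ a : K, a ≠ 0 → 0 ≤ w (algebraMap K F a)
  nontrivial : ∃ f : F, f ≠ 0 ∧ w f ≠ 0

namespace IsVal

variable {w : F → ℤ} (hw : IsVal K w)
include hw

theorem map_one : w 1 = 0 := by
  have := hw.map_mul 1 1 one_ne_zero one_ne_zero
  rw [mul_one] at this; omega

theorem map_neg_one : w (-1) = 0 := by
  have := hw.map_mul (-1) (-1) (by simp) (by simp)
  rw [neg_mul_neg, mul_one, hw.map_one] at this; omega

theorem map_neg {f : F} (hf : f ≠ 0) : w (-f) = w f := by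
  have := hw.map_mul (-1) f (by simp) hf
  rw [neg_one_mul, hw.map_neg_one] at this; omega

theorem map_inv {f : F} (hf : f ≠ 0) : w f⁻¹ = - w f := by
  have := hw.map_mul f f⁻¹ hf (inv_ne_zero hf)
  rw [mul_inv_cancel₀ hf, hw.map_one] at this; omega

theorem map_pow {f : F} (hf : f ≠ 0) (n : ℕ) : w (f ^ n) = n * w f := by
  induction n with
  | zero => simp [hw.map_one]
  | succ n ih =>
    rw [pow_succ, hw.map_mul _ _ (pow_ne_zero _ hf) hf, ih]; push_cast; ring

theorem map_zpow {f : F} (hf : f ≠ 0) (n : ℤ) : w (f ^ n) = n * w f := by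
  obtain ⟨n, rfl | rfl⟩ := n.eq_nat_or_neg
  · rw [zpow_natCast, hw.map_pow hf]
  · rw [zpow_neg, zpow_natCast, hw.map_inv (pow_ne_zero _ hf), hw.map_pow hf]; ring

/-- The valuation subring of `w`. -/
def valuationSubring : ValuationSubring F where
  carrier := {f | f = 0 ∨ 0 ≤ w f}
  mul_mem' := by
    rintro a b (rfl | ha) (rfl | hb)
    · left; simp
    · left; simp
    · left; simp
    · by_cases ha0 : a = 0
      · left; simp [ha0]
      by_cases hb0 : b = 0
      · left; simp [hb0]
      right; rw [hw.map_mul a b ha0 hb0]; omega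
  one_mem' := Or.inr (by rw [hw.map_one])
  add_mem' := by
    rintro a b ha hb
    by_cases ha0 : a = 0
    · simpa [ha0] using hb
    by_cases hb0 : b = 0
    · simpa [hb0] using ha
    by_cases hab : a + b = 0
    · left; exact hab
    right
    have := hw.map_add a b ha0 hb0 hab
    have ha' := ha.resolve_left ha0
    have hb' := hb.resolve_left hb0
    exact le_trans (le_min ha' hb') this
  zero_mem' := Or.inl rfl
  neg_mem' := by
    rintro a (rfl | ha)
    · left; simp
    · by_cases ha0 : a = 0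
      · left; simp [ha0]
      right; rwa [hw.map_neg ha0]
  mem_or_inv_mem' := by
    intro a
    by_cases ha0 : a = 0
    · left; left; exact ha0
    rcases le_total 0 (w a) with h | h
    · left; right; exact h
    · right; right; rw [hw.map_inv ha0]; omega

theorem mem_valuationSubring {f : F} : f ∈ hw.valuationSubring ↔ f = 0 ∨ 0 ≤ w f := Iff.rfl

theorem exists_min_pos : ∃ (m : ℤ) (t : F), 0 < m ∧ t ≠ 0 ∧ w t = m ∧
    ∀ f : F, f ≠ 0 → m ∣ w f := by
  classical
  obtain ⟨f, hf0, hf⟩ := hw.nontrivial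
  have hex : ∃ n : ℕ, 0 < n ∧ ∃ t : F, t ≠ 0 ∧ w t = n := by
    rcases lt_or_gt_of_ne hf with h | h
    · refine ⟨(-w f).toNat, by omega, f⁻¹, inv_ne_zero hf0, ?_⟩
      rw [hw.map_inv hf0]; omega
    · exact ⟨(w f).toNat, by omega, f, hf0, by omega⟩
  obtain ⟨hpos, t, ht0, ht⟩ := Nat.find_spec hex
  refine ⟨Nat.find hex, t, by exact_mod_cast hpos, ht0, ht, fun g hg => ?_⟩
  set m := Nat.find hex with hm
  have hmpos : (0 : ℤ) < m := by exact_mod_cast hpos
  -- division
  have h1 : w (g * t ^ (-(w g / m))) = w g % m := by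
    rw [hw.map_mul g _ hg (zpow_ne_zero _ ht0), hw.map_zpow ht0, ht]
    have := Int.emod_add_mul_ediv (w g) m
    linarith
  by_contra hdvd
  have h2 : 0 < w g % m := by
    have := Int.emod_nonneg (w g) hmpos.ne'
    rcases this.lt_or_eq with h | h
    · exact h
    · exact absurd (Int.dvd_of_emod_eq_zero h.symm) hdvd
  have h3 : w g % m < m := Int.emod_lt_of_pos _ hmpos
  have h4 : ¬ (0 < (w g % m).toNat ∧ ∃ t : F, t ≠ 0 ∧ w t = ((w g % m).toNat : ℕ)) :=
    Nat.find_min hex (by omega)
  exact h4 ⟨by omega, _, mul_ne_zero hg (zpow_ne_zero _ ht0), by rw [h1]; omega⟩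

theorem isUnit_iff (a : hw.valuationSubring) : IsUnit a ↔ (a : F) ≠ 0 ∧ w a = 0 := by
  constructor
  · rintro ⟨u, rfl⟩
    have h1 : ((u : hw.valuationSubring) : F) * ((u⁻¹ : (hw.valuationSubring)ˣ) : hw.valuationSubring) = 1 := by
      have := congrArg (Subtype.val) u.mul_inv
      exact this
    have hu0 : ((u : hw.valuationSubring) : F) ≠ 0 := left_ne_zero_of_mul_eq_one h1
    have hv0 : (((u⁻¹ : (hw.valuationSubring)ˣ) : hw.valuationSubring) : F) ≠ 0 :=
      right_ne_zero_of_mul_eq_one h1
    refine ⟨hu0, ?_⟩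
    have h2 := hw.map_mul _ _ hu0 hv0
    rw [h1, hw.map_one] at h2
    have h3 := ((u : hw.valuationSubring).2).resolve_left hu0
    have h4 := (((u⁻¹ : (hw.valuationSubring)ˣ) : hw.valuationSubring).2).resolve_left hv0
    omega
  · rintro ⟨h0, h1⟩
    refine IsUnit.of_mul_eq_one ⟨(a : F)⁻¹, Or.inr (by rw [hw.map_inv h0, h1]; simp)⟩ ?_
    ext
    simp [mul_inv_cancel₀ h0]

theorem exists_place : ∃ (v : Place K F) (m : ℤ), 0 < m ∧ (∀ f : F, f ≠ 0 → w f = m * v.ord f) ∧
    v.toValuationSubring = hw.valuationSubring := by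
  obtain ⟨m, t, hm, ht0, ht, hdvd⟩ := hw.exists_min_pos
  have htmem : t ∈ hw.valuationSubring := Or.inr (by omega)
  set π : hw.valuationSubring := ⟨t, htmem⟩ with hπ
  have hirr : Irreducible π := by
    constructor
    · rw [hw.isUnit_iff]; rintro ⟨-, h⟩; simp only [hπ] at h; omega
    · intro a b hab
      have hab' : t = (a : F) * b := by
        have := congrArg Subtype.val hab; simpa [hπ] using this
      have ha0 : (a : F) ≠ 0 := by rintro h; rw [h, zero_mul] at hab'; exact ht0 hab'
      have hb0 : (b : F) ≠ 0 := by rintro h; rw [h, mul_zero] at hab'; exact ht0 hab'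
      have h1 := hw.map_mul _ _ ha0 hb0
      rw [← hab', ht] at h1
      have ha := a.2.resolve_left ha0
      have hb := b.2.resolve_left hb0
      obtain ⟨x, hx⟩ := hdvd _ ha0
      obtain ⟨y, hy⟩ := hdvd _ hb0
      rw [hw.isUnit_iff, hw.isUnit_iff]
      have hxy : x + y = 1 := by
        have : m * (x + y) = m * 1 := by rw [mul_add, ← hx, ← hy, mul_one]; exact h1.symm
        exact mul_left_cancel₀ hm.ne' this
      have hx0 : 0 ≤ x := by
        by_contra h; rw [not_le] at h; nlinarith
      have hy0 : 0 ≤ y := by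
        by_contra h; rw [not_le] at h; nlinarith
      rcases (show x = 0 ∨ y = 0 by omega) with h | h
      · left; exact ⟨ha0, by rw [hx, h, mul_zero]⟩
      · right; exact ⟨hb0, by rw [hy, h, mul_zero]⟩
  have hfact : IsDiscreteValuationRing.HasUnitMulPowIrreducibleFactorization hw.valuationSubring := by
    refine ⟨π, hirr, fun {x} hx => ?_⟩
    have hx0 : (x : F) ≠ 0 := by simpa using hx
    obtain ⟨k, hk⟩ := hdvd _ hx0
    have hxn := x.2.resolve_left hx0
    have hk0 : 0 ≤ k := by
      by_contra h; rw [not_le] at h; nlinarith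
    obtain ⟨n, rfl⟩ := Int.eq_ofNat_of_zero_le hk0
    refine ⟨n, ?_⟩
    have hu : w ((x : F) * (t ^ n)⁻¹) = 0 := by
      rw [hw.map_mul _ _ hx0 (inv_ne_zero (pow_ne_zero _ ht0)), hw.map_inv (pow_ne_zero _ ht0),
        hw.map_pow ht0, ht, hk]; ring
    have hune : (x : F) * (t ^ n)⁻¹ ≠ 0 := mul_ne_zero hx0 (inv_ne_zero (pow_ne_zero _ ht0))
    set u : hw.valuationSubring := ⟨(x : F) * (t ^ n)⁻¹, Or.inr hu.ge⟩ with hudef
    have huu : IsUnit u := (hw.isUnit_iff u).mpr ⟨hune, hu⟩
    refine ⟨huu.unit, ?_⟩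
    ext
    simp only [IsUnit.unit_spec, hudef, hπ, MulMemClass.coe_mul, SubmonoidClass.coe_pow]
    field_simp
  have : IsDiscreteValuationRing hw.valuationSubring :=
    IsDiscreteValuationRing.ofHasUnitMulPowIrreducibleFactorization hfact
  let v : Place K F :=
    { toValuationSubring := hw.valuationSubring
      algebraMap_mem' := fun a => by
        by_cases ha : a = 0
        · left; simp [ha]
        · right; exact hw.map_const a ha
      ne_top' := by
        intro h
        have : t⁻¹ ∈ hw.valuationSubring := by rw [h]; exact ValuationSubring.mem_top _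
        rcases this with h | h
        · exact inv_ne_zero ht0 h
        · rw [hw.map_inv ht0] at h; omega
      isPrincipalIdealRing' := inferInstance }
  refine ⟨v, m, hm, fun f hf => ?_, rfl⟩
  have hirr' : Irreducible (π : v.toValuationSubring) := hirr
  obtain ⟨u, hu⟩ := v.exists_unit_mul_zpow hf hirr'
  have hu' := (hw.isUnit_iff (u : hw.valuationSubring)).mp u.isUnit
  conv_lhs => rw [hu]
  rw [hw.map_mul _ _ hu'.1 (zpow_ne_zero _ ht0), hu'.2, hw.map_zpow ht0, ht]
  ring

end IsVal

/-- `ord` of a place is a valuation in the sense of `IsVal`. -/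
theorem isVal_ord (v : Place K F) : IsVal K v.ord where
  map_mul _ _ hf hg := v.ord_mul hf hg
  map_add _ _ _ _ hfg := min_le_ord_add v hfg
  map_const a _ := (ord_algebraMap v a).ge
  nontrivial := by
    obtain ⟨t, ht, ht0, -⟩ := exists_ord_eq_one v
    exact ⟨t, ht0, by omega⟩

/-- If `w` is a valuation with the same (or a larger) valuation ring as `v`
then `w` is a positive multiple of `v.ord`. -/
theorem IsVal.eq_mul_ord {w : F → ℤ} (hw : IsVal K w) (v : Place K F)
    (h : ∀ f : F, f ≠ 0 → 0 ≤ v.ord f → 0 ≤ w f) :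
    ∃ m : ℤ, 0 < m ∧ ∀ f : F, f ≠ 0 → w f = m * v.ord f := by
  obtain ⟨v', m, hm, hv', hsub⟩ := hw.exists_place
  have : v = v' := by
    apply place_ext_of_le
    intro f hf
    rw [hsub]
    by_cases hf0 : f = 0
    · left; exact hf0
    · right; exact h f hf0 (ord_nonneg_of_mem v hf)
  subst this
  exact ⟨m, hm, hv'⟩

end Fermat.Agent.S24
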