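import Fermat.Agent.S24.FF1

set_option autoImplicit false
set_option linter.style.haveILetI false

/-!
# S24, part A1: the residue field of a place of a function field over an algebraically closed
field is the constant field
-/

namespace Fermat.Agent.S24

open AlgebraicCurve IntermediateField IsLocalRing

variable {K F : Type*} [Field K] [Field F] [Algebra K F]

namespace Residue

/-- an element of the maximal ideal has positive order. -/
theorem ord_pos_of_mem_maximalIdeal (v : Place K F) {a : v.toValuationSubring}
    (ha : a ∈ maximalIdeal v.toValuationSubring) (h0 : (a : F) ≠ 0) : 0 < v.ord (a : F) := by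
  have h1 : 0 ≤ v.ord (a : F) := ord_nonneg_of_mem v a.2
  rcases h1.lt_or_eq with h | h
  · exact h
  exfalso
  have h2 : (a : F)⁻¹ ∈ v.toValuationSubring := by
    apply mem_of_ord_nonneg
    rw [v.ord_inv, ← h, neg_zero]
  have h3 : IsUnit a := by
    refine IsUnit.of_mul_eq_one ⟨(a : F)⁻¹, h2⟩ ?_
    ext
    simpa using mul_inv_cancel₀ h0
  exact (mem_maximalIdeal a).1 ha h3

/-- the residue field is algebraic over the constant field. -/
theorem isAlgebraic_residueField (h : IsFF1 K F) (v : Place K F) :
    Algebra.IsAlgebraic K v.ResidueField := by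
  constructor
  intro ubar
  obtain ⟨u, rfl⟩ := residue_surjective ubar
  by_contra htr
  -- polynomials in `u` are units
  have hres : ∀ p : Polynomial K, residue v.toValuationSubring (Polynomial.aeval u p) =
      Polynomial.aeval (residue v.toValuationSubring u) p := by
    intro p
    have := Polynomial.aeval_algHom_apply
      (IsScalarTower.toAlgHom K v.toValuationSubring v.ResidueField) u p
    exact this.symm
  have hunit : ∀ p : Polynomial K, p ≠ 0 → IsUnit (Polynomial.aeval u p) := by
    intro p hp
    rw [← residue_ne_zero_iff_isUnit, hres]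
    intro h0
    exact htr ⟨p, hp, h0⟩
  have hcoe : ∀ p : Polynomial K, ((Polynomial.aeval u p : v.toValuationSubring) : F) =
      Polynomial.aeval (u : F) p := by
    intro p
    have := Polynomial.aeval_algHom_apply
      (IsScalarTower.toAlgHom K v.toValuationSubring F) u p
    exact this.symm
  -- `u` is transcendental
  have hutr : Transcendental K (u : F) := by
    rintro ⟨p, hp, h0⟩
    have h1 := hunit p hp
    have h2 : (Polynomial.aeval u p : v.toValuationSubring) = 0 := by
      ext
      rw [hcoe, h0]
      rfl
    rw [h2] at h1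
    exact not_isUnit_zero h1
  -- `K(u) ⊆ A`
  have hsub : ∀ x ∈ K⟮(u : F)⟯, x ∈ v.toValuationSubring := by
    intro x hx
    obtain ⟨r, s, rfl⟩ := (mem_adjoin_simple_iff K x).1 hx
    by_cases hs : s = 0
    · simp [hs, zero_mem]
    obtain ⟨w, hw⟩ := hunit s hs
    have h1 : (Polynomial.aeval (u : F) s)⁻¹ = ((w⁻¹ : (v.toValuationSubring)ˣ) : v.toValuationSubring) := by
      rw [← hcoe, ← hw]
      have h2 : ((w : v.toValuationSubring) : F) * (((w⁻¹ : (v.toValuationSubring)ˣ) :
          v.toValuationSubring) : F) = 1 := by
        have := congrArg (Subtype.val) w.mul_inv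
        exact this
      exact inv_eq_of_mul_eq_one_right h2
    rw [div_eq_mul_inv, h1, ← hcoe]
    exact mul_mem (Subtype.mem _) (Subtype.mem _)
  -- hence everything is integral over `A`
  haveI := h.isAlgebraic hutr
  apply v.ne_top'
  rw [eq_top_iff]
  intro t _
  have h1 : IsIntegral K⟮(u : F)⟯ t := (Algebra.IsAlgebraic.isAlgebraic t).isIntegral
  let φ : K⟮(u : F)⟯ →+* v.toValuationSubring :=
    (algebraMap K⟮(u : F)⟯ F).codRestrict v.toValuationSubring.toSubring fun x => hsub x x.2
  have h2 : IsIntegral v.toValuationSubring t :=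
    IsIntegral.map_of_comp_eq φ (RingHom.id F) (by ext x; rfl) h1
  obtain ⟨y, hy⟩ := (IsIntegrallyClosed.isIntegral_iff (R := v.toValuationSubring) (K := F)).1 h2
  rw [← hy]
  exact y.2

end Residue

theorem residue_bijective [IsAlgClosed K] (h : IsFF1 K F) (v : Place K F) :
    Function.Bijective (algebraMap K v.ResidueField) := by
  haveI := Residue.isAlgebraic_residueField h v
  exact IsAlgClosed.algebraMap_bijective_of_isIntegral

theorem exists_const_sub [IsAlgClosed K] (h : IsFF1 K F) (v : Place K F) {f : F}
    (hf : 0 ≤ v.ord f) :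
    ∃ c : K, f = algebraMap K F c ∨ 0 < v.ord (f - algebraMap K F c) := by
  have hmem : f ∈ v.toValuationSubring := mem_of_ord_nonneg v hf
  obtain ⟨c, hc⟩ := (residue_bijective h v).2 (residue v.toValuationSubring ⟨f, hmem⟩)
  refine ⟨c, ?_⟩
  by_cases h0 : f = algebraMap K F c
  · exact Or.inl h0
  right
  have hc' : residue v.toValuationSubring (algebraMap K v.toValuationSubring c) =
      residue v.toValuationSubring ⟨f, hmem⟩ := by
    rw [← hc]
    exact (IsScalarTower.algebraMap_apply K v.toValuationSubring v.ResidueField c).symm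
  set a : v.toValuationSubring := ⟨f, hmem⟩ - algebraMap K v.toValuationSubring c with ha
  have h1 : a ∈ maximalIdeal v.toValuationSubring := by
    rw [← residue_eq_zero_iff, ha, map_sub, hc', sub_self]
  have h2 : (a : F) = f - algebraMap K F c := rfl
  have h3 := Residue.ord_pos_of_mem_maximalIdeal v h1 (by rw [h2]; exact sub_ne_zero.2 h0)
  rwa [h2] at h3

theorem deg_eq_one [IsAlgClosed K] (h : IsFF1 K F) (v : Place K F) : v.deg = 1 := by
  have e := (AlgEquiv.ofBijective (Algebra.ofId K v.ResidueField)
    (residue_bijective h v)).toLinearEquiv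
  rw [Place.deg, ← e.finrank_eq, Module.finrank_self]

end Fermat.Agent.S24
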