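import Fermat.Agent.S24.ADefs

set_option autoImplicit false

/-! # S24 task B-Taylor : Taylor expansion at a point of the upper half plane -/

open UpperHalfPlane ModularForm EisensteinSeries CongruenceSubgroup
open scoped MatrixGroups Manifold

namespace Fermat.Agent.S24

/-- Taylor series at `c` of a function `ℂ → ℂ`, as a formal power series. -/
noncomputable def taylor_ser (F : ℂ → ℂ) (c : ℂ) : PowerSeries ℂ :=
  .mk fun m ↦ (↑m.factorial)⁻¹ * iteratedDeriv m F c

theorem taylor_ser_coeff (F : ℂ → ℂ) (c : ℂ) (m : ℕ) :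
    (taylor_ser F c).coeff m = (↑m.factorial)⁻¹ * iteratedDeriv m F c := by
  simp [taylor_ser]

theorem taylor_ser_congr {F G : ℂ → ℂ} {c : ℂ} (h : F =ᶠ[nhds c] G) :
    taylor_ser F c = taylor_ser G c := by
  ext m
  rw [taylor_ser_coeff, taylor_ser_coeff, h.iteratedDeriv_eq]

theorem taylor_ser_mul {F G : ℂ → ℂ} {c : ℂ} (hf : AnalyticAt ℂ F c) (hg : AnalyticAt ℂ G c) :
    taylor_ser (F * G) c = taylor_ser F c * taylor_ser G c := by
  ext n
  simp only [taylor_ser_coeff,
    iteratedDeriv_mul hf.contDiffAt hg.contDiffAt, Finset.mul_sum, PowerSeries.coeff_mul,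
    Finset.Nat.sum_antidiagonal_eq_sum_range_succ_mk, Nat.succ_eq_add_one]
  refine Finset.sum_congr rfl fun i hi => ?_
  have hi' : i ≤ n := Nat.lt_succ_iff.mp (Finset.mem_range.mp hi)
  have h1 : ((n.choose i : ℕ) : ℂ) = (n.factorial : ℂ) / ((i.factorial : ℂ) * ((n - i).factorial : ℂ)) := by
    rw [Nat.cast_choose ℂ hi']
  rw [h1]
  have h2 : (n.factorial : ℂ) ≠ 0 := by exact_mod_cast n.factorial_ne_zero
  have h3 : (i.factorial : ℂ) ≠ 0 := by exact_mod_cast i.factorial_ne_zero
  have h4 : ((n - i).factorial : ℂ) ≠ 0 := by exact_mod_cast (n - i).factorial_ne_zero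
  field_simp

theorem taylor_ser_add {F G : ℂ → ℂ} {c : ℂ} (hf : AnalyticAt ℂ F c) (hg : AnalyticAt ℂ G c) :
    taylor_ser (F + G) c = taylor_ser F c + taylor_ser G c := by
  ext n
  simp [taylor_ser_coeff, iteratedDeriv_add hf.contDiffAt hg.contDiffAt, mul_add]

theorem taylor_ser_const (a c : ℂ) : taylor_ser (fun _ => a) c = PowerSeries.C a := by
  ext n
  rw [taylor_ser_coeff, PowerSeries.coeff_C]
  rcases n with _ | n
  · simp
  · simp [iteratedDeriv_const]

theorem taylor_analyticAt {f : ℍ → ℂ} (hf : MDiff f) (τ : ℍ) :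
    AnalyticAt ℂ (f ∘ ofComplex) (τ : ℂ) := by
  have h := UpperHalfPlane.mdifferentiable_iff.mp hf
  exact h.analyticAt (isOpen_upperHalfPlaneSet.mem_nhds τ.im_pos)

theorem taylor_analyticOnNhd {f : ℍ → ℂ} (hf : MDiff f) :
    AnalyticOnNhd ℂ (f ∘ ofComplex) {z : ℂ | 0 < z.im} := by
  have h := UpperHalfPlane.mdifferentiable_iff.mp hf
  exact h.analyticOnNhd isOpen_upperHalfPlaneSet

theorem taylor_eq_zero_of_ser {f : ℍ → ℂ} (hf : MDiff f) (τ : ℍ)
    (h : taylor_ser (f ∘ ofComplex) τ = 0) : f = 0 := by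
  have han := taylor_analyticAt hf τ
  have hder : ∀ n, iteratedDeriv n (f ∘ ofComplex) (τ : ℂ) = 0 := by
    intro n
    have := congrArg (fun s => PowerSeries.coeff n s) h
    simp only [taylor_ser_coeff, map_zero] at this
    have h2 : (n.factorial : ℂ) ≠ 0 := by exact_mod_cast n.factorial_ne_zero
    rcases mul_eq_zero.mp this with h3 | h3
    · exact absurd (inv_eq_zero.mp h3) h2
    · exact h3
  have hfp := han.hasFPowerSeriesAt
  have hz : (FormalMultilinearSeries.ofScalars ℂ
      (fun n ↦ iteratedDeriv n (f ∘ ofComplex) (τ : ℂ) / (n.factorial : ℂ))) = 0 := by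
    ext n
    simp [FormalMultilinearSeries.ofScalars, hder]
  rw [hz] at hfp
  have hev : (f ∘ ofComplex) =ᶠ[nhds (τ : ℂ)] 0 := hfp.eventually_eq_zero
  have hpre : IsPreconnected {z : ℂ | 0 < z.im} :=
    (convex_halfSpace_im_gt 0).isPreconnected
  have := (taylor_analyticOnNhd hf).eqOn_zero_of_preconnected_of_eventuallyEq_zero hpre
    (show (τ : ℂ) ∈ {z : ℂ | 0 < z.im} from τ.im_pos) hev
  funext z
  have h5 := this (show (z : ℂ) ∈ {z : ℂ | 0 < z.im} from z.im_pos)
  simpa using h5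

theorem exists_TPt (τ : ℍ) : ∃ T : holSub →+* PowerSeries ℂ, Function.Injective T ∧
    ∀ (f : holSub) (n : ℕ),
      (T f).coeff n = (n.factorial : ℂ)⁻¹ * iteratedDeriv n (f.1 ∘ ofComplex) τ := by
  let T : holSub →+* PowerSeries ℂ :=
    { toFun := fun f => taylor_ser (f.1 ∘ ofComplex) τ
      map_one' := by
        have : ((1 : holSub).1 ∘ ofComplex) = fun _ => (1 : ℂ) := rfl
        rw [this, taylor_ser_const]; simp
      map_mul' := fun f g => by
        have : ((f * g : holSub).1 ∘ ofComplex) = (f.1 ∘ ofComplex) * (g.1 ∘ ofComplex) := rfl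
        rw [this, taylor_ser_mul (taylor_analyticAt f.2 τ) (taylor_analyticAt g.2 τ)]
      map_zero' := by
        have : ((0 : holSub).1 ∘ ofComplex) = fun _ => (0 : ℂ) := rfl
        rw [this, taylor_ser_const]; simp
      map_add' := fun f g => by
        have : ((f + g : holSub).1 ∘ ofComplex) = (f.1 ∘ ofComplex) + (g.1 ∘ ofComplex) := rfl
        rw [this, taylor_ser_add (taylor_analyticAt f.2 τ) (taylor_analyticAt g.2 τ)] }
  refine ⟨T, ?_, fun f n => taylor_ser_coeff _ _ _⟩
  rw [injective_iff_map_eq_zero]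
  intro f hf
  exact Subtype.ext (taylor_eq_zero_of_ser f.2 τ hf)

/-- Taylor expansion at `τ`, as a Laurent series. -/
noncomputable def TPt (τ : ℍ) : holSub →+* LaurentSeries ℂ :=
  (HahnSeries.ofPowerSeries ℤ ℂ).comp (exists_TPt τ).choose

theorem taylor_TPt_eq (τ : ℍ) (f : holSub) :
    TPt τ f = HahnSeries.ofPowerSeries ℤ ℂ (taylor_ser (f.1 ∘ ofComplex) τ) := by
  have : (exists_TPt τ).choose f = taylor_ser (f.1 ∘ ofComplex) τ := by
    ext n
    rw [(exists_TPt τ).choose_spec.2 f n, taylor_ser_coeff]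
  rw [← this]
  rfl

theorem TPt_injective (τ : ℍ) : Function.Injective (TPt τ) := by
  intro f g h
  exact (exists_TPt τ).choose_spec.1 (HahnSeries.ofPowerSeries_injective h)

theorem TPt_const (τ : ℍ) (c : ℂ) (h : (fun _ : ℍ => c) ∈ holSub) :
    TPt τ ⟨fun _ => c, h⟩ = HahnSeries.C c := by
  rw [taylor_TPt_eq]
  have : ((fun _ : ℍ => c) ∘ ofComplex) = fun _ => c := rfl
  simp only [this, taylor_ser_const]
  exact HahnSeries.ofPowerSeries_C c

/-- order and leading coefficient of a power series seen as a Laurent series. -/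
theorem taylor_order_ofPowerSeries (P : PowerSeries ℂ) (n : ℕ)
    (h0 : ∀ m < n, P.coeff m = 0) (hn : P.coeff n ≠ 0) :
    (HahnSeries.ofPowerSeries ℤ ℂ P).order = n ∧
      (HahnSeries.ofPowerSeries ℤ ℂ P).leadingCoeff = P.coeff n := by
  have hc : ∀ i : ℤ, (HahnSeries.ofPowerSeries ℤ ℂ P).coeff i =
      if i < 0 then 0 else P.coeff i.natAbs := fun i => PowerSeries.coeff_coe (f := P) i
  have hne : HahnSeries.ofPowerSeries ℤ ℂ P ≠ 0 := by
    intro h
    have := hc n
    rw [h] at this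
    simp at this
    exact hn this.symm
  have hord : (HahnSeries.ofPowerSeries ℤ ℂ P).order = n := by
    apply le_antisymm
    · apply HahnSeries.order_le_of_coeff_ne_zero
      rw [hc]; simpa using hn
    · rw [HahnSeries.le_order_iff_forall hne]
      intro j hj
      rw [hc]
      split_ifs with h
      · rfl
      · apply h0
        omega
  refine ⟨hord, ?_⟩
  rw [HahnSeries.leadingCoeff_eq, hord, hc]
  simp

theorem order_TPt_nonneg (τ : ℍ) (f : holSub) : 0 ≤ (TPt τ f).order := by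
  rw [taylor_TPt_eq]
  by_cases h0 : HahnSeries.ofPowerSeries ℤ ℂ (taylor_ser (f.1 ∘ ofComplex) τ) = 0
  · rw [h0]; simp
  · rw [HahnSeries.le_order_iff_forall h0]
    intro j hj
    have := PowerSeries.coeff_coe (f := taylor_ser (f.1 ∘ ofComplex) τ) j
    rw [if_pos hj] at this
    exact this

theorem order_TPt_eq_zero (τ : ℍ) (f : holSub) (hf : f.1 τ ≠ 0) : (TPt τ f).order = 0 := by
  rw [taylor_TPt_eq]
  have := (taylor_order_ofPowerSeries (taylor_ser (f.1 ∘ ofComplex) τ) 0 (by simp)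
    (by rw [taylor_ser_coeff]; simpa using hf)).1
  simpa using this

theorem order_TPt_eq_one (τ : ℍ) (f : holSub) (hf : f.1 τ = 0)
    (hf' : deriv (f.1 ∘ ofComplex) τ ≠ 0) : (TPt τ f).order = 1 := by
  rw [taylor_TPt_eq]
  have := (taylor_order_ofPowerSeries (taylor_ser (f.1 ∘ ofComplex) τ) 1
    (by
      intro m hm
      obtain rfl : m = 0 := by omega
      rw [taylor_ser_coeff]; simpa using hf)
    (by rw [taylor_ser_coeff]; simpa using hf')).1
  simpa using this

theorem act_mem_holSub (g : SL(2, ℤ)) {f : ℍ → ℂ} (hf : f ∈ holSub) : act g f ∈ holSub := by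
  have h : MDiff (fun τ : ℍ ↦ ((g⁻¹ : SL(2, ℤ)) : GL (Fin 2) ℝ) • τ) :=
    mdifferentiable_smul (by simp)
  have hf' : MDiff f := hf
  exact hf'.comp h

end Fermat.Agent.S24
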