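import Fermat.Agent.S24.ADefs

set_option autoImplicit false

/-! # S24 task B-Twist : the substitution `q ↦ u q` on Laurent series -/

namespace Fermat.Agent.S24

/-- coefficientwise `uⁿ cₙ`. -/
noncomputable def twistFun (u : ℂˣ) (f : LaurentSeries ℂ) : LaurentSeries ℂ :=
  ⟨fun n => (u : ℂ) ^ n * f.coeff n, f.isPWO_support.mono (by
    intro n hn
    rw [HahnSeries.mem_support]
    intro h0
    exact hn (by simp [h0]))⟩

theorem twistFun_coeff (u : ℂˣ) (f : LaurentSeries ℂ) (n : ℤ) :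
    (twistFun u f).coeff n = (u : ℂ) ^ n * f.coeff n := rfl

theorem twistFun_support (u : ℂˣ) (f : LaurentSeries ℂ) :
    (twistFun u f).support = f.support := by
  ext n
  rw [HahnSeries.mem_support, HahnSeries.mem_support, twistFun_coeff]
  simp [zpow_ne_zero]

theorem twistFun_mul (u : ℂˣ) (f g : LaurentSeries ℂ) :
    twistFun u (f * g) = twistFun u f * twistFun u g := by
  ext n
  rw [twistFun_coeff, HahnSeries.coeff_mul, HahnSeries.coeff_mul, Finset.mul_sum]
  refine Finset.sum_congr ?_ fun ij hij => ?_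
  · ext ij
    simp only [Finset.mem_antidiagonal, twistFun_support]
  · rw [Finset.mem_antidiagonal] at hij
    rw [twistFun_coeff, twistFun_coeff, ← hij.2.2, zpow_add₀ u.ne_zero]
    ring

theorem exists_twist (u : ℂˣ) : ∃ t : LaurentSeries ℂ →+* LaurentSeries ℂ,
    ∀ (f : LaurentSeries ℂ) (n : ℤ), (t f).coeff n = (u : ℂ) ^ n * f.coeff n :=
  ⟨{ toFun := twistFun u
     map_one' := by
       ext n
       rw [twistFun_coeff, HahnSeries.coeff_one]
       split_ifs with h
       · simp [h]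
       · simp
     map_mul' := twistFun_mul u
     map_zero' := by
       ext n
       simp [twistFun_coeff]
     map_add' := fun f g => by
       ext n
       simp only [twistFun_coeff, HahnSeries.coeff_add]
       ring }, fun _ _ => rfl⟩

/-- `∑ cₙ qⁿ ↦ ∑ cₙ uⁿ qⁿ`. -/
noncomputable def twist (u : ℂˣ) : LaurentSeries ℂ →+* LaurentSeries ℂ := (exists_twist u).choose

theorem twist_coeff (u : ℂˣ) (f : LaurentSeries ℂ) (n : ℤ) :
    (twist u f).coeff n = (u : ℂ) ^ n * f.coeff n := (exists_twist u).choose_spec f n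

theorem twist_one (f : LaurentSeries ℂ) : twist 1 f = f := by
  ext n
  simp [twist_coeff]

theorem twist_coeff_ne_zero_iff (u : ℂˣ) (f : LaurentSeries ℂ) (n : ℤ) :
    (twist u f).coeff n ≠ 0 ↔ f.coeff n ≠ 0 := by
  rw [twist_coeff]
  simp [zpow_ne_zero]

theorem order_twist (u : ℂˣ) (f : LaurentSeries ℂ) : (twist u f).order = f.order := by
  rcases eq_or_ne f 0 with rfl | hf
  · simp
  have hf' : twist u f ≠ 0 := by
    intro h
    apply hf
    ext n
    by_contra hn
    exact (twist_coeff_ne_zero_iff u f n).mpr hn (by rw [h]; rfl)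
  apply le_antisymm
  · apply HahnSeries.order_le_of_coeff_ne_zero
    rw [twist_coeff_ne_zero_iff]
    exact fun h => hf (HahnSeries.coeff_order_eq_zero.mp h)
  · apply HahnSeries.order_le_of_coeff_ne_zero
    rw [← twist_coeff_ne_zero_iff u]
    exact fun h => hf' (HahnSeries.coeff_order_eq_zero.mp h)

theorem leadingCoeff_twist (u : ℂˣ) (f : LaurentSeries ℂ) :
    (twist u f).leadingCoeff = (u : ℂ) ^ f.order * f.leadingCoeff := by
  rw [HahnSeries.leadingCoeff_eq, HahnSeries.leadingCoeff_eq, order_twist, twist_coeff]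

theorem twist_mem_range_coeffMap_iff (f : LaurentSeries ℂ) :
    f ∈ (ModularCurve.coeffMap iotaK).range ↔ ∀ n, f.coeff n ∈ iotaK.range := by
  constructor
  · rintro ⟨g, rfl⟩ n
    exact ⟨g.coeff n, rfl⟩
  · intro h
    choose c hc using h
    have hsupp : Function.support c ⊆ f.support := by
      intro n hn
      rw [HahnSeries.mem_support, ← hc n]
      exact fun h0 => hn ((map_eq_zero iotaK).mp h0)
    refine ⟨⟨c, f.isPWO_support.mono hsupp⟩, ?_⟩
    ext n
    rw [ModularCurve.coeffMap_coeff]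
    exact hc n

/-- if `u` is algebraic, `twist u` preserves series with coefficients in `ℚ̄`. -/
theorem twist_mem_range (u : ℂˣ) (hu : (u : ℂ) ∈ iotaK.range) (f : LaurentSeries ℂ)
    (hf : f ∈ (ModularCurve.coeffMap iotaK).range) :
    twist u f ∈ (ModularCurve.coeffMap iotaK).range := by
  rw [twist_mem_range_coeffMap_iff] at hf ⊢
  intro n
  rw [twist_coeff]
  obtain ⟨a, ha⟩ := hu
  obtain ⟨b, hb⟩ := hf n
  exact ⟨a ^ n * b, by rw [map_mul, map_zpow₀, ha, hb]⟩

/-- `qExpand` preserves series with coefficients in `ℚ̄`. -/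
theorem qExpand_mem_range (k : ℕ) [NeZero k] (f : LaurentSeries ℂ)
    (hf : f ∈ (ModularCurve.coeffMap iotaK).range) :
    ModularCurve.qExpand ℂ k f ∈ (ModularCurve.coeffMap iotaK).range := by
  rw [twist_mem_range_coeffMap_iff] at hf ⊢
  intro n
  by_cases hn : (k : ℤ) ∣ n
  · obtain ⟨m, rfl⟩ := hn
    rw [ModularCurve.qExpand_coeff_mul]
    exact hf m
  · rw [ModularCurve.qExpand_coeff_of_not_dvd k f hn]
    exact zero_mem _

theorem order_qExpand (k : ℕ) [NeZero k] (f : LaurentSeries ℂ) :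
    (ModularCurve.qExpand ℂ k f).order = k * f.order := by
  rcases eq_or_ne f 0 with rfl | hf
  · simp
  have hf' : ModularCurve.qExpand ℂ k f ≠ 0 := by
    intro h
    exact hf (ModularCurve.qExpand_injective k (by rw [h, map_zero]))
  have hk : (0 : ℤ) < k := by exact_mod_cast Nat.pos_of_ne_zero (NeZero.ne k)
  apply le_antisymm
  · apply HahnSeries.order_le_of_coeff_ne_zero
    rw [ModularCurve.qExpand_coeff_mul]
    exact fun h => hf (HahnSeries.coeff_order_eq_zero.mp h)
  · have h1 : (ModularCurve.qExpand ℂ k f).coeff (ModularCurve.qExpand ℂ k f).order ≠ 0 :=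
      fun h => hf' (HahnSeries.coeff_order_eq_zero.mp h)
    by_cases hn : (k : ℤ) ∣ (ModularCurve.qExpand ℂ k f).order
    · obtain ⟨m, hm⟩ := hn
      rw [hm, ModularCurve.qExpand_coeff_mul] at h1
      rw [hm]
      exact mul_le_mul_of_nonneg_left (HahnSeries.order_le_of_coeff_ne_zero h1) hk.le
    · exact absurd (ModularCurve.qExpand_coeff_of_not_dvd k f hn) h1

/-- `exp (2 π i b / δ)`. -/
noncomputable def rootU (δ : ℕ) (b : ℤ) : ℂˣ :=
  Units.mk0 (Complex.exp (2 * Real.pi * Complex.I * b / δ)) (Complex.exp_ne_zero _)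

theorem twist_mem_range_iotaK_of_isAlgebraic {x : ℂ} (hx : IsAlgebraic ℚ x) :
    x ∈ iotaK.range := by
  have : Algebra.IsAlgebraic ℚ Kb := AlgebraicClosure.isAlgebraic ℚ
  have h1 := (IsAlgClosed.splits ((minpoly ℚ x).map (algebraMap ℚ Kb))).image_rootSet_of_map_ne_zero
    (IsAlgClosed.lift : Kb →ₐ[ℚ] ℂ)
    ((Polynomial.map_ne_zero (minpoly.ne_zero hx.isIntegral)))
  have h2 : x ∈ (minpoly ℚ x).rootSet ℂ := by
    rw [Polynomial.mem_rootSet]
    exact ⟨minpoly.ne_zero hx.isIntegral, minpoly.aeval ℚ x⟩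
  rw [← h1] at h2
  obtain ⟨a, -, ha⟩ := h2
  exact ⟨a, ha⟩

theorem rootU_pow (δ : ℕ) (hδ : δ ≠ 0) (b : ℤ) : ((rootU δ b : ℂˣ) : ℂ) ^ δ = 1 := by
  have hδ' : (δ : ℂ) ≠ 0 := by exact_mod_cast hδ
  show (Complex.exp (2 * Real.pi * Complex.I * b / δ)) ^ δ = 1
  rw [← Complex.exp_nat_mul, Complex.exp_eq_one_iff]
  exact ⟨b, by field_simp⟩

theorem rootU_mem_range (δ : ℕ) (b : ℤ) : ((rootU δ b : ℂˣ) : ℂ) ∈ iotaK.range := by
  rcases eq_or_ne δ 0 with rfl | hδ
  · have : ((rootU 0 b : ℂˣ) : ℂ) = 1 := by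
      show Complex.exp (2 * Real.pi * Complex.I * b / ((0 : ℕ) : ℂ)) = 1
      simp
    rw [this]
    exact one_mem _
  · apply twist_mem_range_iotaK_of_isAlgebraic
    refine ⟨Polynomial.X ^ δ - 1, ?_, ?_⟩
    · exact Polynomial.X_pow_sub_C_ne_zero (Nat.pos_of_ne_zero hδ) 1
    · simp [rootU_pow δ hδ b]

theorem isPrimitiveRoot_rootU (N : ℕ) [NeZero N] : IsPrimitiveRoot ((rootU N (-1) : ℂˣ) : ℂ) N := by
  have h := (Complex.isPrimitiveRoot_exp N (NeZero.ne N)).inv
  have e : ((rootU N (-1) : ℂˣ) : ℂ) = (Complex.exp (2 * Real.pi * Complex.I / N))⁻¹ := by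
    show Complex.exp (2 * Real.pi * Complex.I * ((-1 : ℤ) : ℂ) / N) = _
    rw [← Complex.exp_neg]
    congr 1
    push_cast
    ring
  rw [e]
  exact h

end Fermat.Agent.S24
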